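import Fermat.Agent.LevelSq.SqBuildEdge
import Fermat.Agent.LevelSq.VerticalBalanced
import Fermat.Agent.Semistable.LevelW

/-!
# The vertical valuations of level `q N` over the inertia field

The involution exchanging the two degeneracy maps is defined over the inertia field, and the
vertical valuations of `α j` are the Gauss valuation of the expansions and its image under the
involution.
-/

set_option autoImplicit false
set_option linter.style.haveILetI false
set_option linter.unusedSectionVars false
set_option synthInstance.maxHeartbeats 100000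

noncomputable section

open ModularCurve AlgebraicCurve Polynomial
open FLTAgent.Hecke FLTAgent.Igusa
open FLTAgent.ModPoly (twist twist_twist twist_one_unit)

namespace FLTAgent.LevelPow

open FLTAgent.LevelSq
open FLTAgent.Semistable (SRed alphaMap betaMap exists_swap)

local notation "Qbar" => AlgebraicClosure ℚ

section Transfer

variable {O F L : Type*} [CommRing O] [Field F] [Field L] [Algebra O F] [Algebra O L]

/-- Verticality restricts along homomorphisms. -/
theorem isVert_comap (f : F →ₐ[O] L) {c : O} {φ : F} {φ' : L} (hφ : f φ = φ')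
    {P : ValuationSubring L} (hP : IsVert O c φ' P) :
    IsVert O c φ (P.comap f.toRingHom) := by
  refine ⟨?_, fun p hp => ?_⟩
  · have h := hP.q_mem
    rw [ValuationSubring.mem_nonunits_iff_or, ← f.commutes] at h
    rw [ValuationSubring.mem_nonunits_iff_or]
    rcases h with h | h
    · exact Or.inl (f.toRingHom.injective (h.trans (map_zero f.toRingHom).symm))
    · refine Or.inr fun h' => h ?_
      have h2 : f.toRingHom (algebraMap O F c)⁻¹ ∈ P := h'
      rwa [map_inv₀] at h2
  · obtain ⟨h1, h2⟩ := hP.unit_mem p hp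
    rw [← hφ, aeval_algHom_apply] at h1 h2
    refine ⟨h1, ?_⟩
    show f.toRingHom (aeval φ p)⁻¹ ∈ P
    rw [map_inv₀]
    exact h2

/-- Verticality extends along homomorphisms. -/
theorem exists_isVert_extension (f : F →ₐ[O] L) {c : O} {φ : F} {φ' : L} (hφ : f φ = φ')
    {P : ValuationSubring F} (hP : IsVert O c φ P) :
    ∃ Q : ValuationSubring L, IsVert O c φ' Q ∧ ∀ z, z ∈ P ↔ f z ∈ Q := by
  obtain ⟨Q, hQ⟩ := exists_comap_eq_of_ringHom f.toRingHom P
  have hm : ∀ z, z ∈ P ↔ f z ∈ Q := fun z => by rw [← hQ]; rfl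
  refine ⟨Q, ⟨?_, fun p hp => ?_⟩, hm⟩
  · have h := hP.q_mem
    rw [ValuationSubring.mem_nonunits_iff_or] at h
    rw [ValuationSubring.mem_nonunits_iff_or, ← f.commutes]
    rcases h with h | h
    · exact Or.inl (by rw [h, map_zero])
    · refine Or.inr fun h' => h ?_
      rw [hm, map_inv₀]
      exact h'
  · obtain ⟨h1, h2⟩ := hP.unit_mem p hp
    rw [← hφ, aeval_algHom_apply]
    refine ⟨(hm _).1 h1, ?_⟩
    rw [← map_inv₀]
    exact (hm _).1 h2

end Transfer

variable {q : ℕ} [hq : Fact q.Prime]

local instance : NeZero q := ⟨hq.out.ne_zero⟩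

variable {A : ValuationSubring Qbar} {N : ℕ} [NeZero N]

/-- `α` over the inertia field is the inclusion of series. -/
theorem toSeries_alphaMap (u : MF (urField A) N) :
    toSeriesQbar A (N * q) (alphaMap (urField A) N q u) = toSeriesQbar A N u := by
  rw [toSeriesQbar_apply, toSeriesQbar_apply, alphaMap, coe_degMap, qExpand_one_apply]

/-- `β` over the inertia field is `x(t) ↦ x(t ^ q)`. -/
theorem toSeries_betaMap (u : MF (urField A) N) :
    toSeriesQbar A (N * q) (betaMap (urField A) N q u) = qExpand Qbar q (toSeriesQbar A N u) := by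
  rw [toSeriesQbar_apply, toSeriesQbar_apply, betaMap, coe_degMap, coeffMap_qExpand]

theorem jMF_eq_alphaMap :
    jMF (urField A) (N * q) = alphaMap (urField A) N q (jMF (urField A) N) :=
  Subtype.ext (by rw [alphaMap, coe_degMap, qExpand_one_apply]; rfl)

theorem jd_eq_betaMap :
    (⟨jd (urField A) (N * q), jd_mem _ dvd_rfl⟩ : MF (urField A) (N * q)) =
      betaMap (urField A) N q ⟨jd (urField A) N, jd_mem _ dvd_rfl⟩ := by
  refine Subtype.ext ?_
  rw [betaMap, coe_degMap]
  show qExpand (urField A) (N * q) (jqModC (urField A)) =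
    qExpand (urField A) q (qExpand (urField A) N (jqModC (urField A)))
  rw [qExpand_qExpand]
  exact qExpand_congr (mul_comm N q) _

/-- Homomorphisms out of level `N q` are determined on the two copies of level `N`. -/
theorem ringHom_edge_ext {T : Type*} [Field T] {f g : MF (urField A) (N * q) →+* T}
    (hα : ∀ u, f (alphaMap (urField A) N q u) = g (alphaMap (urField A) N q u))
    (hβ : ∀ u, f (betaMap (urField A) N q u) = g (betaMap (urField A) N q u)) : f = g := by
  refine ringHom_MF_ext (fun c => ?_) ?_ ?_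
  · rw [← (alphaMap (urField A) N q).commutes c]
    exact hα _
  · rw [jMF_eq_alphaMap]
    exact hα _
  · rw [jd_eq_betaMap]
    exact hβ _

variable (A N) in
/-- The involution of level `q N` exists over the inertia field. -/
theorem exists_swap_ur (hN : ¬ q ∣ N) :
    ∃ w : MF (urField A) (N * q) ≃ₐ[urField A] MF (urField A) (N * q),
      (∀ u, w (alphaMap (urField A) N q u) = betaMap (urField A) N q u) ∧
      (∀ u, w (betaMap (urField A) N q u) = alphaMap (urField A) N q u) ∧ ∀ x, w (w x) = x := by
  obtain ⟨wQ, hα, hβ, hww⟩ := exists_swap Qbar N q hq.out hN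
  set ι := baseEmb A (N * q) with hι
  have hιi : Function.Injective ι := ι.injective
  have hια : ∀ u, ι (alphaMap (urField A) N q u) = alphaMap Qbar N q (baseEmb A N u) := fun u =>
    Subtype.ext (by
      rw [hι, coe_baseEmb, toSeries_alphaMap, alphaMap, coe_degMap, qExpand_one_apply, coe_baseEmb])
  have hιβ : ∀ u, ι (betaMap (urField A) N q u) = betaMap Qbar N q (baseEmb A N u) := fun u =>
    Subtype.ext (by rw [hι, coe_baseEmb, toSeries_betaMap, betaMap, coe_degMap, coe_baseEmb])
  have hrange : ∀ x, wQ (ι x) ∈ ι.fieldRange := by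
    intro x
    have gen : MF (urField A) (N * q) = modularFunctionFieldC (urField A) (N * q) :=
      (degreeFacts (urField A)).gen _
    have hle : MF (urField A) (N * q) ≤ (IntermediateField.adjoin (urField A)
        ({jMF (urField A) (N * q), ⟨jd (urField A) (N * q), jd_mem _ dvd_rfl⟩} :
          Set (MF (urField A) (N * q)))).map (MF (urField A) (N * q)).val := by
      conv_lhs => rw [gen]
      refine IntermediateField.adjoin_le_iff.2 ?_
      rintro z (rfl | rfl)
      · exact ⟨_, IntermediateField.subset_adjoin _ _ (Set.mem_insert _ _), rfl⟩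
      · exact ⟨_, IntermediateField.subset_adjoin _ _ (Set.mem_insert_of_mem _ rfl), rfl⟩
    obtain ⟨y, hy, hyx⟩ := hle x.2
    obtain rfl : y = x := Subtype.ext hyx
    clear hyx
    induction hy using IntermediateField.adjoin_induction with
    | mem z hz =>
      rcases hz with rfl | rfl
      · exact ⟨betaMap (urField A) N q _, by rw [jMF_eq_alphaMap, hια, hα, hιβ]⟩
      · exact ⟨alphaMap (urField A) N q _, by rw [jd_eq_betaMap, hιβ, hβ, hια]⟩
    | algebraMap c =>
      exact ⟨algebraMap (urField A) _ c, by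
        rw [hι, baseEmb_algebraMap, AlgEquiv.commutes]⟩
    | add a b _ _ ha hb => rw [map_add, map_add]; exact add_mem ha hb
    | inv a _ ha => rw [map_inv₀, map_inv₀]; exact inv_mem ha
    | mul a b _ _ ha hb => rw [map_mul, map_mul]; exact mul_mem ha hb
  choose f hf using hrange
  let w : MF (urField A) (N * q) →ₐ[urField A] MF (urField A) (N * q) :=
    { toFun := f
      map_one' := hιi (by rw [hf, map_one, map_one])
      map_mul' := fun a b => hιi (by rw [hf, map_mul, map_mul, map_mul, hf, hf])
      map_zero' := hιi (by rw [hf, map_zero, map_zero])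
      map_add' := fun a b => hιi (by rw [hf, map_add, map_add, map_add, hf, hf])
      commutes' := fun c => hιi (by rw [hf, hι, baseEmb_algebraMap, AlgEquiv.commutes]) }
  have hw : ∀ x, ι (w x) = wQ (ι x) := hf
  have hinv : ∀ x, w (w x) = x := fun x => hιi (by rw [hw, hw, hww])
  refine ⟨AlgEquiv.ofAlgHom w w (AlgHom.ext hinv) (AlgHom.ext hinv), fun u => hιi ?_,
    fun u => hιi ?_, hinv⟩
  · exact (hw _).trans (by rw [hια, hα, hιβ])
  · exact (hw _).trans (by rw [hιβ, hβ, hια])

variable (hA : A.LiesOverPrime q)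
include hA

/-- `t ↦ t ^ q` does not create reductions. -/
theorem exists_sRed_of_qExpand {y : LaurentSeries Qbar} (hy : y ∈ fracRam q A)
    (h : ∃ r, SRed (IsLocalRing.residue A) (qExpand Qbar q y) r) :
    ∃ r, SRed (IsLocalRing.residue A) y r := by
  rcases sRed_or_inv hA hy with h1 | ⟨z, hz⟩
  · exact h1
  rcases eq_or_ne z 0 with rfl | hz0
  · rcases eq_or_ne y 0 with rfl | hy0
    · exact ⟨0, Semistable.sRed_zero⟩
    obtain ⟨r, hr⟩ := h
    have h2 := hr.mul (hz.qExpand q)
    rw [← map_mul, mul_inv_cancel₀ hy0, map_one, map_zero, mul_zero] at h2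
    exact absurd (Semistable.sRed_one.unique h2) one_ne_zero
  · exact ⟨z⁻¹, by simpa using hz.inv hz0⟩

/-- `t ↦ t ^ q` does not create zero reductions. -/
theorem sRed_zero_of_qExpand {y : LaurentSeries Qbar} (hy : y ∈ fracRam q A)
    (h : SRed (IsLocalRing.residue A) (qExpand Qbar q y) 0) :
    SRed (IsLocalRing.residue A) y 0 := by
  obtain ⟨r, hr⟩ := exists_sRed_of_qExpand hA hy ⟨0, h⟩
  have h1 := (hr.qExpand q).unique h
  rw [← map_zero (qExpand (IsLocalRing.ResidueField A) q)] at h1
  rwa [qExpand_injective q h1] at hr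

/-- The Gauss valuation of the expansions at level `q N`. -/
def edgeVal (N : ℕ) [NeZero N] : ValuationSubring (MF (urField A) (N * q)) :=
  gaussVal hA (toSeriesQbar A (N * q)) (toSeriesQbar_mem_fracRam A (N * q) q)

theorem mem_edgeVal {z : MF (urField A) (N * q)} :
    z ∈ edgeVal hA N ↔
      ∃ r, SRed (IsLocalRing.residue A) (toSeriesQbar A (N * q) z) r := Iff.rfl

set_option maxHeartbeats 800000 in
/-- The vertical valuations of level `q N`. -/
theorem eq_edgeVal_of_isVert (hN : ¬ q ∣ N)
    (w : MF (urField A) (N * q) ≃ₐ[urField A] MF (urField A) (N * q))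
    (hα : ∀ u, w (alphaMap (urField A) N q u) = betaMap (urField A) N q u)
    (hβ : ∀ u, w (betaMap (urField A) N q u) = alphaMap (urField A) N q u)
    (hww : ∀ x, w (w x) = x)
    {P : ValuationSubring (MF (urField A) (N * q))}
    (hP : IsVert (urRing A) (q : urRing A)
      (alphaMap (urField A) N q (jMF (urField A) N)) P) :
    (∀ z, z ∈ P ↔ z ∈ edgeVal hA N) ∨ (∀ z, z ∈ P ↔ w z ∈ edgeVal hA N) := by
  obtain ⟨ζ', hζ'⟩ := exists_eta (q := q)
  set ζ : Qbarˣ := (hζ'.isUnit hq.out.ne_zero).unit
  have hζ : IsPrimitiveRoot (ζ : Qbar) q := by rw [IsUnit.unit_spec]; exact hζ'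
  set j := jMF (urField A) N
  set up : MF (urField A) (N * q) →ₐ[urField A] MF (urField A) (q ^ 2 * N) :=
    degMap (urField A) 1 (mid_dvd q N) with hup
  have hupα : ∀ u, up (alphaMap (urField A) N q u) = lev (urField A) q N 0 u := fun u =>
    Subtype.ext (by
      rw [hup, coe_degMap, qExpand_one_apply, alphaMap, coe_degMap, qExpand_one_apply,
        coe_lev_zero])
  have hupβ : ∀ u, up (betaMap (urField A) N q u) = lev (urField A) q N 1 u := fun u =>
    Subtype.ext (by rw [hup, coe_degMap, qExpand_one_apply, betaMap, coe_degMap, coe_lev_one])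
  have hP1 := isVert_comap (w.toAlgHom.restrictScalars (urRing A))
    (φ := betaMap (urField A) N q j) (hβ j) hP
  obtain ⟨Q, hQv, hQ⟩ := exists_isVert_extension (up.restrictScalars (urRing A))
    (hupβ j) hP1
  have hmem : ∀ z, w z ∈ P ↔ up z ∈ Q := fun z =>
    (Iff.rfl : w z ∈ P ↔ z ∈ P.comap (w.toAlgHom.restrictScalars (urRing A)).toRingHom).trans (hQ z)
  obtain ⟨b, hb⟩ := exists_eq_branchVal hA hN hζ hQv
  set p := branchPair (q := q) b
  have hmemQ : ∀ z, w z ∈ P ↔
      ∃ r, SRed (IsLocalRing.residue A) (embK (A := A) hN hζ p (up z)) r := fun z => by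
    rw [hmem, hb]; exact Iff.rfl
  set τ := toSeriesQbar A (N * q)
  rcases ho : p.1.1 with _ | i
  · left
    have hcomp : (embK (A := A) hN hζ p).comp up.toRingHom =
        (qExpand Qbar q).comp (τ.comp w.toAlgHom.toRingHom) := by
      refine ringHom_edge_ext (fun u => ?_) fun u => ?_
      · show embK (A := A) hN hζ p (up _) = qExpand Qbar q (τ (w _))
        rw [hupα, embK_lev_zero, hα, toSeries_betaMap, qExpand_qExpand, ho, rootMap_none]
      · show embK (A := A) hN hζ p (up _) = qExpand Qbar q (τ (w _))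
        rw [hupβ, embK_lev_one, hβ, toSeries_alphaMap]
    have hval : ∀ z, embK (A := A) hN hζ p (up z) = qExpand Qbar q (τ (w z)) :=
      fun z => RingHom.congr_fun hcomp z
    intro z
    conv_lhs => rw [← hww z]
    rw [hmemQ, hval, hww]
    exact ⟨exists_sRed_of_qExpand hA (toSeriesQbar_mem_fracRam A (N * q) q z),
      fun ⟨r, hr⟩ => ⟨_, hr.qExpand q⟩⟩
  · right
    set c : Qbarˣ := ζ ^ (i : ℕ) with hc
    have hcq : c ^ q = 1 := by
      rw [hc, ← pow_mul, mul_comm, pow_mul, (IsPrimitiveRoot.coe_units_iff.1 hζ).pow_eq_one,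
        one_pow]
    have hcomp : (embK (A := A) hN hζ p).comp up.toRingHom = (twist c).comp τ := by
      refine ringHom_edge_ext (fun u => ?_) fun u => ?_
      · show embK (A := A) hN hζ p (up _) = twist c (τ _)
        rw [hupα, embK_lev_zero, toSeries_alphaMap, ho, rootMap_some]
      · show embK (A := A) hN hζ p (up _) = twist c (τ _)
        rw [hupβ, embK_lev_one, toSeries_betaMap, twist_qExpand_eq_self _ q hcq]
    have hval : ∀ z, embK (A := A) hN hζ p (up z) = twist c (τ z) :=
      fun z => RingHom.congr_fun hcomp z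
    intro z
    conv_lhs => rw [← hww z]
    rw [hmemQ, hval]
    refine ⟨fun ⟨r, hr⟩ => ⟨r, ?_⟩, fun ⟨r, hr⟩ => ⟨_, sRed_twist hA hr hcq⟩⟩
    have h1 := sRed_twist hA hr (ξ := c⁻¹) (by rw [inv_pow, hcq, inv_one])
    rwa [twist_twist, inv_mul_cancel, twist_one_unit] at h1

end FLTAgent.LevelPow
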