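import Fermat.Agent.LevelPow.Edge
import Fermat.Agent.LevelPow.EdgeSwap
import Fermat.Agent.LevelSq.Compat
import Fermat.Agent.Semistable.LevelDatum
import Fermat.Agent.Hecke.Inputs

/-!
# The edge data of level `q N`

`exists_edgeData`: over a base model of level `N`, the field of level `q N` with the two degeneracy
maps, the Gauss valuation of the expansions, the involution, the separating function and the
Kronecker function of `h` form an `EdgeData`.
-/

set_option autoImplicit false
set_option linter.style.haveILetI false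
set_option linter.unusedSectionVars false
set_option synthInstance.maxHeartbeats 200000

noncomputable section

open ModularCurve AlgebraicCurve Polynomial
open FLTAgent.Hecke FLTAgent.Igusa
open FLTAgent.ModPoly (twist twist_one_unit)

namespace FLTAgent.LevelPow

open FLTAgent.LevelSq
open FLTAgent.Semistable (SRed PhiRel phiRel_jqModC alphaMap betaMap)

local notation "Qbar" => AlgebraicClosure ℚ
local notation "Γℚ" => AlgebraicClosure ℚ ≃ₐ[ℚ] AlgebraicClosure ℚ

/-- A chart is an algebra of finite type. -/
theorem finiteType_chart {O K L : Type*} [CommRing O] [IsDomain O] [IsDiscreteValuationRing O]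
    [Field K] [Field L] [Algebra O L] [Algebra O K] [IsFractionRing O K] [Algebra K L]
    [IsScalarTower O K L] {ψ : L} (hψ : Transcendental O ψ)
    [FiniteDimensional (IntermediateField.adjoin K {ψ}) L]
    [Algebra.IsSeparable (IntermediateField.adjoin K {ψ}) L] :
    Algebra.FiniteType O (chart O ψ) := by
  haveI := finite_chart (O := O) (K := K) hψ
  haveI : Algebra.FiniteType O (Algebra.adjoin O ({ψ} : Set L)) :=
    (Subalgebra.fg_iff_finiteType _).1 ⟨{ψ}, by rw [Finset.coe_singleton]⟩
  show Algebra.FiniteType O (integralClosure (Algebra.adjoin O ({ψ} : Set L)) L)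
  exact Algebra.FiniteType.trans (S := Algebra.adjoin O ({ψ} : Set L)) inferInstance inferInstance

/-- Fractions of a ring mapped to a field containing the generators form the field they generate. -/
theorem exists_frac_of_mem_adjoin {k R T : Type*} [Field k] [CommRing R] [Field T] [Algebra k T]
    (f : R →+* T) {S : Set T} (hc : ∀ c : k, ∃ a, f a = algebraMap k T c)
    (hS : ∀ x ∈ S, ∃ a, f a = x) {r : T} (hr : r ∈ IntermediateField.adjoin k S) :
    ∃ g d, f d ≠ 0 ∧ r * f d = f g := by
  induction hr using IntermediateField.adjoin_induction with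
  | mem x hx =>
    obtain ⟨a, rfl⟩ := hS x hx
    exact ⟨a, 1, by rw [map_one]; exact one_ne_zero, by rw [map_one, mul_one]⟩
  | algebraMap c =>
    obtain ⟨a, ha⟩ := hc c
    exact ⟨a, 1, by rw [map_one]; exact one_ne_zero, by rw [map_one, mul_one, ha]⟩
  | add x y _ _ hx hy =>
    obtain ⟨g, d, hd, hgd⟩ := hx
    obtain ⟨g', d', hd', hgd'⟩ := hy
    refine ⟨g * d' + g' * d, d * d', by rw [map_mul]; exact mul_ne_zero hd hd', ?_⟩
    rw [map_add, map_mul, map_mul, map_mul, ← hgd, ← hgd']
    ring
  | inv x _ hx =>
    obtain ⟨g, d, hd, hgd⟩ := hx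
    rcases eq_or_ne x 0 with rfl | hx0
    · exact ⟨0, 1, by rw [map_one]; exact one_ne_zero, by simp⟩
    · refine ⟨d, g, ?_, ?_⟩
      · rw [← hgd]; exact mul_ne_zero hx0 hd
      · rw [← hgd, ← mul_assoc, inv_mul_cancel₀ hx0, one_mul]
  | mul x y _ _ hx hy =>
    obtain ⟨g, d, hd, hgd⟩ := hx
    obtain ⟨g', d', hd', hgd'⟩ := hy
    refine ⟨g * g', d * d', by rw [map_mul]; exact mul_ne_zero hd hd', ?_⟩
    rw [map_mul, map_mul, ← hgd, ← hgd']
    ring

variable {q : ℕ} [hq : Fact q.Prime]

local instance : NeZero q := ⟨hq.out.ne_zero⟩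

variable {A : ValuationSubring Qbar} {N : ℕ} [NeZero N]

variable (q A N) in
/-- `α` over the ring of the inertia field. -/
def alphaO : MF (urField A) N →ₐ[urRing A] MF (urField A) (N * q) :=
  (alphaMap (urField A) N q).restrictScalars (urRing A)

theorem alphaO_apply (u : MF (urField A) N) : alphaO q A N u = alphaMap (urField A) N q u := rfl

theorem toSeries_alphaO (u : MF (urField A) N) :
    toSeriesQbar A (N * q) (alphaO q A N u) = toSeriesQbar A N u := toSeries_alphaMap u

theorem transcendental_alpha_j :
    Transcendental (urRing A) (alphaMap (urField A) N q (jMF (urField A) N)) := by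
  rw [← jMF_eq_alphaMap, transcendental_iff_injective, injective_iff_map_eq_zero]
  intro p hp
  rw [← aeval_map_algebraMap (urField A)] at hp
  have h := (transcendental_iff_injective.1 (transcendental_jMF (urField A) (N * q)))
    (hp.trans (map_zero _).symm)
  exact Polynomial.map_injective _ (IsFractionRing.injective (urRing A) (urField A))
    (h.trans (Polynomial.map_zero _).symm)

theorem betaMap_j_mem_chart :
    betaMap (urField A) N q (jMF (urField A) N) ∈
      chart (urRing A) (alphaMap (urField A) N q (jMF (urField A) N)) := by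
  refine mem_chart_of_phiRel (K := urField A) q (self_mem_chart _ _) ?_
  refine PhiRel.of_map (MF (urField A) (N * q)).val Subtype.val_injective ?_
  show PhiRel (L := urField A) q
    ((alphaMap (urField A) N q (jMF (urField A) N) : MF (urField A) (N * q)) :
      LaurentSeries (urField A))
    ((betaMap (urField A) N q (jMF (urField A) N) : MF (urField A) (N * q)) :
      LaurentSeries (urField A))
  rw [alphaMap, betaMap, coe_degMap, coe_degMap, qExpand_one_apply, jMF_coe]
  exact phiRel_jqModC q

theorem finite_adjoin_alpha_j :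
    FiniteDimensional
      (IntermediateField.adjoin (urField A) {alphaMap (urField A) N q (jMF (urField A) N)})
      (MF (urField A) (N * q)) := by
  haveI := Hecke.isFunctionField_level (urField A) (N * q)
  rw [← jMF_eq_alphaMap]
  exact FunctionField.finiteDimensional_adjoin_of_transcendental (transcendental_jMF _ _)

variable (hA : A.LiesOverPrime q)
include hA

theorem noetherian_edge :
    IsNoetherianRing (chart (urRing A) (alphaMap (urField A) N q (jMF (urField A) N))) := by
  haveI := isDiscreteValuationRing_urRing hA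
  haveI := finite_adjoin_alpha_j (q := q) (A := A) (N := N)
  exact isNoetherianRing_chart (K := urField A) transcendental_alpha_j

theorem finiteType_edge :
    Algebra.FiniteType (urRing A)
      (chart (urRing A) (alphaMap (urField A) N q (jMF (urField A) N))) := by
  haveI := isDiscreteValuationRing_urRing hA
  haveI := finite_adjoin_alpha_j (q := q) (A := A) (N := N)
  exact finiteType_chart (K := urField A) transcendental_alpha_j

/-- The Gauss valuation at level `q N` is vertical. -/
theorem isVert_edgeVal :
    IsVert (urRing A) (q : urRing A) (alphaMap (urField A) N q (jMF (urField A) N))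
      (edgeVal hA N) := by
  refine ⟨?_, fun p hp => ?_⟩
  · refine (mem_nonunits_gaussVal hA _ _).2 ?_
    rw [map_natCast, map_natCast]
    exact sRed_natCast_zero hA
  · have h := sRed_aeval_jMF (N := N) p
    rw [← toSeries_alphaO (q := q), ← aeval_algHom_apply, alphaO_apply] at h
    refine ⟨(mem_edgeVal hA).2 ⟨_, h⟩, ?_⟩
    rw [mem_edgeVal, map_inv₀]
    refine ⟨_, h.inv fun h0 => hp ?_⟩
    have h1 := ModPoly.aeval_jqModC_injective (IsLocalRing.ResidueField A)
      (h0.trans (map_zero _).symm)
    refine (C_dvd_iff_dvd_coeff _ _).2 fun k => (urRes_eq_zero hA).1 ?_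
    rw [← coeff_map, h1, coeff_zero]

/-- Nonunits are divisible by `q`. -/
theorem exists_eq_q_mul_of_nonunit {z : MF (urField A) (N * q)}
    (hz : z ∈ (edgeVal hA N).nonunits) :
    ∃ y ∈ edgeVal hA N, z = algebraMap (urRing A) (MF (urField A) (N * q)) (q : urRing A) * y := by
  obtain ⟨r, hr⟩ := exists_sRed_div hA (toSeriesQbar_mem_fracRam A (N * q) q z) (fun σ hσ => by
    refine HahnSeries.ext (funext fun k => ?_)
    rw [coeffMap_coeff, toSeriesQbar_apply, coeffMap_coeff]
    exact (IntermediateField.mem_fixedField_iff _ _).1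
      ((z : LaurentSeries (urField A)).coeff k).2 σ hσ) ((mem_nonunits_gaussVal hA _ _).1 hz)
  refine ⟨(q : MF (urField A) (N * q))⁻¹ * z, (mem_edgeVal hA).2 ⟨r, ?_⟩, ?_⟩
  · rw [map_mul, map_inv₀, map_natCast]
    exact hr
  · rw [map_natCast, ← mul_assoc, mul_inv_cancel₀ (Nat.cast_ne_zero.2 hq.out.ne_zero), one_mul]

variable (B : BaseData (urRing A) (q : urRing A) q (MF (urField A) N) (IsLocalRing.ResidueField A))
  (hB : IsBaseModel B)
include hB

/-- The functions of level `N` modulo `q` are fractions of reductions of the chart. -/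
theorem exists_red_frac {r : LaurentSeries (IsLocalRing.ResidueField A)}
    (hr : r ∈ modularFunctionFieldFullC (IsLocalRing.ResidueField A) N) :
    ∃ g d : chart (urRing A) B.j, B.red d ≠ 0 ∧ r * B.red d = B.red g := by
  haveI := charP_residueField hA
  haveI := GoodRed.isAlgClosed_residue A
  refine exists_frac_of_mem_adjoin B.red (fun c => ?_) ?_ hr
  · obtain ⟨a, rfl⟩ := B.resO_surjective c
    exact ⟨algebraMap _ _ a, by
      rw [B.red_algebraMap, algebraMap_laurentSeries_eq_single]; rfl⟩
  · rintro x ⟨d, hd0, hd, rfl⟩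
    have hmem : (⟨jd (urField A) d, jd_mem _ hd⟩ : MF (urField A) N) ∈ chart (urRing A) B.j := by
      rw [hB.j_eq]
      refine mem_chart_of_phiRel (K := urField A) d (self_mem_chart _ _) ?_
      refine PhiRel.of_map (MF (urField A) N).val Subtype.val_injective ?_
      exact phiRel_jqModC d
    have h := hB.red_eq ⟨_, hmem⟩
    rw [toSeriesQbar_jd A N d hd] at h
    exact ⟨⟨_, hmem⟩, h.unique (Semistable.sRed_jd A d)⟩

variable (hN : ¬ q ∣ N)
  (w : MF (urField A) (N * q) ≃ₐ[urField A] MF (urField A) (N * q))
  (hwα : ∀ u, w (alphaMap (urField A) N q u) = betaMap (urField A) N q u)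
  (hwβ : ∀ u, w (betaMap (urField A) N q u) = alphaMap (urField A) N q u)

include hN in
/-- Reductions of functions of level `q N` are functions of level `N` modulo `q`. -/
theorem exists_red_eq_of_sRed {z : MF (urField A) (N * q)}
    {r : LaurentSeries (IsLocalRing.ResidueField A)}
    (h : SRed (IsLocalRing.residue A) (toSeriesQbar A (N * q) z) r) :
    ∃ g d : chart (urRing A) B.j, B.red d ≠ 0 ∧ r * B.red d = B.red g := by
  haveI := charP_residueField hA
  haveI := GoodRed.isAlgClosed_residue A
  exact exists_red_frac hA B hB ((Semistable.mem_fullC_iff_sRed A hA N hN r).2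
    ⟨_, (baseEmb A (N * q) z).2, h⟩)

include hN hwα hwβ in
/-- The function separating the two branches. -/
theorem exists_edge_sep :
    ∃ U ∈ chart (urRing A) (alphaMap (urField A) N q (jMF (urField A) N)),
      SRed (IsLocalRing.residue A) (toSeriesQbar A (N * q) U) (B.red B.P) ∧
        w U ∈ (edgeVal hA N).nonunits := by
  obtain ⟨ζ', hζ'⟩ := exists_eta (q := q)
  set ζ : Qbarˣ := (hζ'.isUnit hq.out.ne_zero).unit
  have hζ : IsPrimitiveRoot (ζ : Qbar) q := by rw [IsUnit.unit_spec]; exact hζ'
  obtain ⟨Φ, G, U, hΦ, hG, hE⟩ := exists_equations_at hζ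
  set kA := IsLocalRing.ResidueField A
  set x := betaMap (urField A) N q (jMF (urField A) N) with hxdef
  set y := alphaMap (urField A) N q (jMF (urField A) N) with hydef
  set τ := toSeriesQbar A (N * q) with hτ
  have hW : SRed (IsLocalRing.residue A) (qExpand Qbar q (sDinv Qbar))
      (qExpand kA q (sDinv kA)) := sRed_sDinv.qExpand q
  have hx : τ x = RingHom.id _ (qExpand Qbar q (jqModC Qbar)) := by
    rw [hτ, hxdef, toSeries_betaMap, toSeriesQbar_jMF]; rfl
  have hy : τ y = RingHom.id _ (rootJ Qbar q ζ (some ⟨0, hq.out.pos⟩)) := by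
    rw [hτ, hydef, toSeries_alphaMap, toSeriesQbar_jMF, ← rootMap_jqModC, rootMap_some, pow_zero,
      twist_one_unit]
    rfl
  refine ⟨edgeW Φ U x y, mem_chart_of_intPoly betaMap_j_mem_chart hG
    (eval_edgeW hE hζ τ _ hx hy), ?_, ?_⟩
  · rw [map_edgeW hE hζ τ _ hx hy, RingHom.id_apply, hB.red_P, rootW, pow_zero, twist_one_unit]
    exact (sRed_ofZ psD).mul hW
  · refine (mem_nonunits_gaussVal hA _ _).2
      (sRed_zero_of_qExpand hA (toSeriesQbar_mem_fracRam A (N * q) q _) ?_)
    have hx' : ((qExpand Qbar q).comp (τ.comp w.toAlgHom.toRingHom)) x =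
        RingHom.id _ (qExpand Qbar q (jqModC Qbar)) := by
      show qExpand Qbar q (τ (w x)) = _
      rw [hτ, hxdef, hwβ, toSeries_alphaMap, toSeriesQbar_jMF]; rfl
    have hy' : ((qExpand Qbar q).comp (τ.comp w.toAlgHom.toRingHom)) y =
        RingHom.id _ (rootJ Qbar q ζ none) := by
      show qExpand Qbar q (τ (w y)) = _
      rw [hτ, hydef, hwα, toSeries_betaMap, toSeriesQbar_jMF, qExpand_qExpand, ← rootMap_jqModC,
        rootMap_none]
      rfl
    show SRed _ (((qExpand Qbar q).comp (τ.comp w.toAlgHom.toRingHom)) (edgeW Φ U x y)) 0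
    rw [map_edgeW hE hζ _ _ hx' hy', RingHom.id_apply]
    have h := ((SRed.pow (sRed_natCast_zero hA) 12).mul
      ((sRed_ofZ (A := A) psD).qExpand (q * q))).mul hW
    rwa [zero_pow (by norm_num : (12 : ℕ) ≠ 0), zero_mul, zero_mul] at h

include hwα in
/-- The Kronecker function of `h`. -/
theorem exists_edge_delta :
    ∃ (z : MF (urField A) (N * q)) (d : LaurentSeries (IsLocalRing.ResidueField A)),
      SRed (IsLocalRing.residue A) (toSeriesQbar A (N * q) z) d ∧
      algebraMap (urRing A) (MF (urField A) (N * q)) (q : urRing A) * z =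
        w (alphaMap (urField A) N q B.h) - alphaMap (urField A) N q B.h ^ q ∧
      Genus.euler d = Genus.euler (B.red B.h) ^ q
        - B.red B.h ^ (q - 1) * Genus.euler (B.red B.h) := by
  set H := toSeriesQbar A N B.h with hH
  have hr := hB.red_eq B.h
  rw [← hH] at hr
  have hfix : QFixed H := qFixed_of_coeff (hB.rat_coeff _ B.h_mem_rat)
  set z₀ := w (alphaMap (urField A) N q B.h) - alphaMap (urField A) N q B.h ^ q with hz₀
  have hτ : toSeriesQbar A (N * q) z₀ = qExpand Qbar q H - H ^ q := by
    rw [hz₀, map_sub, map_pow, hwα, toSeries_betaMap, toSeries_alphaMap]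
  have h0 : SRed (IsLocalRing.residue A) (toSeriesQbar A (N * q) z₀) 0 := by
    rw [hτ]
    simpa using (sRed_qExpand_of_qFixed hA hfix hr).sub (hr.pow q)
  obtain ⟨d, hd⟩ := exists_sRed_div hA (toSeriesQbar_mem_fracRam A (N * q) q z₀)
    (fun σ _ => by
      rw [hτ]
      exact QFixed.sub (hfix.qExpand q) (hfix.pow q) σ) h0
  refine ⟨(q : MF (urField A) (N * q))⁻¹ * z₀, d, ?_, ?_, ?_⟩
  · rw [map_mul, map_inv₀, map_natCast]; exact hd
  · rw [map_natCast, ← mul_assoc, mul_inv_cancel₀ (Nat.cast_ne_zero.2 hq.out.ne_zero), one_mul]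
  · have h1 := hd.euler
    have hq0 : (q : LaurentSeries Qbar) ≠ 0 := laurent_natCast_ne_zero hq.out.ne_zero
    have hcalc : Genus.euler ((q : LaurentSeries Qbar)⁻¹ * toSeriesQbar A (N * q) z₀) =
        qExpand Qbar q (Genus.euler H) - H ^ (q - 1) * Genus.euler H := by
      rw [Genus.euler_mul, laurent_natCast_eq, ← map_inv₀, Semistable.euler_algebraMap, zero_mul,
        zero_add, hτ, map_sub, Semistable.euler_qExpand, Semistable.euler_pow, map_inv₀,
        ← laurent_natCast_eq, mul_sub, ← mul_assoc, inv_mul_cancel₀ hq0, one_mul, mul_assoc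
          ((q : LaurentSeries Qbar)), ← mul_assoc _ (q : LaurentSeries Qbar), inv_mul_cancel₀ hq0,
        one_mul]
    rw [hcalc] at h1
    have hfix' : QFixed (Genus.euler H) := fun σ => by
      rw [← Semistable.euler_coeffMap, hfix σ]
    exact h1.unique ((sRed_qExpand_of_qFixed hA hfix' hr.euler).sub ((hr.pow (q - 1)).mul hr.euler))

omit hB in
/-- The edge data of level `q N`. -/
theorem exists_edgeData (hN : ¬ q ∣ N)
    (B : BaseData (urRing A) (q : urRing A) q (MF (urField A) N) (IsLocalRing.ResidueField A))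
    (hB : IsBaseModel B) :
    ∃ D : EdgeData B (MF (urField A) (N * q)),
      (∀ z, D.α z = alphaMap (urField A) N q z) ∧
      (∀ z, D.w (D.α z) = betaMap (urField A) N q z) ∧ Algebra.FiniteType (urRing A) D.E := by
  obtain ⟨w, hα, hβ, hww⟩ := exists_swap_ur A N hN
  have hj : alphaO q A N B.j = alphaMap (urField A) N q (jMF (urField A) N) := by
    rw [alphaO_apply, hB.j_eq]
  obtain ⟨U, hU, hU1, hU2⟩ := exists_edge_sep hA B hB hN w hα hβ
  obtain ⟨zd, d, hzd, hzd1, hzd2⟩ := exists_edge_delta hA B hB w hα
  let res : edgeVal hA N →+* LaurentSeries (IsLocalRing.ResidueField A) :=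
    gaussRes hA (toSeriesQbar A (N * q)) (toSeriesQbar_mem_fracRam A (N * q) q)
  have hres : ∀ (z : edgeVal hA N) r,
      SRed (IsLocalRing.residue A) (toSeriesQbar A (N * q) z) r → res z = r :=
    fun z r h => gaussRes_eq hA _ _ h
  let D : EdgeData B (MF (urField A) (N * q)) :=
    { α := alphaO q A N
      w := w.restrictScalars (urRing A)
      w_w := hww
      mid_mem := by
        show w (alphaO q A N B.j) ∈ _
        rw [hj, hα]
        exact betaMap_j_mem_chart
      noetherian := by rw [hj]; exact noetherian_edge hA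
      V := edgeVal hA N
      isVert := by rw [hj]; exact isVert_edgeVal hA
      eq_V := fun P hP => eq_edgeVal_of_isVert hA hN w hα hβ hww (hj ▸ hP)
      nonunits_V := fun z hz => exists_eq_q_mul_of_nonunit hA hz
      res := res
      res_eq_zero := fun z => gaussRes_eq_zero hA _ _ z
      res_algebraMap := fun a z hz => hres z _ (by
        rw [hz, ← (alphaO q A N).commutes, toSeries_alphaO, hB.resO_eq]
        have h := hB.red_eq (algebraMap (urRing A) (chart (urRing A) B.j) a)
        rw [B.red_algebraMap, hB.resO_eq] at h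
        exact h)
      res_mem := fun z _ =>
        exists_red_eq_of_sRed hA B hB hN (sRed_gaussRes hA _ _ z)
      res_base := fun g z hz => hres z _ (by
        rw [hz, toSeries_alphaO]; exact hB.red_eq g)
      res_mid := fun g hg z hz => hres z _ (by
        rw [hz]
        show SRed _ (toSeriesQbar A (N * q) (w (alphaMap (urField A) N q g))) _
        rw [hα, toSeries_betaMap]
        exact sRed_qExpand_of_qFixed hA (qFixed_of_coeff (hB.rat_coeff g hg)) (hB.red_eq g))
      sep := ⟨U, by rw [hj]; exact hU,
        ⟨⟨U, (mem_edgeVal hA).2 ⟨_, hU1⟩⟩, rfl, hres _ _ hU1⟩, hU2⟩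
      delta := ⟨⟨zd, (mem_edgeVal hA).2 ⟨_, hzd⟩⟩, hzd1, by
        rw [hres ⟨zd, _⟩ d hzd]; exact hzd2⟩ }
  refine ⟨D, fun z => rfl, fun z => hα z, ?_⟩
  show Algebra.FiniteType (urRing A) (chart (urRing A) (alphaO q A N B.j))
  rw [hj]
  exact finiteType_edge hA

end FLTAgent.LevelPow
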