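import Fermat.Agent.LevelPow.SplitRing
import Fermat.Agent.LevelSq.SplitOf
import Fermat.Agent.LevelSq.GaloisField
import Mathlib.Algebra.Polynomial.Roots

/-!
# Split data for a field generated by chains of isogenous `j`-invariants

If the generators of `L` over `urField A (φ)` are reached from `φ` by chains of modular relations of
total degree dividing `R`, then with `φ ↦ j (s ^ R)` they all go to series `j (c s ^ e)`, `c ∈ μ_R`:
`L` has split data over `splitRing A R`, the valuation ring of `urField A (μ_R)`.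
-/

set_option autoImplicit false
set_option linter.style.haveILetI false
set_option linter.unusedSectionVars false
set_option synthInstance.maxHeartbeats 100000

noncomputable section

open ModularCurve Polynomial IntermediateField

namespace FLTAgent.LevelPow

open LevelSq FLTAgent.Hecke FLTAgent.Igusa FLTAgent.ModPoly FLTAgent.Semistable

local notation "Qbar" => AlgebraicClosure ℚ

/-- The field of the `R`-th roots of unity. -/
def rootsField (R : ℕ) : IntermediateField ℚ Qbar :=
  IntermediateField.adjoin ℚ {x : Qbar | x ^ R = 1}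

theorem finiteDimensional_rootsField (R : ℕ) [NeZero R] : FiniteDimensional ℚ (rootsField R) := by
  classical
  haveI : Finite {x : Qbar | x ^ R = 1} :=
    ((Polynomial.nthRoots R (1 : Qbar)).toFinset.finite_toSet.subset fun x hx => by
      simpa [Polynomial.mem_nthRoots (Nat.pos_of_ne_zero (NeZero.ne R))] using hx).to_subtype
  exact IntermediateField.finiteDimensional_adjoin fun x _ =>
    ((AlgebraicClosure.isAlgebraic ℚ).isAlgebraic x).isIntegral

/-- The valuation ring of `urField A (μ_R)`. -/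
abbrev splitRing (A : ValuationSubring Qbar) (R : ℕ) := extRing A (rootsField R)

section Facts

variable {q : ℕ} [hq : Fact q.Prime] {A : ValuationSubring Qbar} (hA : A.LiesOverPrime q)
  (R : ℕ) [NeZero R]
include hA

theorem isDiscreteValuationRing_splitRing : IsDiscreteValuationRing (splitRing A R) :=
  haveI := finiteDimensional_rootsField R
  isDiscreteValuationRing_extRing hA _

theorem exists_root_splitRing {m : ℕ} (hm : ¬ q ∣ m) (u : (splitRing A R)ˣ) :
    ∃ c : splitRing A R, c ^ m = u :=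
  haveI := finiteDimensional_rootsField R
  exists_root_ext hA _ hm u

omit hA in
theorem isAlgebraic_urField : Algebra.IsAlgebraic (urField A) Qbar :=
  haveI : Algebra.IsAlgebraic ℚ Qbar := AlgebraicClosure.isAlgebraic ℚ
  Algebra.IsAlgebraic.tower_top (K := ℚ) (urField A)

/-- An `R`-th root of unity as a unit of `splitRing A R`. -/
theorem exists_unit_splitRing (c : Qbarˣ) (hc : c ^ R = 1) :
    ∃ c' : (splitRing A R)ˣ, Units.map (algebraMap (splitRing A R) Qbar).toMonoidHom c' = c := by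
  have hmem : ∀ x : Qbar, x ^ R = 1 → ∃ y : splitRing A R,
      algebraMap (splitRing A R) Qbar y = x := fun x hx =>
    ⟨⟨⟨x, le_extField A (rootsField R) (IntermediateField.subset_adjoin ℚ _ hx)⟩,
      mem_of_pow_eq_one hA (NeZero.ne R) hx⟩, rfl⟩
  obtain ⟨y, hy⟩ := hmem c (by rw [← Units.val_pow_eq_pow_val, hc, Units.val_one])
  obtain ⟨z, hz⟩ := hmem (c⁻¹ : Qbarˣ) (by
    rw [← Units.val_pow_eq_pow_val, inv_pow, hc, inv_one, Units.val_one])
  refine ⟨⟨y, z, algebraMap_extRing_injective A _ ?_, algebraMap_extRing_injective A _ ?_⟩,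
    Units.ext hy⟩
  · rw [map_mul, map_one, hy, hz, Units.mul_inv]
  · rw [map_mul, map_one, hy, hz, Units.inv_mul]

end Facts

theorem isPoleSeries_J (W : Type*) [CommRing W] (r : ℕ) [NeZero r] :
    ∃ u, IsPoleSeries (J W r 1) r u := by
  refine ⟨PowerSeries.mk fun i => (J W r 1).coeff ((i : ℤ) - r),
    ⟨Nat.pos_of_ne_zero (NeZero.ne r), ?_, ?_⟩⟩
  · rw [← PowerSeries.coeff_zero_eq_constantCoeff_apply, PowerSeries.coeff_mk, Nat.cast_zero,
      zero_sub, coeff_J_neg]
    simp
  · ext k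
    obtain ⟨m, rfl⟩ : ∃ m : ℤ, k = m + -(r : ℤ) := ⟨k + r, by ring⟩
    rw [HahnSeries.coeff_single_mul_add, one_mul]
    rcases le_or_gt 0 m with hm | hm
    · lift m to ℕ using hm
      rw [HahnSeries.ofPowerSeries_apply_coeff, PowerSeries.coeff_mk, sub_eq_add_neg]
    · rw [ModularCurve.ofPowerSeries_coeff_of_neg _ hm]
      exact coeff_J_of_lt r 1 (by omega)

/-- The roots of `Φ_n (j (c t ^ e), ·)` for `n ∣ e`. -/
theorem exists_J_of_phiRel {L T : Type*} [Field L] [Algebra ℚ L] [IsAlgClosed L] [Field T]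
    [Algebra L T] (f : LaurentSeries L →ₐ[L] T) {n e P : ℕ} [NeZero n] [NeZero e] (hne : n ∣ e)
    {c : Lˣ} (hc : c ^ P = 1) {z : T} (h : PhiRel (L := L) n (f (J L e c)) z) :
    ∃ (e' : ℕ) (c' : Lˣ), e' ≠ 0 ∧ e / n ∣ e' ∧ c' ^ (P * n) = 1 ∧ z = f (J L e' c') := by
  obtain ⟨η, hη⟩ := exists_primitiveRoot_unit (L := L) n
  obtain ⟨d, rfl⟩ := hne
  haveI : NeZero d := ⟨fun h0 => NeZero.ne (n * d) (by rw [h0, mul_zero])⟩
  obtain ⟨x, hx⟩ := IsAlgClosed.exists_pow_nat_eq (c : L) (Nat.pos_of_ne_zero (NeZero.ne (n * d)))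
  set ξ : Lˣ := Units.mk0 x fun h0 => c.ne_zero (by rw [← hx, h0, zero_pow (NeZero.ne (n * d))])
  have hξ : ξ ^ (n * d) = c := Units.ext (by rw [Units.val_pow_eq_pow_val, Units.val_mk0, hx])
  let g := f.comp ((twistHom ξ).comp (qExpandAlg L d))
  have hg : ∀ y, g y = f (twist ξ (qExpand L d y)) := fun y => rfl
  have hbase : g (jd L n) = f (J L (n * d) c) := by
    rw [hg, jd_eq_J, qExpand_J, twist_J, one_mul, mul_comm d n, hξ]
  rw [← hbase] at h
  obtain ⟨p, hp⟩ := (phiRel_map_jd_iff n hη g).1 h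
  have ha : (p : ℕ × ℕ).1 ≠ 0 := fun h0 =>
    NeZero.ne n (Nat.eq_zero_of_zero_dvd (h0 ▸ (mem_hermiteSet.1 p.2).1))
  refine ⟨d * ((p : ℕ × ℕ).1 * (p : ℕ × ℕ).1),
    η ^ ((p : ℕ × ℕ).1 * (p : ℕ × ℕ).2) * ξ ^ (d * ((p : ℕ × ℕ).1 * (p : ℕ × ℕ).1)),
    mul_ne_zero (NeZero.ne d) (mul_ne_zero ha ha), ?_, ?_, ?_⟩
  · rw [Nat.mul_div_cancel_left _ (Nat.pos_of_ne_zero (NeZero.ne n))]
    exact dvd_mul_right _ _
  · rw [mul_pow, ← pow_mul, ← pow_mul]
    have h1 : η ^ n = 1 := (IsPrimitiveRoot.coe_units_iff.1 hη).pow_eq_one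
    rw [show (p : ℕ × ℕ).1 * (p : ℕ × ℕ).2 * (P * n) = n * ((p : ℕ × ℕ).1 * (p : ℕ × ℕ).2 * P)
      by ring, pow_mul, h1, one_pow, one_mul,
      show d * ((p : ℕ × ℕ).1 * (p : ℕ × ℕ).1) * (P * n) =
        n * d * (P * ((p : ℕ × ℕ).1 * (p : ℕ × ℕ).1)) by ring, pow_mul ξ (n * d), hξ, pow_mul c, hc,
      one_pow]
  · rw [hp, hg, jqConj_eq_J, qExpand_J, twist_J]

variable {q : ℕ} [hq : Fact q.Prime] {A : ValuationSubring Qbar}

set_option maxHeartbeats 800000 in
/-- Split data from chains of modular relations, over `splitRing A R` and `ℚ̄`. -/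
theorem exists_splitData_pow.{uT} (hA : A.LiesOverPrime q) (R : ℕ) [NeZero R]
    {L : Type*} [Field L] [Algebra (urField A) L] [Algebra (urRing A) L]
    [IsScalarTower (urRing A) (urField A) L] (φ : L) (hφ : Transcendental (urField A) φ)
    [FiniteDimensional (urField A)⟮φ⟯ L] (S : Set L)
    (hS : IntermediateField.adjoin (urField A)⟮φ⟯ S = ⊤)
    (hchain : ∀ s ∈ S, ∃ (l : ℕ) (f : ℕ → L) (n : ℕ → ℕ), f 0 = φ ∧ f l = s ∧
      (∏ i ∈ Finset.range l, n i) ∣ R ∧
      ∀ i < l, ∃ _ : NeZero (n i), PhiRel (L := urField A) (n i) (f i) (f (i + 1))) :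
    ∃ Sd : SplitData.{_, _, _, _, _, uT} (urRing A) (urField A) (splitRing A R) Qbar φ,
      ¬ IsUnit (Sd.β (q : urRing A)) ∧ Sd.β (q : urRing A) ≠ 0 := by
  classical
  haveI := finiteDimensional_rootsField R
  haveI : IsDomain (splitRing A R) := inferInstance
  haveI : CharZero (urField A)⟮φ⟯ := inferInstance
  haveI : Algebra.IsSeparable (urField A)⟮φ⟯ L := inferInstance
  obtain ⟨u, hu⟩ := isPoleSeries_J (splitRing A R) R
  have hEJ : ∀ (e : ℕ) (c : (splitRing A R)ˣ),
      coeffMap (algebraMap (splitRing A R) Qbar) (J (splitRing A R) e c) =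
        J Qbar e (Units.map (algebraMap (splitRing A R) Qbar).toMonoidHom c) := fun e c =>
    coeffMap_J _ e c
  have hEJ1 : coeffMap (algebraMap (splitRing A R) Qbar) (J (splitRing A R) R 1) = J Qbar R 1 := by
    rw [hEJ, map_one]
  have hsplit : ∀ ψ : L →+* AlgebraicClosure (LaurentSeries Qbar),
      ψ φ = algebraMap (LaurentSeries Qbar) _
        (coeffMap (algebraMap (splitRing A R) Qbar) (J (splitRing A R) R 1)) →
      (∀ x, ψ (algebraMap (urField A) L x) = algebraMap (LaurentSeries Qbar) _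
        (HahnSeries.C (algebraMap (urField A) Qbar x))) →
      ∀ s ∈ S, ∃ a b : LaurentSeries (splitRing A R), b ≠ 0 ∧
        ψ s * algebraMap (LaurentSeries Qbar) _
            (coeffMap (algebraMap (splitRing A R) Qbar) b) =
          algebraMap (LaurentSeries Qbar) _ (coeffMap (algebraMap (splitRing A R) Qbar) a) := by
    intro ψ hψφ hψK s hs
    obtain ⟨l, f, n, hf0, hfl, hprod, hrel⟩ := hchain s hs
    let e := IsScalarTower.toAlgHom Qbar (LaurentSeries Qbar)
      (AlgebraicClosure (LaurentSeries Qbar))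
    let ψ' : L →ₐ[urField A] AlgebraicClosure (LaurentSeries Qbar) :=
      { ψ with
        commutes' := fun x => by
          show ψ (algebraMap (urField A) L x) = _
          rw [hψK, IsScalarTower.algebraMap_apply (urField A) Qbar
            (AlgebraicClosure (LaurentSeries Qbar)), IsScalarTower.algebraMap_apply Qbar
            (LaurentSeries Qbar) (AlgebraicClosure (LaurentSeries Qbar)),
            algebraMap_laurentSeries_eq_single]
          rfl }
    have hchain' : ∀ i ≤ l, ∃ (ei : ℕ) (ci : Qbarˣ), ei ≠ 0 ∧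
        R / (∏ j ∈ Finset.range i, n j) ∣ ei ∧ ci ^ (∏ j ∈ Finset.range i, n j) = 1 ∧
        ψ (f i) = e (J Qbar ei ci) := by
      intro i hi
      induction i with
      | zero => exact ⟨R, 1, NeZero.ne R, by simp, by simp, by rw [hf0, hψφ, hEJ1]; rfl⟩
      | succ i ih =>
        obtain ⟨ei, ci, hei, hdvd, hci, hψi⟩ := ih (Nat.le_of_succ_le hi)
        haveI : NeZero ei := ⟨hei⟩
        obtain ⟨_, hr⟩ := hrel i hi
        have hdivR : (∏ j ∈ Finset.range i, n j) * n i ∣ R := by
          rw [← Finset.prod_range_succ]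
          exact (Finset.prod_dvd_prod_of_subset _ _ _ (Finset.range_mono hi)).trans hprod
        have hPpos : 0 < ∏ j ∈ Finset.range i, n j :=
          Nat.pos_of_ne_zero fun h0 => NeZero.ne R (by simpa [h0] using hdivR)
        have hni : n i ∣ R / ∏ j ∈ Finset.range i, n j := Nat.dvd_div_of_mul_dvd hdivR
        have hr' : PhiRel (L := Qbar) (n i) (e (J Qbar ei ci)) (ψ (f (i + 1))) := by
          rw [← hψi]
          exact (phiRel_iff_of_tower (K := urField A) (L := Qbar) (n i) _ _).1 (hr.map ψ')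
        obtain ⟨e', c', he', hd', hc', hψ'⟩ := exists_J_of_phiRel e (hni.trans hdvd) hci hr'
        refine ⟨e', c', he', ?_, by rw [Finset.prod_range_succ]; exact hc', hψ'⟩
        rw [Finset.prod_range_succ, ← Nat.div_div_eq_div_mul]
        exact (Nat.div_dvd_div hni hdvd).trans hd'
    obtain ⟨el, cl, -, -, hcl, hψl⟩ := hchain' l le_rfl
    obtain ⟨t, ht⟩ := hprod
    obtain ⟨c', hc'⟩ := exists_unit_splitRing hA R cl (by rw [ht, pow_mul, hcl, one_pow])
    refine ⟨J (splitRing A R) el c', 1, one_ne_zero, ?_⟩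
    rw [map_one, map_one, mul_one, hEJ, hc', ← hfl, hψl]
    rfl
  obtain ⟨Sd⟩ := exists_splitData_of_transcendental.{_, _, _, _, _, uT} φ hφ
    (urExtIncl A (rootsField R)) (fun a => rfl) (J (splitRing A R) R 1) R u hu
    (algebraMap_extRing_injective A _) S hS hsplit
  have hβ : ∀ a, Sd.β a = urExtIncl A (rootsField R) a := fun a =>
    algebraMap_extRing_injective A _ ((Sd.β_compat a).trans rfl)
  exact ⟨Sd, by rw [hβ]; exact not_isUnit_urExtIncl hA _,
    by rw [hβ]; exact urExtIncl_natCast_ne_zero hA _⟩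

end FLTAgent.LevelPow
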