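import Fermat.Agent.LevelPow.Classes
import Fermat.Agent.LevelPow.EdgeModel
import Fermat.Agent.LevelPow.SplitInst
import Fermat.Agent.LevelSq.ConjProd
import Fermat.Agent.RT.Carayol.Pow.Remove
import Fermat.Agent.WeilPairing.FrobeniusTrace

/-!
# The geometric input at higher prime powers

The level `N * q ^ (j + 2)` is a chain of `j + 2` edges of level `N q`. Products of conjugates over
the middle copy of level `N * q ^ j` with exponents balanced for both degeneracy maps are powers.
-/

set_option autoImplicit false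
set_option linter.style.haveILetI false
set_option linter.unusedSectionVars false
set_option synthInstance.maxHeartbeats 100000

noncomputable section

open ModularCurve AlgebraicCurve Polynomial IntermediateField Finset
open FLTAgent.Hecke FLTAgent.Igusa

namespace FLTAgent.LevelPow

open FLTAgent.LevelSq
open FLTAgent.Semistable (PhiRel phiRel_jqModC alphaMap betaMap)

local notation "Qbar" => AlgebraicClosure ℚ

section Local

variable {O : Type} [CommRing O] [IsDomain O] [IsDiscreteValuationRing O] {q : O} {qn : ℕ}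
  {FN : Type} [Field FN] [Algebra O FN] {k : Type} [Field k] [IsAlgClosed k]
  {B : BaseData O q qn FN k} {FE : Type} [Field FE] [Algebra O FE] {D : EdgeData B FE}
  {F : Type} [Field F] [Algebra O F] {L : ℕ} (C : ChainData D F L) {c : ℕ} (hc : c ≤ L)
  (hfin : Algebra.FiniteType O D.E)
  {K : Type} [Field K] [CharZero K] [Algebra O K] [IsFractionRing O K] [Algebra K F]
  [IsScalarTower O K F]

include hc hfin in
/-- At a closed point over `q` a divisible divisor is principal off the verticals. -/
theorem ChainData.exists_local_generator (hq : Prime q) (hqn : qn.Prime) {m : ℕ} (hm0 : m ≠ 0)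
    {f : F} (hf0 : f ≠ 0)
    (hdivF : ∀ V : ValuationSubring F, (∀ x : K, algebraMap K F x ∈ V) →
      ∃ y u : F, f = u * y ^ m ∧ u ∈ V ∧ u⁻¹ ∈ V)
    (n : Ideal (chart O (C.ε c B.j))) [n.IsMaximal]
    (hqn' : algebraMap O (chart O (C.ε c B.j)) q ∈ n) :
    ∃ g : F, g ≠ 0 ∧
      (∀ U, IsVert O q (C.ε c B.j) U →
        (∀ z : chart O (C.ε c B.j), (z : F) ∈ U.nonunits → z ∈ n) → g ∈ U ∧ g⁻¹ ∈ U) ∧
      ∀ W : ValuationSubring F, (∀ x : K, algebraMap K F x ∈ W) →
        (∀ z : chart O (C.ε c B.j), (z : F) ∈ W) →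
        (∀ z : chart O (C.ε c B.j), (z : F) ∈ W.nonunits → z ∈ n) →
        f / g ^ m ∈ W ∧ (f / g ^ m)⁻¹ ∈ W := by
  classical
  haveI := C.ufd_point hc hfin hq hqn n hqn'
  haveI : IsDomain (Localization.AtPrime n) :=
    IsLocalization.isDomain_localization n.primeCompl_le_nonZeroDivisors
  set R := Localization.AtPrime n
  have hunit : ∀ y : n.primeCompl, IsUnit ((chart O (C.ε c B.j)).val.toRingHom y) := fun y =>
    IsUnit.mk0 _ fun h => y.2 (by rw [show (y : chart O (C.ε c B.j)) = 0 from Subtype.ext h]; exact n.zero_mem)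
  let ψ : R →+* F := IsLocalization.lift (M := n.primeCompl) (g := (chart O (C.ε c B.j)).val.toRingHom) hunit
  have hψ : ∀ a : chart O (C.ε c B.j), ψ (algebraMap _ R a) = (a : F) := fun a => IsLocalization.lift_eq _ a
  have hψinj : Function.Injective ψ := by
    refine IsLocalization.lift_injective_iff (S := R) hunit |>.2 fun a b => ?_
    rw [(IsLocalization.injective R n.primeCompl_le_nonZeroDivisors).eq_iff]
    exact ⟨fun h => h ▸ rfl, fun h => Subtype.ext h⟩
  let e : R ≃+* ψ.range := RingEquiv.ofBijective ψ.rangeRestrict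
    ⟨fun a b h => hψinj (congrArg Subtype.val h), ψ.rangeRestrict_surjective⟩
  haveI : UniqueFactorizationMonoid ψ.range := e.toMulEquiv.uniqueFactorizationMonoid inferInstance
  have hfrac : ∀ z : F, ∃ a b : chart O (C.ε c B.j), b ≠ 0 ∧ z * (b : F) = (a : F) :=
    C.exists_fraction hc hfin hq hqn
  have hfrac' : ∀ z : F, ∃ a b : ψ.range, b ≠ 0 ∧ z * (b : F) = (a : F) := by
    intro z
    obtain ⟨a, b, hb, hab⟩ := hfrac z
    refine ⟨⟨_, algebraMap _ R a, rfl⟩, ⟨_, algebraMap _ R b, rfl⟩, fun h => hb ?_, ?_⟩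
    · exact Subtype.ext ((hψ b).symm.trans (congrArg Subtype.val h))
    · show z * ψ (algebraMap _ R b) = ψ (algebraMap _ R a)
      rw [hψ, hψ]; exact hab
  have hqF : algebraMap O F q = algebraMap K F (algebraMap O K q) :=
    IsScalarTower.algebraMap_apply O K F q
  have hqK0 : algebraMap O K q ≠ 0 := fun h =>
    hq.ne_zero ((map_eq_zero_iff _ (IsFractionRing.injective O K)).1 h)
  let qR : ψ.range := ⟨_, algebraMap _ R (algebraMap O (chart O (C.ε c B.j)) q), rfl⟩
  have hqRF : (qR : F) = algebraMap O F q := hψ _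
  have hqR0 : qR ≠ 0 := fun h => hqK0 <| (map_eq_zero (algebraMap K F)).1
    (by rw [← hqF, ← hqRF, h]; rfl)
  obtain ⟨g₀, hg₀, hg₀W⟩ := exists_horizontal_root ψ.range hfrac' hqR0 hm0 hf0
    fun V hV hVq => hdivF V fun x => by
      obtain ⟨a, b, hb, rfl⟩ := IsFractionRing.div_surjective (A := O) x
      have hb0 : b ≠ 0 := nonZeroDivisors.ne_zero hb
      have hO : ∀ o : O, algebraMap O F o ∈ V := fun o => by
        have h := hV ⟨_, algebraMap _ R (algebraMap O (chart O (C.ε c B.j)) o), rfl⟩
        exact (show algebraMap O F o = ψ (algebraMap (chart O (C.ε c B.j)) R (algebraMap O (chart O (C.ε c B.j)) o)) from (hψ (algebraMap O (chart O (C.ε c B.j)) o)).symm) ▸ h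
      obtain ⟨i, u, rfl⟩ := IsDiscreteValuationRing.eq_unit_mul_pow_irreducible hb0 hq.irreducible
      have hu : algebraMap O F (u : O) * algebraMap O F ((u⁻¹ : Oˣ) : O) = 1 := by
        rw [← map_mul, Units.mul_inv, map_one]
      rw [map_div₀, ← IsScalarTower.algebraMap_apply, ← IsScalarTower.algebraMap_apply,
        map_mul, map_pow, div_eq_mul_inv, mul_inv, ← inv_pow,
        show (algebraMap O F (u : O))⁻¹ = algebraMap O F ((u⁻¹ : Oˣ) : O) from
          inv_eq_of_mul_eq_one_right hu]
      exact mul_mem (hO a) (mul_mem (hO _) (pow_mem (hqRF ▸ hVq) _))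
  obtain ⟨g, hg, hgv, hgh⟩ := exists_unit_at_verticals (K := K) hq hfrac n hg₀
  refine ⟨g, hg, hgv, fun W h1 h2 h3 => ?_⟩
  have hRW : ∀ s : ψ.range, (s : F) ∈ W := by
    rintro ⟨_, s, rfl⟩
    obtain ⟨⟨a, d⟩, hs⟩ := IsLocalization.surj n.primeCompl s
    have h := congrArg ψ hs
    rw [map_mul, hψ, hψ] at h
    have hdu : ((d : chart O (C.ε c B.j)) : F) ∉ W.nonunits := fun hh => d.2 (h3 _ hh)
    rw [W.mem_nonunits_iff_or, not_or, not_not] at hdu
    show ψ s ∈ W
    rw [show ψ s = (a : F) * ((d : chart O (C.ε c B.j)) : F)⁻¹ by rw [← h, mul_inv_cancel_right₀ hdu.1]]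
    exact mul_mem (h2 a) hdu.2
  obtain ⟨h4, h5⟩ := hg₀W W hRW (by rw [hqRF, hqF, ← map_inv₀]; exact h1 _)
  obtain ⟨h6, h7⟩ := hgh W h1 h2 h3
  have heq : f / g ^ m = f / g₀ ^ m * (g₀ / g) ^ m := by
    rw [div_pow, div_mul_div_cancel₀ (pow_ne_zero _ hg₀)]
  rw [heq, mul_inv, ← inv_pow]
  exact ⟨mul_mem h4 (pow_mem h6 _), mul_mem h5 (pow_mem h7 _)⟩

end Local

section Generators

variable (K : Type*) [Field K] [Algebra ℚ K]

/-- The generators of a level as elements of its field. -/
def levelGens (M : ℕ) : Set (MF K M) :=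
  Set.range fun d : {d : ℕ // 0 < d ∧ d ∣ M} =>
    haveI : NeZero d.1 := ⟨d.2.1.ne'⟩
    (⟨jd K d.1, jd_mem K d.2.2⟩ : MF K M)

instance finite_levelGens (M : ℕ) [NeZero M] : Finite (levelGens K M) := by
  haveI : Finite {d : ℕ // 0 < d ∧ d ∣ M} :=
    Set.Finite.to_subtype ((Set.finite_le_nat M).subset fun d hd =>
      Nat.le_of_dvd (Nat.pos_of_ne_zero (NeZero.ne M)) hd.2)
  exact (Set.finite_range _).to_subtype

theorem adjoin_levelGens (M : ℕ) : IntermediateField.adjoin K (levelGens K M) = ⊤ := by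
  refine IntermediateField.map_injective (MF K M).val ?_
  rw [IntermediateField.adjoin_map, ← AlgHom.fieldRange_eq_map, IntermediateField.fieldRange_val]
  conv_rhs => rw [MF_eq_adjoin]
  congr 1
  ext x
  constructor
  · rintro ⟨_, ⟨⟨d, hd, hdM⟩, rfl⟩, rfl⟩
    exact ⟨d, ⟨hd.ne'⟩, hdM, rfl⟩
  · rintro ⟨d, hd, hdM, rfl⟩
    exact ⟨_, ⟨⟨d, Nat.pos_of_ne_zero hd.out, hdM⟩, rfl⟩, rfl⟩

end Generators

section Chain

variable {q : ℕ} [hq : Fact q.Prime]

local instance : NeZero q := ⟨hq.out.ne_zero⟩

variable {A : ValuationSubring Qbar}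

/-- `Φ_q (j (t ^ q), j (t)) = 0`. -/
theorem phiRel_jd_jqModC :
    PhiRel (L := urField A) q (jd (urField A) q) (jqModC (urField A)) := by
  let f : LaurentSeries (urField A) →ₐ[urField A] LaurentSeries Qbar :=
    { coeffMap (algebraMap (urField A) Qbar) with
      commutes' := fun c => by
        show coeffMap (algebraMap (urField A) Qbar) (algebraMap (urField A) _ c) = _
        rw [algebraMap_laurentSeries_eq_single, coeffMap_single,
          IsScalarTower.algebraMap_apply (urField A) Qbar (LaurentSeries Qbar),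
          algebraMap_laurentSeries_eq_single] }
  refine PhiRel.of_map f (ModPoly.coeffMap_injective (algebraMap (urField A) Qbar).injective) ?_
  show PhiRel (L := urField A) q (coeffMap (algebraMap (urField A) Qbar) (jd (urField A) q))
    (coeffMap (algebraMap (urField A) Qbar) (jqModC (urField A)))
  rw [coeffMap_qExpand, coeffMap_jqModC]
  refine (phiRel_iff_of_tower (K := urField A) (L := Qbar) q _ _).2 ?_
  obtain ⟨ζ, hζ⟩ := Semistable.exists_primitiveRoot_unit (L := Qbar) q
  obtain ⟨p, hp⟩ := Semistable.jqConj_one_zero (L := Qbar) q ζ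
  exact (Semistable.phiRel_jd_iff q hζ).2 ⟨p, hp.symm⟩

/-- Every generator is reached from `j (t ^ q)` by two modular relations. -/
theorem exists_chain_levelGens {M : ℕ} (hqM : q ∣ M) {x : MF (urField A) M}
    (hx : x ∈ levelGens (urField A) M) :
    ∃ (f : ℕ → MF (urField A) M) (n : ℕ → ℕ),
      f 0 = ⟨jd (urField A) q, jd_mem _ hqM⟩ ∧ f 2 = x ∧
      (∏ i ∈ Finset.range 2, n i) ∣ q * M ∧
      ∀ i < 2, ∃ _ : NeZero (n i), PhiRel (L := urField A) (n i) (f i) (f (i + 1)) := by
  obtain ⟨⟨d, hd, hdM⟩, rfl⟩ := hx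
  haveI : NeZero d := ⟨hd.ne'⟩
  refine ⟨fun i => if i = 0 then ⟨jd (urField A) q, jd_mem _ hqM⟩
      else if i = 1 then ⟨jqModC (urField A), jd_one (urField A) ▸ jd_mem _ (one_dvd M)⟩
      else ⟨jd (urField A) d, jd_mem _ hdM⟩,
    fun i => if i = 0 then q else d, rfl, rfl, ?_, ?_⟩
  · simp only [Finset.prod_range_succ, Finset.prod_range_zero, one_mul, if_true, if_false,
      one_ne_zero]
    exact mul_dvd_mul_left q hdM
  · intro i hi
    interval_cases i
    · exact ⟨⟨hq.out.ne_zero⟩, PhiRel.of_map (MF (urField A) M).val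
        Subtype.val_injective (phiRel_jd_jqModC (q := q))⟩
    · exact ⟨⟨hd.ne'⟩, PhiRel.of_map (MF (urField A) M).val
        Subtype.val_injective (phiRel_jqModC d)⟩

theorem transcendental_vertex_one {M : ℕ} (hqM : q ∣ M) :
    Transcendental (urField A) (⟨jd (urField A) q, jd_mem _ hqM⟩ : MF (urField A) M) := fun h =>
  transcendental_jd (urField A) q (h.algHom (MF (urField A) M).val)

theorem isIntegral_levelGens {M : ℕ} (hqM : q ∣ M) {T : Type*} [Field T] [Algebra (urField A) T]
    (g : MF (urField A) M →ₐ[urField A] T) {x : MF (urField A) M}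
    (hx : x ∈ levelGens (urField A) M) :
    IsIntegral (IntermediateField.adjoin (urField A)
      ({g ⟨jd (urField A) q, jd_mem _ hqM⟩} : Set T)) (g x) := by
  obtain ⟨f, n, h0, h2, -, hrel⟩ := exists_chain_levelGens hqM hx
  obtain ⟨_, h01⟩ := hrel 0 (by norm_num)
  obtain ⟨_, h12⟩ := hrel 1 (by norm_num)
  rw [← h2, ← h0]
  refine isIntegral_of_phiRel_trans (K := urField A) (n 1) ?_ (h12.map g)
  exact isIntegral_of_phiRel (K := urField A) (n 0)
    (⟨g (f 0), IntermediateField.mem_adjoin_simple_self _ _⟩ :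
      IntermediateField.adjoin (urField A) ({g (f 0)} : Set T)) (h01.map g)

theorem finiteDimensional_level {M : ℕ} [NeZero M] (hqM : q ∣ M) :
    FiniteDimensional (IntermediateField.adjoin (urField A)
      ({⟨jd (urField A) q, jd_mem _ hqM⟩} : Set (MF (urField A) M))) (MF (urField A) M) :=
  finiteDimensional_of_generators _ (levelGens (urField A) M)
    (fun _ hy => isIntegral_levelGens hqM (AlgHom.id (urField A) (MF (urField A) M)) hy)
    (adjoin_levelGens (urField A) M)

variable {N : ℕ} [NeZero N]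

theorem dvd_vertex {M L : ℕ} (hM : N * q ^ L ∣ M) (i : ℕ) : N * q ^ min i L ∣ M :=
  (mul_dvd_mul_left N (pow_dvd_pow q (min_le_right i L))).trans hM

theorem dvd_edge {M L : ℕ} (hL : 0 < L) (hM : N * q ^ L ∣ M) (i : ℕ) :
    N * q * q ^ min i (L - 1) ∣ M := by
  rw [mul_assoc, ← pow_succ']
  refine (mul_dvd_mul_left N (pow_dvd_pow q ?_)).trans hM
  have := min_le_right i (L - 1)
  omega

/-- The `i`-th vertex of level `N q ^ L`. -/
def vertexMap {M L : ℕ} (hM : N * q ^ L ∣ M) (i : ℕ) :
    MF (urField A) N →ₐ[urRing A] MF (urField A) M :=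
  (degMap (urField A) (q ^ min i L) (dvd_vertex hM i)).restrictScalars (urRing A)

/-- The `i`-th edge of level `N q ^ L`. -/
def edgeMap {M L : ℕ} (hL : 0 < L) (hM : N * q ^ L ∣ M) (i : ℕ) :
    MF (urField A) (N * q) →ₐ[urRing A] MF (urField A) M :=
  (degMap (urField A) (q ^ min i (L - 1)) (dvd_edge hL hM i)).restrictScalars (urRing A)

theorem coe_vertexMap {M L : ℕ} (hM : N * q ^ L ∣ M) (i : ℕ) (x : MF (urField A) N) :
    (vertexMap hM i x : LaurentSeries (urField A)) =
      qExpand (urField A) (q ^ min i L) (x : LaurentSeries (urField A)) := rfl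

theorem coe_edgeMap {M L : ℕ} (hL : 0 < L) (hM : N * q ^ L ∣ M) (i : ℕ)
    (x : MF (urField A) (N * q)) :
    (edgeMap hL hM i x : LaurentSeries (urField A)) =
      qExpand (urField A) (q ^ min i (L - 1)) (x : LaurentSeries (urField A)) := rfl

variable (hA : A.LiesOverPrime q)
  (B : BaseData (urRing A) (q : urRing A) q (MF (urField A) N) (IsLocalRing.ResidueField A))
  (hB : IsBaseModel B)
include hA hB

/-- `h` is not fixed by `t ↦ t ^ (q ^ 2)`. -/
theorem qExpand_h_ne :
    qExpand (urField A) (q * q) (((B.h : MF (urField A) N)) : LaurentSeries (urField A)) ≠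
      ((B.h : MF (urField A) N) : LaurentSeries (urField A)) := by
  intro h
  set H : LaurentSeries (urField A) := ((B.h : MF (urField A) N) : LaurentSeries (urField A))
  set d : ℤ := ((q * q : ℕ) : ℤ) with hd
  have hd2 : (2 : ℤ) ≤ d := by
    have := hq.out.two_le
    rw [hd]; exact_mod_cast (by nlinarith : 2 ≤ q * q)
  have hzero : ∀ k : ℤ, k ≠ 0 → H.coeff k = 0 := by
    intro k
    induction hk : k.natAbs using Nat.strong_induction_on generalizing k with
    | _ a ih =>
      intro hk0
      rw [← h]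
      by_cases hdk : d ∣ k
      · obtain ⟨l, rfl⟩ := hdk
        rw [qExpand_coeff_mul]
        have hl : l ≠ 0 := fun h0 => hk0 (by rw [h0, mul_zero])
        refine ih l.natAbs ?_ l rfl hl
        rw [← hk, Int.natAbs_mul]
        have : 2 ≤ d.natAbs := by omega
        have := Int.natAbs_pos.2 hl
        nlinarith
      · exact qExpand_coeff_of_not_dvd _ _ hdk
  have hH : (B.h : MF (urField A) N) = algebraMap (urField A) _ (H.coeff 0) := by
    apply Subtype.ext
    show H = algebraMap (urField A) (LaurentSeries (urField A)) (H.coeff 0)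
    rw [algebraMap_laurentSeries_eq_single]
    ext k
    rcases eq_or_ne k 0 with rfl | hk
    · rw [HahnSeries.coeff_single_same]
    · rw [hzero k hk, HahnSeries.coeff_single_of_ne hk]
  haveI := isDiscreteValuationRing_urRing hA
  have heul : ∀ a : urRing A, B.h = algebraMap (urRing A) _ a → False := fun a ha =>
    B.euler_h_ne (by rw [ha, B.red_algebraMap, HahnSeries.C_apply, Genus.euler_single_zero])
  by_cases hc : H.coeff 0 ∈ urRing A
  · exact heul ⟨_, hc⟩ (Subtype.ext hH)
  · have hinv : (H.coeff 0)⁻¹ ∈ urRing A := ((urRing A).mem_or_inv_mem _).resolve_left hc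
    have hne : H.coeff 0 ≠ 0 := fun h0 => hc (h0 ▸ zero_mem _)
    obtain ⟨a, ha⟩ : (q : urRing A) ∣ ⟨_, hinv⟩ := by
      by_contra hndvd
      obtain ⟨n, u, hu⟩ := exists_unit_mul_pow_ur hA
        (a := ⟨_, hinv⟩) fun h0 => inv_ne_zero hne (congrArg Subtype.val h0)
      rcases n with _ | n
      · rw [pow_zero, mul_one] at hu
        refine hc ?_
        have h1 : (((u⁻¹ : (urRing A)ˣ) : urRing A) : urField A) = H.coeff 0 := by
          have e := congrArg Subtype.val (Units.mul_inv u)
          rw [← hu] at e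
          exact eq_of_div_eq_one ((div_eq_inv_mul _ _).trans e)
        exact h1 ▸ ((u⁻¹ : (urRing A)ˣ) : urRing A).2
      · exact hndvd (hu ▸ ⟨(u : urRing A) * (q : urRing A) ^ n, by rw [pow_succ]; ring⟩)
    have h1 : B.h * algebraMap (urRing A) (chart (urRing A) B.j) ((q : urRing A) * a) = 1 := by
      apply Subtype.ext
      show (B.h : MF (urField A) N) * algebraMap (urRing A) (MF (urField A) N) _ = 1
      rw [← ha, hH, IsScalarTower.algebraMap_apply (urRing A) (urField A) (MF (urField A) N),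
        ← map_mul]
      exact (congrArg _ (mul_inv_cancel₀ hne)).trans (map_one _)
    have := congrArg B.red h1
    rw [map_mul, map_one, B.red_algebraMap, map_mul, (B.resO_eq_zero _).2 dvd_rfl, zero_mul,
      map_zero, mul_zero] at this
    exact zero_ne_one this

/-- The chain of level `N q ^ L`. -/
theorem exists_chainData {D : EdgeData B (MF (urField A) (N * q))}
    (hα : ∀ z, D.α z = alphaMap (urField A) N q z)
    (hβ : ∀ z, D.w (D.α z) = betaMap (urField A) N q z) {M L : ℕ} (hL : 0 < L)
    (hM : N * q ^ L = M) :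
    ∃ C : ChainData D (MF (urField A) M) L,
      C.ε = vertexMap hM.dvd ∧ C.e = edgeMap hL hM.dvd := by
  haveI := isDiscreteValuationRing_urRing hA
  have e_α : ∀ i < L, ∀ g, edgeMap hL hM.dvd i (D.α g) = vertexMap hM.dvd i g := fun i hi g => by
    apply Subtype.ext
    rw [coe_edgeMap, coe_vertexMap, hα, alphaMap, coe_degMap, qExpand_qExpand]
    exact qExpand_congr (by rw [mul_one, min_eq_left (by omega), min_eq_left (by omega)]) _
  have e_w : ∀ i < L, ∀ g,
      edgeMap hL hM.dvd i (D.w (D.α g)) = vertexMap hM.dvd (i + 1) g := fun i hi g => by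
    apply Subtype.ext
    rw [coe_edgeMap, coe_vertexMap, hβ, betaMap, coe_degMap, qExpand_qExpand]
    exact qExpand_congr (by rw [min_eq_left (by omega), min_eq_left (by omega), pow_succ]) _
  refine ⟨⟨hL, vertexMap hM.dvd, edgeMap hL hM.dvd, e_α, e_w, fun i hi h => ?_, fun z => ?_⟩,
    rfl, rfl⟩
  · have h' := congrArg Subtype.val h
    rw [coe_vertexMap, coe_vertexMap] at h'
    refine qExpand_h_ne hA B hB (qExpand_injective (R := urField A) (q ^ min i L) ?_).symm
    rw [h', qExpand_qExpand]
    exact qExpand_congr (by rw [min_eq_left (by omega), min_eq_left (by omega)]; ring) _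
  · set S := Algebra.adjoin (urRing A) (⋃ i, ⋃ (_ : i < L),
      edgeMap hL hM.dvd i '' (D.E : Set (MF (urField A) (N * q))))
    have hgen : ∀ x ∈ levelGens (urField A) M, x ∈ S := by
      rintro _ ⟨⟨d, hd, hdM⟩, rfl⟩
      haveI : NeZero d := ⟨hd.ne'⟩
      obtain ⟨d₁, d₂, h1, h2, rfl⟩ :=
        (dvd_mul (k := d)).1 (hM.symm ▸ hdM : d ∣ N * q ^ L)
      obtain ⟨i, hi, rfl⟩ := (Nat.dvd_prime_pow hq.out).1 h2
      haveI : NeZero d₁ := ⟨fun h0 => hd.ne' (by rw [h0, zero_mul])⟩
      let g : MF (urField A) N := ⟨jd (urField A) d₁, jd_mem _ h1⟩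
      have hg : g ∈ chart (urRing A) B.j := by
        rw [hB.j_eq]
        refine mem_chart_of_phiRel (K := urField A) d₁ (self_mem_chart _ _) ?_
        refine PhiRel.of_map (MF (urField A) N).val Subtype.val_injective ?_
        show PhiRel (L := urField A) d₁ (jMF (urField A) N : LaurentSeries (urField A))
          (jd (urField A) d₁)
        rw [jMF_coe]
        exact phiRel_jqModC d₁
      have hgE : D.α g ∈ D.E := D.α_mem ⟨g, hg⟩
      have hv : ∀ i ≤ L, vertexMap hM.dvd i g ∈ S := by
        intro i hi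
        rcases hi.lt_or_eq with hi' | rfl
        · exact e_α i hi' g ▸ Algebra.subset_adjoin
            (Set.mem_iUnion₂.2 ⟨i, hi', D.α g, hgE, rfl⟩)
        · have := e_w (i - 1) (by omega) g
          rw [show i - 1 + 1 = i by omega] at this
          exact this ▸ Algebra.subset_adjoin
            (Set.mem_iUnion₂.2 ⟨i - 1, by omega, D.w (D.α g), D.w_mem hgE, rfl⟩)
      convert hv i hi using 1
      apply Subtype.ext
      rw [coe_vertexMap, min_eq_left hi]
      show jd (urField A) (d₁ * q ^ i) = qExpand (urField A) (q ^ i) (jd (urField A) d₁)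
      rw [jd, jd, qExpand_qExpand]
      exact qExpand_congr (mul_comm _ _) _
    have hz : z ∈ IntermediateField.adjoin (urField A) (levelGens (urField A) M) := by
      rw [adjoin_levelGens]; trivial
    induction hz using IntermediateField.adjoin_induction with
    | mem x hx => exact ⟨x, 1, hgen x hx, one_mem _, one_ne_zero, mul_one x⟩
    | algebraMap c =>
      obtain ⟨a, b, hb, rfl⟩ := IsFractionRing.div_surjective (A := urRing A) c
      have hb0 : algebraMap (urRing A) (urField A) b ≠ 0 :=
        IsFractionRing.to_map_ne_zero_of_mem_nonZeroDivisors hb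
      refine ⟨algebraMap (urRing A) _ a, algebraMap (urRing A) _ b, S.algebraMap_mem _,
        S.algebraMap_mem _, ?_, ?_⟩
      · rw [IsScalarTower.algebraMap_apply (urRing A) (urField A)]
        exact (_root_.map_ne_zero _).2 hb0
      · rw [IsScalarTower.algebraMap_apply (urRing A) (urField A) (MF (urField A) M) b,
          IsScalarTower.algebraMap_apply (urRing A) (urField A) (MF (urField A) M) a, ← map_mul,
          div_mul_cancel₀ _ hb0]
    | add x y _ _ hx hy =>
      obtain ⟨a, b, ha, hb, hb0, hab⟩ := hx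
      obtain ⟨a', b', ha', hb', hb0', hab'⟩ := hy
      exact ⟨a * b' + a' * b, b * b', add_mem (mul_mem ha hb') (mul_mem ha' hb), mul_mem hb hb',
        mul_ne_zero hb0 hb0', by rw [← hab, ← hab']; ring⟩
    | inv x _ hx =>
      obtain ⟨a, b, ha, hb, hb0, hab⟩ := hx
      rcases eq_or_ne x 0 with rfl | hx0
      · exact ⟨0, 1, zero_mem _, one_mem _, one_ne_zero, by simp⟩
      · exact ⟨b, a, hb, ha, hab ▸ mul_ne_zero hx0 hb0, by
          rw [← hab, ← mul_assoc, inv_mul_cancel₀ hx0, one_mul]⟩
    | mul x y _ _ hx hy =>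
      obtain ⟨a, b, ha, hb, hb0, hab⟩ := hx
      obtain ⟨a', b', ha', hb', hb0', hab'⟩ := hy
      exact ⟨a * a', b * b', mul_mem ha ha', mul_mem hb hb', mul_ne_zero hb0 hb0', by
        rw [← hab, ← hab']; ring⟩

set_option maxHeartbeats 1000000 in
/-- The geometric input at level `N q ^ (j + 2)` over a base model of level `N`. -/
theorem powGeometryAt_of_baseData [IsAlgClosed (IsLocalRing.ResidueField A)] (hN : ¬ q ∣ N)
    {j : ℕ} (hj : 1 ≤ j) {m : ℕ} (hm : ¬ q ∣ m) :
    RT.Carayol.PowGeometryAt q A (N * q ^ j) m := by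
  classical
  intro L _ _ X _ ι hmid hgen f hf0 hdivF c hcA hcB
  rcases isEmpty_or_nonempty X with hX | ⟨⟨x₀⟩⟩
  · exact ⟨1, by rw [one_pow, Fintype.prod_empty]⟩
  haveI := isDiscreteValuationRing_urRing hA
  obtain ⟨D, hα, hβ, hfin⟩ := exists_edgeData hA hN B hB
  have hM : N * q ^ (j + 2) = N * q ^ j * q * q := by ring
  haveI : NeZero (N * q ^ j * q * q) := ⟨by
    rw [← hM]; exact mul_ne_zero (NeZero.ne N) (pow_ne_zero _ hq.out.ne_zero)⟩
  obtain ⟨C, hε, he⟩ := exists_chainData hA B hB hα hβ (L := j + 2) (by omega) hM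
  letI : Algebra (urRing A) L :=
    ((algebraMap (urField A) L).comp (algebraMap (urRing A) (urField A))).toAlgebra
  haveI : IsScalarTower (urRing A) (urField A) L := IsScalarTower.of_algebraMap_eq fun _ => rfl
  have hqM : q ∣ N * q ^ j * q * q := dvd_mul_left q _
  have hv1 : C.ε 1 B.j = ⟨jd (urField A) q, jd_mem _ hqM⟩ := by
    apply Subtype.ext
    rw [hε, coe_vertexMap, hB.j_eq, jMF_coe]
    show qExpand (urField A) (q ^ min 1 (j + 2)) (jqModC (urField A)) =
      qExpand (urField A) q (jqModC (urField A))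
    exact qExpand_congr (by rw [min_eq_left (by omega), pow_one]) _
  set φL : L := ι x₀ (C.ε 1 B.j) with hφL
  -- agreement on the middle
  have hmidv : ∀ p p' i, 1 ≤ i → i < j + 2 → ∀ y : MF (urField A) N,
      ι p (C.ε i y) = ι p' (C.ε i y) := by
    intro p p' i h1 h2 y
    have hd : N * q ^ (i - 1) ∣ N * q ^ j := mul_dvd_mul_left N (pow_dvd_pow q (by omega))
    have e : C.ε i y = degMap (urField A) q (dvd_mul_right (N * q ^ j * q) q)
        (degMap (urField A) (q ^ (i - 1)) hd y) := by
      apply Subtype.ext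
      rw [hε, coe_vertexMap, coe_degMap, coe_degMap, qExpand_qExpand]
      exact qExpand_congr (by rw [min_eq_left (by omega), ← pow_succ']; congr 1; omega) _
    rw [e]; exact hmid p p' _
  have hmide : ∀ p p' i, 1 ≤ i → i + 1 < j + 2 → ∀ z : MF (urField A) (N * q),
      ι p (C.e i z) = ι p' (C.e i z) := by
    intro p p' i h1 h2 z
    have hd : N * q * q ^ (i - 1) ∣ N * q ^ j := by
      rw [mul_assoc, ← pow_succ']; exact mul_dvd_mul_left N (pow_dvd_pow q (by omega))
    have e : C.e i z = degMap (urField A) q (dvd_mul_right (N * q ^ j * q) q)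
        (degMap (urField A) (q ^ (i - 1)) hd z) := by
      apply Subtype.ext
      rw [he, coe_edgeMap, coe_degMap, coe_degMap, qExpand_qExpand]
      exact qExpand_congr (by rw [min_eq_left (by omega), ← pow_succ']; congr 1; omega) _
    rw [e]; exact hmid p p' _
  have hι : ∀ p, ι p (C.ε 1 B.j) = φL := fun p => hmidv p x₀ 1 le_rfl (by omega) B.j
  -- the sums along the outer edges
  have hfirst : ∀ p₀, (∑ᶠ (p : X) (_ : ∀ z, ι p (C.e 0 z) = ι p₀ (C.e 0 z)), c p) = 0 := by
    intro p₀
    have hd : N * q * 1 ∣ N * q ^ j * q := by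
      rw [mul_one, mul_assoc N (q ^ j) q]; exact mul_dvd_mul_left N (dvd_mul_left q _)
    have hE : ∀ z, C.e 0 z = degMap (urField A) 1
        (show N * q ^ j * q * 1 ∣ N * q ^ j * q * q by rw [mul_one]; exact dvd_mul_right _ q)
        (degMap (urField A) 1 hd z) := fun z => by
      apply Subtype.ext
      rw [he, coe_edgeMap, coe_degMap, coe_degMap, qExpand_qExpand]
      exact qExpand_congr (by simp) _
    rw [finsum_cond_eq_sum_of_cond_iff _ (t := Finset.univ.filter fun p =>
      decide (∀ z, ι p (C.e 0 z) = ι p₀ (C.e 0 z)) = true) fun {p} _ => by simp]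
    refine hcA Bool (fun p => decide (∀ z, ι p (C.e 0 z) = ι p₀ (C.e 0 z))) (fun p p' h => ?_) true
    refine decide_eq_decide.2 (forall_congr' fun z => ?_)
    rw [hE z]
    exact iff_of_eq (congrArg (· = _) (DFunLike.congr_fun h _))
  have hlast : ∀ p₀, (∑ᶠ (p : X)
      (_ : ∀ z, ι p (C.e (j + 2 - 1) z) = ι p₀ (C.e (j + 2 - 1) z)), c p) = 0 := by
    intro p₀
    have hd : N * q * q ^ j ∣ N * q ^ j * q := dvd_of_eq (by ring)
    have hE : ∀ z, C.e (j + 2 - 1) z = degMap (urField A) q (dvd_refl (N * q ^ j * q * q))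
        (degMap (urField A) (q ^ j) hd z) := fun z => by
      apply Subtype.ext
      rw [he, coe_edgeMap, coe_degMap, coe_degMap, qExpand_qExpand]
      exact qExpand_congr (by rw [min_self, ← pow_succ']; congr 1) _
    rw [finsum_cond_eq_sum_of_cond_iff _ (t := Finset.univ.filter fun p =>
      decide (∀ z, ι p (C.e (j + 2 - 1) z) = ι p₀ (C.e (j + 2 - 1) z)) = true)
      fun {p} _ => by simp]
    refine hcB Bool (fun p => decide (∀ z, ι p (C.e (j + 2 - 1) z) = ι p₀ (C.e (j + 2 - 1) z)))
      (fun p p' h => ?_) true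
    refine decide_eq_decide.2 (forall_congr' fun z => ?_)
    rw [hE z]
    exact iff_of_eq (congrArg (· = _) (DFunLike.congr_fun h _))
  -- the field of conjugates
  have hphi : ∀ p, ι p ⟨jd (urField A) q, jd_mem _ hqM⟩ = φL := fun p => hv1 ▸ hι p
  have hφF : Transcendental (urRing A) (C.ε 1 B.j) := C.transcendental_ε 1
  have hφK : Transcendental (urField A) φL := fun h => by
    rw [← hphi x₀] at h
    exact transcendental_vertex_one hqM
      ((isAlgebraic_algHom_iff (ι x₀) (ι x₀).toRingHom.injective).1 h)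
  have hφO : Transcendental (urRing A) φL := fun h =>
    hφK (h.extendScalars Subtype.val_injective)
  set S : Set L := ⋃ p, ι p '' levelGens (urField A) (N * q ^ j * q * q)
  haveI : Finite S := (Set.finite_iUnion fun p =>
    (Set.toFinite (levelGens (urField A) (N * q ^ j * q * q))).image _).to_subtype
  have hStop : IntermediateField.adjoin (urField A) S = ⊤ := by
    rw [eq_top_iff, ← hgen, IntermediateField.adjoin_le_iff]
    refine Set.iUnion_subset fun p => ?_
    rintro _ ⟨z, rfl⟩
    have hle : (IntermediateField.adjoin (urField A)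
        (levelGens (urField A) (N * q ^ j * q * q))).map (ι p) ≤
        IntermediateField.adjoin (urField A) S := by
      rw [IntermediateField.adjoin_map]
      exact IntermediateField.adjoin.mono _ _ _ (Set.subset_iUnion_of_subset p subset_rfl)
    exact hle ⟨z, (adjoin_levelGens (urField A) (N * q ^ j * q * q)).symm ▸ trivial, rfl⟩
  haveI : FiniteDimensional (IntermediateField.adjoin (urField A) ({φL} : Set L)) L := by
    refine finiteDimensional_of_generators φL S (fun y hy => ?_) hStop
    obtain ⟨p, x, hx, rfl⟩ := Set.mem_iUnion.1 hy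
    have h := isIntegral_levelGens hqM (ι p) hx
    rw [hphi p] at h
    exact h
  haveI : FiniteDimensional (IntermediateField.adjoin (urField A)
      ({C.ε 1 B.j} : Set (MF (urField A) (N * q ^ j * q * q)))) (MF (urField A) _) := by
    exact hv1.symm ▸ finiteDimensional_level hqM
  haveI := isNoetherianRing_chart_of_finite (K := urField A) φL hφO
  haveI := isNoetherianRing_chart_of_finite (K := urField A) (C.ε 1 B.j) hφF
  have hm0 : m ≠ 0 := fun h => hm (h ▸ dvd_zero q)
  obtain ⟨e, he0, hqe, hbal⟩ := C.exists_balanced (qn := q) (prime_natCast_urRing hA) hq.out hfin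
    hφO ι c (by omega) hι hmidv hmide hfirst hlast
  have hqem : ¬ q ∣ e * m := fun h => (hq.out.dvd_mul.1 h).elim hqe hm
  obtain ⟨ρ, hρ⟩ := exists_primitiveRoot_urRing hA hqem
  have hpos : 0 < e * m := Nat.pos_of_ne_zero (mul_ne_zero he0 hm0)
  have hρ1 : IsPrimitiveRoot (ρ ^ e) m := hρ.pow hpos rfl
  have hρ2 : IsPrimitiveRoot (ρ ^ m) e := hρ.pow hpos (mul_comm _ _)
  haveI : NeZero (q * (N * q ^ j * q * q)) := ⟨mul_ne_zero hq.out.ne_zero (NeZero.ne _)⟩
  have hStop' : IntermediateField.adjoin (IntermediateField.adjoin (urField A) ({φL} : Set L)) S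
      = ⊤ := by
    refine eq_top_iff.2 fun z _ => ?_
    have hle : IntermediateField.adjoin (urField A) S ≤
        (IntermediateField.adjoin (IntermediateField.adjoin (urField A) ({φL} : Set L)) S).restrictScalars
          (urField A) :=
      IntermediateField.adjoin_le_iff.2 (IntermediateField.subset_adjoin _ _)
    exact hle (hStop.symm ▸ IntermediateField.mem_top)
  obtain ⟨Sd, hSd1, hSd2⟩ := exists_splitData_pow.{0} hA (q * (N * q ^ j * q * q)) φL hφK S hStop'
    fun s hs => by
      obtain ⟨p, x, hx, rfl⟩ := Set.mem_iUnion.1 hs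
      obtain ⟨g, n, h0, h2, hn, hrel⟩ := exists_chain_levelGens hqM hx
      refine ⟨2, fun i => ι p (g i), n, (congrArg (ι p) h0).trans (hphi p), congrArg (ι p) h2, hn, fun i hi => ?_⟩
      obtain ⟨hn0, hr⟩ := hrel i hi
      exact ⟨hn0, hr.map (ι p)⟩
  haveI := isDiscreteValuationRing_splitRing hA (q * (N * q ^ j * q * q))
  haveI := isAlgebraic_urField (A := A)
  exact exists_pow_eq_of_balanced (K := urField A) (φ := C.ε 1 B.j) (φL := φL)
    (prime_natCast_urRing hA) (isUnit_natCast_urRing hA hm) hm0 hρ1 hφO ι hι c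
    (isUnit_natCast_urRing hA hqe) he0 hρ2 hbal hf0
    (fun n hn hqn => haveI := hn
      C.exists_local_generator (by omega) hfin (prime_natCast_urRing hA) hq.out hm0 hf0 hdivF n hqn)
    hdivF Sd (algebraMap_extRing_injective A _) hSd1 hSd2
    (fun u => exists_root_splitRing hA _ hm u) (exists_eq_of_isAlgebraic_compl hA)

omit hA hB in
/-- The geometry at higher powers exists at every prime with base models. -/
theorem powGeometryExists [NeZero q] (hbase : RT.Carayol.BaseModelExists q) :
    RT.Carayol.PowGeometryExists q := by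
  intro A hA M hM hqM
  haveI := WeilPairing.isAlgClosed_residueField A
  obtain ⟨N, _, hMN, hN, B, hB⟩ := hbase A hA M hM hqM
  exact ⟨N, Nat.pos_of_ne_zero (NeZero.ne N), hMN, hN,
    fun j hj m hm => powGeometryAt_of_baseData hA B hB hN hj hm⟩

end Chain

end FLTAgent.LevelPow
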