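import Fermat.Agent.LevelPow.Cotangent

/-!
# An edge at a vertical valuation

A map `f` of the edge field into a field with a vertical valuation `V` either sees the branch
(`Sees f V`: the source of `f` is the child) or its image by the involution.  Two maps agreeing on
the source and seeing the same branch are residually equal, and equal if both sources are children.
-/

set_option autoImplicit false
set_option linter.style.haveILetI false
set_option linter.unusedSectionVars false

noncomputable section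

open Polynomial IsLocalRing

namespace FLTAgent.LevelPow

open LevelSq

section Vert

variable {O : Type*} [CommRing O] [IsDomain O] [IsDiscreteValuationRing O]
  {F : Type*} [Field F] [Algebra O F] {q : O}

/-- A vertical valuation is vertical for every coordinate with the same chart. -/
theorem isVert_of_integral (hq : Prime q) {ψ φ : F} (hφ : Transcendental O φ)
    {V : ValuationSubring F} (hV : IsVert O q φ V) (h1 : ψ ∈ chart O φ) (h2 : φ ∈ chart O ψ) :
    IsVert O q ψ V := by
  classical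
  let S : Subalgebra O F := { V.toSubring with algebraMap_mem' := hV.algebraMap_mem hq }
  let jV : S →+* V := S.val.toRingHom.codRestrict V.toSubring fun x => x.2
  letI : Algebra O (IsLocalRing.ResidueField V) :=
    (((IsLocalRing.residue V).comp jV).comp (algebraMap O S)).toAlgebra
  let r : S →ₐ[O] IsLocalRing.ResidueField V :=
    { (IsLocalRing.residue V).comp jV with commutes' := fun _ => rfl }
  have hres : ∀ z : S, r z = 0 ↔ (z : F) ∈ V.nonunits := fun z => by
    show IsLocalRing.residue V (jV z) = 0 ↔ _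
    rw [IsLocalRing.residue_eq_zero_iff, ← SetLike.mem_coe (p := V.nonunits),
      ← ValuationSubring.image_maximalIdeal]
    refine ⟨fun h => ⟨jV z, h, rfl⟩, fun ⟨w, hw, hwz⟩ => ?_⟩
    obtain rfl : w = jV z := Subtype.ext hwz
    exact hw
  let ψS : S := ⟨ψ, (hV.chart_le' hq).1 h1⟩
  let φS : S := ⟨φ, (hV.mem hq.not_isUnit).1⟩
  refine ⟨hV.q_mem, fun p hp => ?_⟩
  have hpS : aeval ψ p = ((aeval ψS p : S) : F) := aeval_algHom_apply S.val ψS p
  refine ⟨hpS ▸ (aeval ψS p).2, ?_⟩
  by_contra hinv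
  have hp0 : aeval (r ψS) p = 0 := by
    rw [aeval_algHom_apply, hres, ← hpS]
    exact V.mem_nonunits_iff_or.2 (Or.inr hinv)
  have hq0 : algebraMap O (IsLocalRing.ResidueField V) q = 0 := (hres (algebraMap O S q)).2 hV.q_mem
  -- the residue of `ψ` is integral over `O`
  have hψint : IsIntegral O (r ψS) := by
    obtain ⟨d, hd⟩ : ∃ d, ¬ q ∣ p.coeff d :=
      not_forall.1 fun h => hp ((C_dvd_iff_dvd_coeff q p).2 h)
    set T := p.support.filter fun i => ¬ q ∣ p.coeff i
    have hdT : d ∈ T := Finset.mem_filter.2 ⟨mem_support_iff.2 fun h => hd (h ▸ dvd_zero q), hd⟩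
    set D := T.max' ⟨d, hdT⟩
    obtain ⟨u, hu⟩ : IsUnit (p.coeff D) := by
      by_contra h
      refine (Finset.mem_filter.1 (T.max'_mem ⟨d, hdT⟩)).2 ?_
      rw [← Ideal.mem_span_singleton, ← hq.irreducible.maximalIdeal_eq]
      exact (mem_maximalIdeal _).2 h
    set p₁ := ∑ i ∈ Finset.range (D + 1), Polynomial.C (p.coeff i) * X ^ i with hp₁
    have hcoe : ∀ i, p₁.coeff i = if i < D + 1 then p.coeff i else 0 := fun i => by
      simp only [hp₁, finsetSum_coeff, coeff_C_mul_X_pow, Finset.sum_ite_eq, Finset.mem_range]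
    refine ⟨Polynomial.C (↑u⁻¹ : O) * p₁, monic_of_natDegree_le_of_coeff_eq_one D ?_ ?_, ?_⟩
    · refine natDegree_le_iff_coeff_eq_zero.2 fun i hi => ?_
      rw [coeff_C_mul, hcoe, if_neg (by omega), mul_zero]
    · rw [coeff_C_mul, hcoe, if_pos (Nat.lt_succ_self D), ← hu, Units.inv_mul]
    · show aeval (r ψS) _ = 0
      have hp2 : aeval (r ψS) p = aeval (r ψS) p₁ := by
        rw [← sub_eq_zero, ← map_sub, aeval_eq_sum_range]
        refine Finset.sum_eq_zero fun i _ => ?_
        rw [coeff_sub, hcoe]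
        split_ifs with h
        · rw [sub_self, zero_smul]
        · obtain ⟨c, hc⟩ : q ∣ p.coeff i := by
            by_contra h'
            exact h (Nat.lt_succ_of_le (T.le_max' i
              (Finset.mem_filter.2 ⟨mem_support_iff.2 fun h0 => h' (h0 ▸ dvd_zero q), h'⟩)))
          rw [sub_zero, hc, Algebra.smul_def, map_mul, hq0, zero_mul, zero_mul]
      rw [map_mul, ← hp2, hp0, mul_zero]
  -- hence so is that of `φ`
  have hφint : IsIntegral O (r φS) := by
    obtain ⟨g, hg, hgφ⟩ := (mem_chart O).1 h2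
    let A₁ := Algebra.adjoin O ({r ψS} : Set (IsLocalRing.ResidueField V))
    haveI : Algebra.IsIntegral O A₁ := Algebra.IsIntegral.adjoin (by simpa using hψint)
    let m : Algebra.adjoin O ({ψ} : Set F) →ₐ[O] S :=
      Subalgebra.inclusion (Algebra.adjoin_le (Set.singleton_subset_iff.2 ψS.2))
    let m₁ : Algebra.adjoin O ({ψ} : Set F) →ₐ[O] A₁ := (r.comp m).codRestrict A₁ fun x => by
      obtain ⟨t, ht⟩ := exists_aeval_eq O x.2
      rw [AlgHom.comp_apply, show m x = aeval ψS t from
        Subtype.ext (ht.symm.trans (aeval_algHom_apply S.val ψS t)), ← aeval_algHom_apply]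
      exact aeval_mem_adjoin_singleton O (r ψS)
    refine isIntegral_trans (A := A₁) _ ⟨g.map m₁.toRingHom, hg.map _, ?_⟩
    rw [eval₂_map]
    have h0 : g.eval₂ ((algebraMap A₁ (IsLocalRing.ResidueField V)).comp m₁.toRingHom) (r φS)
        = r (g.eval₂ m.toRingHom φS) := by
      rw [← AlgHom.coe_toRingHom r, hom_eval₂]
      rfl
    rw [h0, ← map_zero r]
    refine congrArg r (Subtype.ext ?_)
    refine Eq.trans ?_ hgφ
    rw [← Subalgebra.coe_val, ← AlgHom.coe_toRingHom, hom_eval₂]
    rfl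
  obtain ⟨g, hg, hgφ⟩ := hφint
  have hgC : ¬ Polynomial.C q ∣ g := fun hd =>
    hq.not_isUnit (isUnit_of_dvd_one (by
      simpa [hg.coeff_natDegree] using C_dvd_iff_dvd_coeff q g |>.1 hd g.natDegree))
  have hnu : aeval φ g ∈ V.nonunits := by
    rw [show aeval φ g = ((aeval φS g : S) : F) from aeval_algHom_apply S.val φS g, ← hres,
      ← aeval_algHom_apply]
    exact hgφ
  rw [V.mem_nonunits_iff_or] at hnu
  exact hnu.elim (fun h0 => hφ ⟨g, hg.ne_zero, h0⟩) fun h => h (hV.unit_mem g hgC).2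

end Vert

section Ideals

variable {O : Type*} [CommRing O] [IsDomain O] [IsDiscreteValuationRing O]
  {F : Type*} [Field F] [Algebra O F] {q : O} {φ : F}

theorem mem_nonunits_iff_map {F' : Type*} [Field F'] (f : F' →+* F) {V : ValuationSubring F}
    {U : ValuationSubring F'} (h : ∀ z, f z ∈ V ↔ z ∈ U) (z : F') :
    f z ∈ V.nonunits ↔ z ∈ U.nonunits := by
  rw [V.mem_nonunits_iff_or, U.mem_nonunits_iff_or, ← map_inv₀, h, map_eq_zero]

/-- The centre of a valuation on a ring inside it. -/
def centreOf (V : ValuationSubring F) (A : Subalgebra O F) (hA : ∀ z ∈ A, z ∈ V) : Ideal A :=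
  (IsLocalRing.maximalIdeal V).comap (A.val.toRingHom.codRestrict V.toSubring fun z => hA z z.2)

theorem mem_centreOf {V : ValuationSubring F} {A : Subalgebra O F} {hA : ∀ z ∈ A, z ∈ V} {z : A} :
    z ∈ centreOf V A hA ↔ (z : F) ∈ V.nonunits := by
  rw [centreOf, Ideal.mem_comap, ← SetLike.mem_coe (p := V.nonunits),
    ← ValuationSubring.image_maximalIdeal]
  exact ⟨fun h => ⟨_, h, rfl⟩, fun ⟨w, hw, hwe⟩ => by
    rwa [show w = (A.val.toRingHom.codRestrict V.toSubring fun z => hA z z.2) z from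
      Subtype.ext hwe] at hw⟩

instance isPrime_centreOf (V : ValuationSubring F) (A : Subalgebra O F) (hA : ∀ z ∈ A, z ∈ V) :
    (centreOf V A hA).IsPrime :=
  Ideal.comap_isPrime _ _

theorem inv_mem_of_notMem {V : ValuationSubring F} {A : Subalgebra O F} {hA : ∀ z ∈ A, z ∈ V}
    {z : A} (hz : z ∉ centreOf V A hA) : (z : F) ≠ 0 ∧ (z : F)⁻¹ ∈ V := by
  rw [mem_centreOf, V.mem_nonunits_iff_or, not_or, not_not] at hz
  exact hz

/-- The centre of a vertical valuation is minimal over `q`. -/
theorem centreOf_mem_minimalPrimes (hq : Prime q) {V : ValuationSubring F} (hV : IsVert O q φ V) :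
    centreOf V (chart O φ) (fun _ hz => (hV.chart_le' hq).1 hz) ∈
      (Ideal.span {algebraMap O (chart O φ) q}).minimalPrimes := by
  set P := centreOf V (chart O φ) (fun _ hz => (hV.chart_le' hq).1 hz)
  have hqP : algebraMap O (chart O φ) q ∈ P := mem_centreOf.2 hV.q_mem
  refine ⟨⟨inferInstance, (Ideal.span_singleton_le_iff_mem _).2 hqP⟩, fun Q hQ hQP => ?_⟩
  haveI := hQ.1
  intro z hz
  by_contra hzQ
  obtain ⟨g, hg, hgz⟩ := (mem_chart O).1 z.2
  let incl : Algebra.adjoin O ({φ} : Set F) →ₐ[O] chart O φ :=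
    Subalgebra.inclusion (adjoin_le_chart O φ)
  letI : Algebra (Algebra.adjoin O ({φ} : Set F)) (chart O φ) := incl.toRingHom.toAlgebra
  have h0 : g.eval₂ (algebraMap (Algebra.adjoin O ({φ} : Set F)) (chart O φ)) z = 0 :=
    Subtype.ext (by
      rw [← Subalgebra.coe_val, ← AlgHom.coe_toRingHom, hom_eval₂, map_zero]; exact hgz)
  have hne : g.map ((Ideal.Quotient.mk Q).comp (algebraMap _ (chart O φ))) ≠ 0 :=
    (hg.map _).ne_zero
  obtain ⟨i, hi, hiQ⟩ := Ideal.exists_coeff_ne_zero_mem_comap_of_non_zero_divisor_root_mem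
    (R := chart O φ ⧸ Q) (S := chart O φ ⧸ Q) (r := Ideal.Quotient.mk Q z)
    (fun {x} hx => ((mul_eq_zero.1 hx).resolve_right fun h =>
      hzQ (Ideal.Quotient.eq_zero_iff_mem.1 h)))
    (I := P.map (Ideal.Quotient.mk Q)) (Ideal.mem_map_of_mem _ hz)
    (f := RingHom.id _) (p := g.map ((Ideal.Quotient.mk Q).comp (algebraMap _ (chart O φ)))) hne (by
      rw [eval₂_id, eval_map, ← hom_eval₂, h0, map_zero])
  obtain ⟨hi0, hiP⟩ := And.intro hi hiQ
  rw [coeff_map] at hi0 hiP
  rw [Ideal.mem_comap, RingHom.id_apply, RingHom.comp_apply,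
    Ideal.mem_quotient_iff_mem hQP] at hiP
  obtain ⟨t, ht⟩ := exists_aeval_eq O (g.coeff i).2
  have hdvd : Polynomial.C q ∣ t := by
    by_contra hnd
    obtain ⟨h1, h2⟩ := hV.unit_mem t hnd
    have h3 : aeval φ t ∈ V.nonunits := by
      have h := mem_centreOf.1 hiP
      rw [ht]; exact h
    rw [V.mem_nonunits_iff_or] at h3
    rcases h3 with h3 | h3
    · refine hi0 ?_
      rw [RingHom.comp_apply, Ideal.Quotient.eq_zero_iff_mem,
        show algebraMap _ (chart O φ) (g.coeff i) = 0 from Subtype.ext (ht.symm.trans h3)]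
      exact Q.zero_mem
    · exact h3 h2
  obtain ⟨t', rfl⟩ := hdvd
  refine hi0 ?_
  rw [RingHom.comp_apply, Ideal.Quotient.eq_zero_iff_mem,
    show algebraMap _ (chart O φ) (g.coeff i)
      = algebraMap O (chart O φ) q * ⟨aeval φ t', aeval_mem_chart O φ t'⟩ from Subtype.ext (by
      show (g.coeff i : F) = algebraMap O F q * aeval φ t'
      rw [← ht, map_mul, aeval_C])]
  exact Q.mul_mem_right _ (hQ.2 (Ideal.mem_span_singleton_self _))

end Ideals

variable {O : Type} [CommRing O] [IsDomain O] [IsDiscreteValuationRing O] {q : O} {qn : ℕ}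
  {FN : Type} [Field FN] [Algebra O FN] {k : Type} [Field k] [IsAlgClosed k]
  {B : BaseData O q qn FN k} {FE : Type} [Field FE] [Algebra O FE]

namespace EdgeData

variable (D : EdgeData B FE) {LL : Type} [Field LL] [Algebra O LL]

/-- `f` sees the branch: its source is the child. -/
def Sees (f : FE →ₐ[O] LL) (V : ValuationSubring LL) : Prop := ∀ z, f z ∈ V ↔ z ∈ D.V

/-- The map with source and target exchanged. -/
abbrev flip (f : FE →ₐ[O] LL) : FE →ₐ[O] LL := f.comp D.w.toAlgHom

theorem flip_apply (f : FE →ₐ[O] LL) (z : FE) : D.flip f z = f (D.w z) := rfl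

variable {D} {f g : FE →ₐ[O] LL} {V : ValuationSubring LL}

theorem Sees.nonunits_iff (h : D.Sees f V) (z : FE) : f z ∈ V.nonunits ↔ z ∈ D.V.nonunits :=
  mem_nonunits_iff_map f.toRingHom h z

variable (hq : Prime q)

include hq in
/-- A map with a vertical valuation sees one of the branches. -/
theorem sees_or (f : FE →ₐ[O] LL) (hV : IsVert O q (f (D.α B.j)) V) :
    D.Sees f V ∨ D.Sees (D.flip f) V := by
  have h : IsVert O q (D.α B.j) (V.comap f.toRingHom) := by
    refine ⟨?_, fun p hp => ?_⟩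
    · rw [← mem_nonunits_iff_map f.toRingHom (U := V.comap f.toRingHom) (V := V) fun _ => Iff.rfl,
        AlgHom.toRingHom_eq_coe, AlgHom.coe_toRingHom, f.commutes]
      exact hV.q_mem
    · have := hV.unit_mem p hp
      rw [aeval_algHom_apply, ← map_inv₀] at this
      exact this
  rcases D.eq_V _ h with h | h
  · exact Or.inl fun z => h z
  · exact Or.inr fun z => (h (D.w z)).trans (by rw [D.w_w])

theorem exists_sep_E (D : EdgeData B FE) :
    ∃ U : D.E, U ∈ D.centre' hq ∧ U ∉ D.centre hq := by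
  obtain ⟨U, hU, ⟨z, hz, hres⟩, hwU⟩ := D.sep
  refine ⟨⟨U, hU⟩, (D.mem_centre' hq).2 ((D.mem_centre hq).2 hwU), fun h => ?_⟩
  have h2 : B.red B.P = 0 := by
    rw [← hres, ← show D.resE hq ⟨U, hU⟩ = D.res z from
      congrArg D.res (Subtype.ext hz.symm)]
    exact h
  have h3 := B.rho_pow
  rw [h2, mul_zero] at h3
  obtain ⟨u, hu⟩ := B.isUnit_Q
  exact (IsUnit.pow (qn - 1) ((hu ▸ u.isUnit).map B.red)).ne_zero h3.symm

include hq in
theorem Sees.false_of_flip (h : D.Sees f V) (h' : D.Sees (D.flip f) V) : False := by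
  obtain ⟨U, hU', hU⟩ := D.exists_sep_E hq
  refine hU ((D.mem_centre hq).2 ((h.nonunits_iff _).1 ?_))
  have h1 : D.flip f (D.w U) ∈ V.nonunits :=
    (h'.nonunits_iff _).2 ((D.mem_centre hq).1 ((D.mem_centre' hq).1 hU'))
  rwa [flip_apply, D.w_w] at h1

include hq in
/-- Two maps with one source seeing the branch there are residually equal. -/
theorem sub_mem_nonunits_of_sees (hf : D.Sees f V) (hg : D.Sees g V)
    (hagree : ∀ y : FN, f (D.α y) = g (D.α y)) (z : D.E) : f z - g z ∈ V.nonunits := by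
  obtain ⟨y, hy⟩ := D.exists_sub_mem_centre hq z
  have h1 := (hf.nonunits_iff _).2 ((D.mem_centre hq).1 hy)
  have h2 := (hg.nonunits_iff _).2 ((D.mem_centre hq).1 hy)
  simp only [Subalgebra.coe_sub, coe_αE, map_sub, ← hagree] at h1 h2
  simpa using sub_mem h1 h2

include hq in
/-- The same for the other branch: `q`-th roots of residues are unique. -/
theorem sub_mem_nonunits_of_sees_flip (hqn : qn.Prime) (hV : algebraMap O LL q ∈ V.nonunits)
    (hf : D.Sees (D.flip f) V) (hg : D.Sees (D.flip g) V)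
    (hagree : ∀ y : FN, f (D.α y) = g (D.α y)) (z : D.E) : f z - g z ∈ V.nonunits := by
  haveI := Fact.mk hqn
  have hfV : ∀ x : D.E, D.flip f x ∈ V := fun x => (hf x).2 (D.mem_V hq x.2)
  have hgV : ∀ x : D.E, D.flip g x ∈ V := fun x => (hg x).2 (D.mem_V hq x.2)
  haveI : CharP (IsLocalRing.ResidueField V) qn := by
    refine (CharP.charP_iff_prime_eq_zero hqn).2 ?_
    rw [← map_natCast (IsLocalRing.residue V), IsLocalRing.residue_eq_zero_iff]
    rw [← SetLike.mem_coe, ← ValuationSubring.image_maximalIdeal] at hV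
    obtain ⟨w, hw, hwq⟩ := hV
    rwa [show w = (qn : V) from Subtype.ext (by
      rw [show (w : LL) = algebraMap O LL q from hwq, B.q_eq, map_natCast]; rfl)] at hw
  let a : D.E →+* IsLocalRing.ResidueField V := (IsLocalRing.residue V).comp
    (((D.flip f).comp D.E.val).toRingHom.codRestrict V.toSubring hfV)
  let b : D.E →+* IsLocalRing.ResidueField V := (IsLocalRing.residue V).comp
    (((D.flip g).comp D.E.val).toRingHom.codRestrict V.toSubring hgV)
  have hab : ∀ x : D.E, a x = b x ↔ D.flip f x - D.flip g x ∈ V.nonunits := fun x => by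
    rw [← sub_eq_zero]
    show IsLocalRing.residue V _ - IsLocalRing.residue V _ = 0 ↔ _
    rw [← map_sub, IsLocalRing.residue_eq_zero_iff, ← SetLike.mem_coe (p := V.nonunits),
      ← ValuationSubring.image_maximalIdeal]
    refine ⟨fun h => ⟨_, h, rfl⟩, fun ⟨w, hw, hwe⟩ => ?_⟩
    convert hw
    exact Subtype.ext hwe.symm
  have hcent : ∀ x ∈ D.centre hq, a x = 0 ∧ b x = 0 := fun x hx => by
    have h1 := (hf.nonunits_iff _).2 ((D.mem_centre hq).1 hx)
    have h2 := (hg.nonunits_iff _).2 ((D.mem_centre hq).1 hx)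
    rw [← SetLike.mem_coe, ← ValuationSubring.image_maximalIdeal] at h1 h2
    obtain ⟨w₁, hw₁, hw₁e⟩ := h1
    obtain ⟨w₂, hw₂, hw₂e⟩ := h2
    refine ⟨(IsLocalRing.residue_eq_zero_iff _).2 ?_, (IsLocalRing.residue_eq_zero_iff _).2 ?_⟩
    · convert hw₁; exact Subtype.ext hw₁e.symm
    · convert hw₂; exact Subtype.ext hw₂e.symm
  have hv : ∀ y : chart O B.j, a (D.vE (D.αE y)) = b (D.vE (D.αE y)) := fun y => by
    rw [hab]
    simp only [flip_apply, coe_vE, coe_αE, D.w_w, hagree, sub_self]
    exact V.nonunits.zero_mem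
  have hα : ∀ y : chart O B.j, a (D.αE y) = b (D.αE y) := by
    intro y
    have hy : y ∈ Algebra.adjoin O (B.rat : Set (chart O B.j)) := by
      rw [B.adjoin_rat]; exact Algebra.mem_top
    induction hy using Algebra.adjoin_induction with
    | mem y hy =>
      have hc : D.vE (D.αE y) - D.αE y ^ qn ∈ D.centre hq := by
        rw [centre, RingHom.mem_ker, map_sub, map_pow, D.resE_αE, D.resE_vE_αE hq hy, sub_self]
      obtain ⟨h1, h2⟩ := hcent _ hc
      rw [map_sub, map_pow, sub_eq_zero] at h1 h2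
      exact frobenius_inj _ qn (by
        simp only [frobenius_def]; rw [← h1, ← h2, hv])
    | algebraMap r =>
      rw [hab]
      simp only [AlgHom.commutes, Subalgebra.coe_algebraMap, sub_self]
      exact V.nonunits.zero_mem
    | add x y _ _ hx hy => rw [map_add, map_add, map_add, hx, hy]
    | mul x y _ _ hx hy => rw [map_mul, map_mul, map_mul, hx, hy]
  obtain ⟨y, hy⟩ := D.exists_sub_mem_centre hq (D.vE z)
  obtain ⟨h1, h2⟩ := hcent _ hy
  rw [map_sub, sub_eq_zero] at h1 h2
  have h := (hab (D.vE z)).1 (by rw [h1, h2, hα])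
  rwa [flip_apply, flip_apply, coe_vE, D.w_w] at h

include hq in
/-- Two maps with one source, a child for both, are equal. -/
theorem eq_of_sees {φ : LL} [IsNoetherianRing (chart O φ)] (hV : IsVert O q φ V)
    (hψ : f (D.α B.j) ∈ chart O φ) (hf : D.Sees f V) (hg : D.Sees g V)
    (hagree : ∀ y : FN, f (D.α y) = g (D.α y)) (z : D.E) : f z = g z := by
  set A := chart O φ
  let fA : D.E →ₐ[O] A := (f.comp D.E.val).codRestrict A fun x =>
    isIntegral_of_le hψ (map_mem_chart f x.2)
  let gA : D.E →ₐ[O] A := (g.comp D.E.val).codRestrict A fun x =>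
    isIntegral_of_le (hagree B.j ▸ hψ) (map_mem_chart g x.2)
  have hA : ∀ x ∈ A, x ∈ V := fun _ hx => (hV.chart_le' hq).1 hx
  set P := centreOf V A hA
  set R := Localization.AtPrime P
  haveI : IsNoetherianRing R := IsLocalization.isNoetherianRing P.primeCompl _ inferInstance
  haveI : IsDomain R := IsLocalization.isDomain_localization P.primeCompl_le_nonZeroDivisors
  let π : A →+* R := algebraMap A R
  have hfP : ∀ x : D.E, fA x ∈ P ↔ x ∈ D.centre hq := fun x =>
    mem_centreOf.trans ((hf.nonunits_iff _).trans (D.mem_centre hq).symm)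
  have hgP : ∀ x : D.E, gA x ∈ P ↔ x ∈ D.centre hq := fun x =>
    mem_centreOf.trans ((hg.nonunits_iff _).trans (D.mem_centre hq).symm)
  set J : Ideal R := Ideal.span (Set.range fun t => π (fA t - gA t)) with hJ
  have hJm : ∀ t, π (fA t - gA t) ∈ J := fun t => Ideal.subset_span ⟨t, rfl⟩
  have hπP : ∀ x ∈ P, π x ∈ maximalIdeal R := fun x hx =>
    (IsLocalization.AtPrime.to_map_mem_maximal_iff R P x).2 hx
  suffices H : J ≤ maximalIdeal R • J by
    have h0 : J = ⊥ := Submodule.eq_bot_of_le_smul_of_le_jacobson_bot _ _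
      (IsNoetherian.noetherian J) H (by rw [IsLocalRing.jacobson_eq_maximalIdeal _ bot_ne_top])
    have h1 := h0 ▸ hJm z
    rw [Ideal.mem_bot, map_eq_zero_iff _ (IsLocalization.injective R
      P.primeCompl_le_nonZeroDivisors), sub_eq_zero] at h1
    exact congrArg Subtype.val h1
  rw [hJ, Ideal.span_le, smul_eq_mul]
  rintro _ ⟨t, rfl⟩
  obtain ⟨y, hy⟩ := D.exists_sub_mem_centre hq t
  obtain ⟨u, hu', hu⟩ := D.exists_sep_E hq
  obtain ⟨s, hs⟩ := D.exists_eq_q_mul hq (s := u * (t - D.αE y))
    ((D.centre hq).mul_mem_left u hy) (by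
      rw [map_mul]
      exact Ideal.mul_mem_right _ _ ((D.mem_centre' hq).1 hu'))
  set c := t - D.αE y
  have hc : fA t - gA t = fA c - gA c := by
    have : fA (D.αE y) = gA (D.αE y) := Subtype.ext (hagree y)
    simp only [c, map_sub, this, sub_sub_sub_cancel_right]
  show π (fA t - gA t) ∈ maximalIdeal R * J
  rw [hc]
  refine mem_of_unit_mul_mem (s := π (fA u)) (fun h => hu ((hfP u).1
    ((IsLocalization.AtPrime.to_map_mem_maximal_iff R P _).1 h))) ?_
  have e : fA u * (fA c - gA c) = algebraMap O A q * (fA s - gA s) - gA c * (fA u - gA u) := by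
    have h1 := congrArg fA hs
    have h2 := congrArg gA hs
    simp only [map_mul, AlgHom.commutes] at h1 h2
    linear_combination h1 - h2
  rw [← map_mul, e, map_sub, map_mul, map_mul]
  exact sub_mem (Ideal.mul_mem_mul (hπP _ (mem_centreOf.2 hV.q_mem)) (hJm s))
    (Ideal.mul_mem_mul (hπP _ ((hgP c).2 hy)) (hJm u))

end EdgeData

end FLTAgent.LevelPow
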