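import Fermat.Agent.LevelPow.Local
import Fermat.Agent.LevelPow.Sees
import Fermat.Agent.LevelSq.Balanced

/-!
# Balanced weights on the embeddings of a chain

At a vertical valuation of the target, embeddings of a chain agreeing away from the two outer
vertices are residually determined by the branches seen at the two outer edges, and one of the two
ends sees a single branch.  So weights with vanishing sums along both outer edges are balanced,
with one exponent for all valuations.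
-/

set_option autoImplicit false
set_option linter.style.haveILetI false
set_option linter.unusedSectionVars false

noncomputable section

open Polynomial IsLocalRing Finset

namespace FLTAgent.LevelPow

open LevelSq

/-- Every nonzero element of a Noetherian normal chart is a unit times a power of the generator of
a prime minimal over `q`. -/
theorem exists_unit_mul_pow_generator {O F : Type} [CommRing O] [IsDomain O]
    [IsDiscreteValuationRing O] [Field F] [Algebra O F] {q : O}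
    {φ : F} [IsNoetherianRing (chart O φ)] (hq0 : algebraMap O F q ≠ 0) {P : Ideal (chart O φ)}
    (hP : P ∈ (Ideal.span {algebraMap O (chart O φ) q}).minimalPrimes) :
    ∃ π ∈ P, π ≠ 0 ∧ ∀ r : chart O φ, r ≠ 0 →
      ∃ (t : ℕ) (u v : chart O φ), u ∉ P ∧ v ∉ P ∧ v * r = u * π ^ t := by
  haveI := hP.isPrime
  have hint : ∀ x : F, IsIntegral (chart O φ).toSubring x → x ∈ (chart O φ).toSubring :=
    fun x hx => mem_of_isIntegral_chart hx
  haveI : IsNoetherianRing (chart O φ).toSubring := ‹IsNoetherianRing (chart O φ)›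
  have hc : algebraMap O (chart O φ) q ≠ 0 := fun h => hq0 (congrArg Subtype.val h)
  obtain ⟨π, hπP, hπ⟩ : ∃ π : chart O φ, π ∈ P ∧ ∀ p ∈ P, ∃ t : chart O φ, t ∉ P ∧
      t * p ∈ Ideal.span {π} := by
    obtain ⟨π, h1, h2⟩ :=
      exists_generator (chart O φ).toSubring hint (c := algebraMap O (chart O φ) q) hc hP
    exact ⟨π, h1, h2⟩
  have hπ0 : π ≠ 0 := fun h => by
    obtain ⟨t, ht, htq⟩ := hπ _ (hP.1.2 (Ideal.mem_span_singleton_self _))
    rw [h, Ideal.span_singleton_eq_bot.2 rfl, Ideal.mem_bot, mul_eq_zero] at htq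
    exact htq.elim (fun h' => ht (h' ▸ Ideal.zero_mem _)) hc
  refine ⟨π, hπP, hπ0, fun r hr => ?_⟩
  set R := Localization.AtPrime P
  haveI : IsNoetherianRing R := IsLocalization.isNoetherianRing P.primeCompl _ inferInstance
  haveI : IsDomain R := IsLocalization.isDomain_localization P.primeCompl_le_nonZeroDivisors
  set a := algebraMap (chart O φ) R π
  have hinj := IsLocalization.injective R P.primeCompl_le_nonZeroDivisors
  have hM : maximalIdeal R = Ideal.span {a} := by
    refine le_antisymm (fun x hx => ?_) ((Ideal.span_singleton_le_iff_mem _).2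
      ((IsLocalization.AtPrime.to_map_mem_maximal_iff R P π).2 hπP))
    obtain ⟨⟨s, d⟩, hsd⟩ := IsLocalization.surj P.primeCompl x
    have hs : s ∈ P := (IsLocalization.AtPrime.to_map_mem_maximal_iff R P s).1
      (hsd ▸ Ideal.mul_mem_right _ _ hx)
    obtain ⟨t, ht, hts⟩ := hπ s hs
    obtain ⟨y, hy⟩ := Ideal.mem_span_singleton'.1 hts
    refine mem_of_unit_mul_mem (s := algebraMap _ R (t * d))
      (fun h => (hP.isPrime.mem_or_mem
        ((IsLocalization.AtPrime.to_map_mem_maximal_iff R P _).1 h)).elim ht d.2) ?_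
    rw [map_mul, mul_assoc, mul_comm _ x, hsd, ← map_mul]
    exact Ideal.mem_span_singleton'.2 ⟨algebraMap _ R y, by rw [← map_mul]; exact congrArg _ hy⟩
  have ha0 : a ≠ 0 := fun h => hπ0 (hinj (h.trans (map_zero _).symm))
  have hprime : Prime a :=
    (Ideal.span_singleton_prime ha0).1 (hM ▸ (maximalIdeal.isMaximal R).isPrime)
  obtain ⟨t, x, hx, hrx⟩ := WfDvdMonoid.max_power_factor
    (fun h => hr (hinj (h.trans (map_zero _).symm)) : algebraMap _ R r ≠ 0) hprime.irreducible
  obtain ⟨⟨s, d⟩, hsd⟩ := IsLocalization.surj P.primeCompl x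
  refine ⟨t, s, d, fun hs => hx ?_, d.2, hinj ?_⟩
  · rw [← Ideal.mem_span_singleton, ← hM]
    refine mem_of_unit_mul_mem (s := algebraMap _ R (d : chart O φ))
      (fun h => d.2 ((IsLocalization.AtPrime.to_map_mem_maximal_iff R P _).1 h)) ?_
    rw [mul_comm, hsd]
    exact (IsLocalization.AtPrime.to_map_mem_maximal_iff R P s).2 hs
  · rw [map_mul, map_mul, map_pow, ← hsd, hrx]
    ring

/-- A residual root of unity of order `e * qn ^ a` has order `e` in characteristic `qn`. -/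
theorem isVOne_pow_of_pow {L : Type*} [Field L] {V : ValuationSubring L} {qn : ℕ} (hqn : qn.Prime)
    (hq : (qn : L) ∈ V.nonunits) {x : L} (hx : IsVUnit V x) {e a : ℕ}
    (h : IsVOne V (x ^ (e * qn ^ a))) : IsVOne V (x ^ e) := by
  haveI := Fact.mk hqn
  have hmem : ∀ {y : L} (hy : y ∈ V), y ∈ V.nonunits → IsLocalRing.residue V ⟨y, hy⟩ = 0 := by
    intro y hy h
    rw [← SetLike.mem_coe, ← ValuationSubring.image_maximalIdeal] at h
    obtain ⟨w, hw, hwe⟩ := h
    rw [IsLocalRing.residue_eq_zero_iff]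
    rwa [show w = ⟨y, hy⟩ from Subtype.ext hwe] at hw
  haveI : CharP (IsLocalRing.ResidueField V) qn := by
    refine (CharP.charP_iff_prime_eq_zero hqn).2 ?_
    rw [← map_natCast (IsLocalRing.residue V)]
    exact hmem (y := (qn : L)) (natCast_mem V qn) hq
  refine ⟨hx.pow e, ?_⟩
  set z : V := ⟨x ^ e, (hx.pow e).2.1⟩
  have h0 : IsLocalRing.residue V z ^ qn ^ a - 1 = 0 := by
    rw [← map_pow, ← map_one (IsLocalRing.residue V), ← map_sub]
    refine hmem _ ?_
    show (x ^ e) ^ qn ^ a - 1 ∈ V.nonunits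
    rw [← pow_mul]; exact h.2
  rw [← one_pow (qn ^ a), ← sub_pow_char_pow] at h0
  have h1 : IsLocalRing.residue V (z - 1) = 0 := by
    rw [map_sub, map_one]; exact pow_eq_zero_iff (pow_ne_zero _ hqn.ne_zero) |>.1 h0
  rw [← SetLike.mem_coe, ← ValuationSubring.image_maximalIdeal]
  exact ⟨z - 1, (IsLocalRing.residue_eq_zero_iff _).1 h1, rfl⟩

variable {O : Type} [CommRing O] [IsDomain O] [IsDiscreteValuationRing O] {q : O} {qn : ℕ}
  {FN : Type} [Field FN] [Algebra O FN] {k : Type} [Field k] [IsAlgClosed k]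
  {B : BaseData O q qn FN k} {FE : Type} [Field FE] [Algebra O FE]

namespace ChainData

variable {D : EdgeData B FE} {F : Type} [Field F] [Algebra O F] {L : ℕ} (C : ChainData D F L)
  (hq : Prime q) (hqn : qn.Prime) (hfin : Algebra.FiniteType O D.E)
  [IsNoetherianRing (chart O (C.ε 1 B.j))]

include C in
theorem algebraMap_q_ne_zero (hq : Prime q) : algebraMap O F q ≠ 0 := fun h =>
  C.transcendental_ε 0 ⟨Polynomial.C q, by simpa using hq.ne_zero, by rw [aeval_C, h]⟩

include hq hqn in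
/-- One exponent prime to `q` kills the ramification at all vertical valuations. -/
theorem exists_exponent : ∃ e : ℕ, e ≠ 0 ∧ ¬ qn ∣ e ∧
    ∀ P ∈ (Ideal.span {algebraMap O (chart O (C.ε 1 B.j)) q}).minimalPrimes,
      ∃ π ∈ P, π ≠ 0 ∧
        (∀ r : chart O (C.ε 1 B.j), r ≠ 0 → ∃ (t : ℕ) (u v : chart O (C.ε 1 B.j)),
          u ∉ P ∧ v ∉ P ∧ v * r = u * π ^ t) ∧
        ∃ (s a : ℕ) (u v : chart O (C.ε 1 B.j)), u ∉ P ∧ v ∉ P ∧
          v * algebraMap O _ q = u * π ^ s ∧ s ∣ e * qn ^ a := by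
  classical
  have hfinite := Ideal.finite_minimalPrimes_of_isNoetherianRing (chart O (C.ε 1 B.j))
    (Ideal.span {algebraMap O (chart O (C.ε 1 B.j)) q})
  have hq0 := C.algebraMap_q_ne_zero hq
  have hqA : algebraMap O (chart O (C.ε 1 B.j)) q ≠ 0 := fun h => hq0 (congrArg Subtype.val h)
  choose π hπ hπ0 hall using fun (P : Ideal (chart O (C.ε 1 B.j)))
    (hP : P ∈ (Ideal.span {algebraMap O (chart O (C.ε 1 B.j)) q}).minimalPrimes) =>
      exists_unit_mul_pow_generator hq0 hP
  have hsplit : ∀ P hP, ∃ (s a e : ℕ) (u v : chart O (C.ε 1 B.j)), u ∉ P ∧ v ∉ P ∧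
      v * algebraMap O _ q = u * π P hP ^ s ∧ ¬ qn ∣ e ∧ s = e * qn ^ a := by
    intro P hP
    obtain ⟨s, u, v, hu, hv, h⟩ := hall P hP _ hqA
    have hs : s ≠ 0 := fun h0 => by
      rw [h0, pow_zero, mul_one] at h
      exact hu (h ▸ P.mul_mem_left _ (hP.1.2 (Ideal.mem_span_singleton_self _)))
    obtain ⟨a, e, he, hse⟩ := Nat.exists_eq_pow_mul_and_not_dvd hs qn hqn.ne_one
    exact ⟨s, a, e, u, v, hu, hv, h, he, by rw [hse, mul_comm]⟩
  choose sP aP eP uP vP hu hv heq hne hse using hsplit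
  let E : hfinite.toFinset → ℕ := fun P => eP P.1 (hfinite.mem_toFinset.1 P.2)
  refine ⟨∏ P, E P, ?_, ?_, fun P hP => ⟨π P hP, hπ P hP, hπ0 P hP, hall P hP, sP P hP, aP P hP,
    uP P hP, vP P hP, hu P hP, hv P hP, heq P hP, ?_⟩⟩
  · refine Finset.prod_ne_zero_iff.2 fun P _ h => hne P.1 (hfinite.mem_toFinset.1 P.2) ?_
    show qn ∣ E P
    rw [h]; exact dvd_zero qn
  · intro h
    obtain ⟨P, -, hP⟩ := hqn.prime.dvd_finsetProd_iff _ |>.1 h
    exact hne _ _ hP
  · rw [hse P hP]
    exact Nat.mul_dvd_mul_right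
      (Finset.dvd_prod_of_mem E (Finset.mem_univ ⟨P, hfinite.mem_toFinset.2 hP⟩)) _

variable {LL : Type} [Field LL] [Algebra O LL] {φL : LL} (hφL : Transcendental O φL)
  {V : ValuationSubring LL} (hV : IsVert O q φL V) {σ τ : F →ₐ[O] LL}

include hφL in
theorem isVert_comap (hq : Prime q) (hV : IsVert O q φL V) (hσ : σ (C.ε 1 B.j) = φL) :
    IsVert O q (C.ε 1 B.j) (V.comap σ.toRingHom) := by
  refine ⟨?_, fun p hp => ?_⟩
  · rw [← mem_nonunits_iff_map σ.toRingHom (V := V) (U := V.comap σ.toRingHom) fun _ => Iff.rfl,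
      AlgHom.toRingHom_eq_coe, AlgHom.coe_toRingHom, σ.commutes]
    exact hV.q_mem
  · have := hV.unit_mem p hp
    rw [← hσ, aeval_algHom_apply, ← map_inv₀] at this
    exact this

include hφL in
theorem isVert_vertex (hq : Prime q) (hV : IsVert O q φL V) (hσ : σ (C.ε 1 B.j) = φL) {i : ℕ}
    (hi : i ≤ L) : IsVert O q (σ (C.ε i B.j)) V := by
  have h1 : 1 ≤ L := C.pos
  exact isVert_of_integral hq hφL hV (hσ ▸ map_mem_chart σ (C.ε_mem hi h1))
    (hσ ▸ map_mem_chart σ (C.ε_mem h1 hi))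

/-- The embeddings agree residually on the edge charts. -/
def EdgeAgree (σ τ : F →ₐ[O] LL) (V : ValuationSubring LL) : Prop :=
  ∀ i < L, ∀ z : D.E, σ (C.e i z) - τ (C.e i z) ∈ V.nonunits

theorem EdgeAgree.symm (h : C.EdgeAgree σ τ V) : C.EdgeAgree τ σ V := fun i hi z => by
  rw [← neg_sub]; exact neg_mem (h i hi z)

include hφL in
theorem val_mem (hq : Prime q) (hV : IsVert O q φL V) (hσ : σ (C.ε 1 B.j) = φL)
    (z : chart O (C.ε 1 B.j)) : σ (z : F) ∈ V :=
  ((C.isVert_comap hφL hq hV hσ).chart_le' hq).1 z.2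

include hq hqn hfin hφL hV in
/-- Residual equality on the edges is residual equality on the chart. -/
theorem sub_mem_chart (hσ : σ (C.ε 1 B.j) = φL) (hτ : τ (C.ε 1 B.j) = φL)
    (h : C.EdgeAgree σ τ V) (z : chart O (C.ε 1 B.j)) : σ (z : F) - τ (z : F) ∈ V.nonunits := by
  have hc : 1 ≤ L := C.pos
  have hgen : ∀ s ∈ C.gen hc, σ (s : F) - τ (s : F) ∈ V.nonunits := by
    intro s hs
    induction hs using Algebra.adjoin_induction with
    | mem y hy =>
      obtain ⟨i, hi, g, rfl⟩ := Set.mem_iUnion₂.1 hy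
      rw [C.coe_eA hc hi]
      exact h i hi g
    | algebraMap r =>
      simp only [Subalgebra.coe_algebraMap, AlgHom.commutes, sub_self]
      exact V.nonunits.zero_mem
    | add x y _ _ hx hy =>
      rw [Subalgebra.coe_add, map_add, map_add, add_sub_add_comm]
      exact add_mem hx hy
    | mul x y _ _ hx hy =>
      rw [Subalgebra.coe_mul, map_mul, map_mul,
        show σ (x : F) * σ (y : F) - τ (x : F) * τ (y : F) = σ (x : F) * (σ (y : F) - τ (y : F))
          + τ (y : F) * (σ (x : F) - τ (x : F)) by ring]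
      exact add_mem (nonunits_mul (C.val_mem hφL hq hV hσ x) hy)
        (nonunits_mul (C.val_mem hφL hq hV hτ y) hx)
  have hU := C.isVert_comap hφL hq hV hσ
  set P := centreOf (V.comap σ.toRingHom) (chart O (C.ε 1 B.j))
    (fun _ hz => (hU.chart_le' hq).1 hz) with hP
  obtain ⟨n, hn, hPn⟩ := P.exists_le_maximal Ideal.IsPrime.ne_top'
  haveI := hn
  obtain ⟨d, hd, hdn, hdz⟩ := C.exists_mul_mem_gen hc hfin hq hqn n
    (hPn (mem_centreOf.2 hU.q_mem)) z
  have hdu : σ (d : F) ≠ 0 ∧ (σ (d : F))⁻¹ ∈ V := by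
    obtain ⟨h1, h2⟩ := inv_mem_of_notMem fun h => hdn (hPn h)
    exact ⟨(map_ne_zero_iff _ σ.toRingHom.injective).2 h1, by
      rw [← map_inv₀]; exact h2⟩
  have key : σ (d : F) * (σ (z : F) - τ (z : F)) ∈ V.nonunits := by
    have e : σ (d : F) * (σ (z : F) - τ (z : F)) = (σ ((d * z : chart O (C.ε 1 B.j)) : F)
        - τ ((d * z : chart O (C.ε 1 B.j)) : F)) - τ (z : F) * (σ (d : F) - τ (d : F)) := by
      rw [Subalgebra.coe_mul, map_mul, map_mul]; ring
    rw [e]
    exact sub_mem (hgen _ hdz) (nonunits_mul (C.val_mem hφL hq hV hτ z) (hgen d hd))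
  have := nonunits_mul hdu.2 key
  rwa [← mul_assoc, inv_mul_cancel₀ hdu.1, one_mul] at this

include hq hqn hfin hφL hV in
/-- Residual equality on the edges gives one vertical valuation and residual equality of ratios
up to the exponent. -/
theorem ratio (hσ : σ (C.ε 1 B.j) = φL) (hτ : τ (C.ε 1 B.j) = φL)
    (h : C.EdgeAgree σ τ V) {e : ℕ}
    (he : ∀ P ∈ (Ideal.span {algebraMap O (chart O (C.ε 1 B.j)) q}).minimalPrimes,
      ∃ π ∈ P, π ≠ 0 ∧
        (∀ r : chart O (C.ε 1 B.j), r ≠ 0 → ∃ (t : ℕ) (u v : chart O (C.ε 1 B.j)),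
          u ∉ P ∧ v ∉ P ∧ v * r = u * π ^ t) ∧
        ∃ (s a : ℕ) (u v : chart O (C.ε 1 B.j)), u ∉ P ∧ v ∉ P ∧
          v * algebraMap O _ q = u * π ^ s ∧ s ∣ e * qn ^ a) (z : F) :
    (z ≠ 0 → σ z / τ z ∈ V ∧ (σ z / τ z) ^ e - 1 ∈ V.nonunits) ∧
      (τ z ∈ V → σ z - τ z ∈ V.nonunits) := by
  have hU := C.isVert_comap hφL hq hV hτ
  set A := chart O (C.ε 1 B.j)
  set P := centreOf (V.comap τ.toRingHom) A (fun _ hz => (hU.chart_le' hq).1 hz) with hPdef
  have hPmin := centreOf_mem_minimalPrimes hq hU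
  have hsub := C.sub_mem_chart hq hqn hfin hφL hV hσ hτ h
  have hτu : ∀ {y : A}, y ∉ P → IsVUnit V (τ (y : F)) := fun {y} hy => by
    obtain ⟨h1, h2⟩ := inv_mem_of_notMem hy
    exact ⟨(map_ne_zero_iff _ τ.toRingHom.injective).2 h1, C.val_mem hφL hq hV hτ y, by
      rw [← map_inv₀]; exact h2⟩
  -- units of the centre have one-unit ratios
  have hone : ∀ {y : A}, y ∉ P → IsVOne V (σ (y : F) / τ (y : F)) := fun {y} hy => by
    obtain ⟨h0, h1, h2⟩ := hτu hy
    have hd : σ (y : F) / τ (y : F) - 1 ∈ V.nonunits := by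
      rw [div_sub_one h0, div_eq_inv_mul]
      exact nonunits_mul h2 (hsub y)
    have hσy : σ (y : F) ∉ V.nonunits := fun hn => by
      have h3 : τ (y : F) ∈ V.nonunits := by
        have := sub_mem hn (hsub y)
        rwa [sub_sub_cancel] at this
      exact not_mem_nonunits_of_inv_mem h0 h2 h3
    rw [V.mem_nonunits_iff_or, not_or, not_not] at hσy
    exact ⟨⟨div_ne_zero hσy.1 h0, by
      rw [div_eq_mul_inv]; exact mul_mem (C.val_mem hφL hq hV hσ y) h2, by
      rw [inv_div, div_eq_mul_inv]; exact mul_mem h1 hσy.2⟩, hd⟩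
  obtain ⟨π, hπP, hπ0, hall, s, a, u₀, v₀, hu₀, hv₀, hq₀, hdvd⟩ := he P hPmin
  have hq0 : algebraMap O LL q ≠ 0 := fun h' =>
    hφL ⟨Polynomial.C q, by simpa using hq.ne_zero, by rw [aeval_C, h']⟩
  have hqnV : (qn : LL) ∈ V.nonunits := by
    rw [← map_natCast (algebraMap O LL), ← B.q_eq]; exact hV.q_mem
  have hne : ∀ (f : F →ₐ[O] LL) {y : A}, y ≠ 0 → f (y : F) ≠ 0 := fun f {y} hy =>
    (map_ne_zero_iff _ f.toRingHom.injective).2 fun h' => hy (Subtype.ext h')
  set r := σ (π : F) / τ (π : F)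
  have hr0 : r ≠ 0 := div_ne_zero (hne σ hπ0) (hne τ hπ0)
  have hv₀0 : v₀ ≠ 0 := fun h' => hv₀ (h' ▸ P.zero_mem)
  have hu₀0 : u₀ ≠ 0 := fun h' => hu₀ (h' ▸ P.zero_mem)
  have hrs : IsVOne V (r ^ s) := by
    have e1 := congrArg (fun y : A => σ (y : F)) hq₀
    have e2 := congrArg (fun y : A => τ (y : F)) hq₀
    simp only [Subalgebra.coe_mul, SubmonoidClass.coe_pow, Subalgebra.coe_algebraMap, map_mul,
      map_pow, AlgHom.commutes] at e1 e2
    have : r ^ s = (σ (v₀ : F) / τ (v₀ : F)) * (σ (u₀ : F) / τ (u₀ : F))⁻¹ := by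
      rw [div_pow, inv_div, div_mul_div_comm,
        div_eq_div_iff (pow_ne_zero _ (hne τ hπ0)) (mul_ne_zero (hne τ hv₀0) (hne σ hu₀0))]
      refine mul_right_cancel₀ hq0 ?_
      linear_combination σ (π : F) ^ s * σ (u₀ : F) * e2 - τ (π : F) ^ s * τ (u₀ : F) * e1
    rw [this]
    exact (hone hv₀).mul (hone hu₀).inv
  have hs0 : s ≠ 0 := fun h0 => by
    rw [h0, pow_zero, mul_one] at hq₀
    exact hu₀ (hq₀ ▸ P.mul_mem_left _ (hPmin.1.2 (Ideal.mem_span_singleton_self _)))
  have hru : IsVUnit V r := by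
    refine ⟨hr0, ?_, ?_⟩
    · by_contra hc
      refine hc ?_
      rcases V.mem_or_inv_mem r with h' | h'
      · exact h'
      · obtain ⟨j, rfl⟩ : ∃ j, s = j + 1 := ⟨s - 1, by omega⟩
        have := mul_mem hrs.1.2.1 (pow_mem h' j)
        rwa [pow_succ', mul_assoc, ← mul_pow, mul_inv_cancel₀ hr0, one_pow, mul_one] at this
    · rcases V.mem_or_inv_mem r with h' | h'
      · obtain ⟨j, rfl⟩ : ∃ j, s = j + 1 := ⟨s - 1, by omega⟩
        have := mul_mem hrs.1.2.2 (pow_mem h' j)
        rwa [← inv_pow, pow_succ', mul_assoc, ← mul_pow, inv_mul_cancel₀ hr0, one_pow,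
          mul_one] at this
      · exact h'
  have hre : IsVOne V (r ^ e) := by
    refine isVOne_pow_of_pow (a := a) hqn hqnV hru ?_
    obtain ⟨j, hj⟩ := hdvd
    rw [hj, pow_mul, ← zpow_natCast]
    exact hrs.zpow j
  -- ratios of elements of the chart
  have hA : ∀ {y : A}, y ≠ 0 → IsVUnit V (σ (y : F) / τ (y : F)) ∧
      IsVOne V ((σ (y : F) / τ (y : F)) ^ e) := fun {y} hy => by
    obtain ⟨t, u, v, hu, hv, hvy⟩ := hall y hy
    have e1 := congrArg (fun y : A => σ (y : F)) hvy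
    have e2 := congrArg (fun y : A => τ (y : F)) hvy
    simp only [Subalgebra.coe_mul, SubmonoidClass.coe_pow, map_mul, map_pow] at e1 e2
    have hv0 : v ≠ 0 := fun h' => hv (h' ▸ P.zero_mem)
    have : σ (y : F) / τ (y : F)
        = (σ (u : F) / τ (u : F)) * (σ (v : F) / τ (v : F))⁻¹ * r ^ t := by
      have hu0 : u ≠ 0 := fun h' => hu (h' ▸ P.zero_mem)
      have := hne σ hv0
      have := hne τ hv0
      have := hne τ hu0
      have := hne τ hy
      have := hne τ hπ0
      simp only [r, div_pow]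
      field_simp
      linear_combination τ (π : F) ^ t * τ (u : F) * e1 - σ (π : F) ^ t * σ (u : F) * e2
    rw [this]
    have h3 := (hone hu).mul (hone hv).inv
    refine ⟨h3.1.mul (hru.pow t), ?_⟩
    rw [mul_pow, ← pow_mul, mul_comm t e, pow_mul, ← zpow_natCast, ← zpow_natCast (r ^ e)]
    exact (h3.zpow e).mul (hre.zpow t)
  obtain ⟨ya, yb, hyb, hzab⟩ := C.exists_fraction (c := 1) C.pos hfin hq hqn z
  refine ⟨fun hz => ?_, fun hzV => ?_⟩
  · have hya : ya ≠ 0 := fun h' => by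
      rw [h', ZeroMemClass.coe_zero, mul_eq_zero] at hzab
      exact hzab.elim hz fun h'' => hyb (Subtype.ext h'')
    have e1 : σ z = σ (ya : F) / σ (yb : F) := by
      rw [eq_div_iff (hne σ hyb), ← map_mul, hzab]
    have e2 : τ z = τ (ya : F) / τ (yb : F) := by
      rw [eq_div_iff (hne τ hyb), ← map_mul, hzab]
    have : σ z / τ z = (σ (ya : F) / τ (ya : F)) * (σ (yb : F) / τ (yb : F))⁻¹ := by
      rw [e1, e2, div_div_div_eq, inv_div, div_mul_div_comm, mul_comm (σ (yb : F))]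
    rw [this]
    refine ⟨((hA hya).1.mul (hA hyb).1.inv).2.1, ?_⟩
    rw [mul_pow, inv_pow]
    exact ((hA hya).2.mul (hA hyb).2.inv).2
  · haveI : IsNoetherianRing A.toSubring := ‹IsNoetherianRing (chart O (C.ε 1 B.j))›
    have hc : algebraMap O A q ≠ 0 := fun h' =>
      C.algebraMap_q_ne_zero hq (congrArg Subtype.val h')
    obtain ⟨d, hd, hdz⟩ := exists_mul_mem_of_mem A.toSubring
      (fun x hx => mem_of_isIntegral_chart hx) (c := algebraMap O A q) hc hPmin
      (V.comap τ.toRingHom) (fun y => (hU.chart_le' hq).1 y.2) (fun y => mem_centreOf.symm)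
      (z := z) hzV (b := yb) hyb (by
        rw [mul_comm]
        exact (congrArg (· ∈ A) hzab).mpr ya.2)
    obtain ⟨h0, -, h2⟩ := hτu hd
    have h5 : τ (d : F) * (σ z - τ z)
        = (σ ((d : F) * z) - τ ((d : F) * z)) - σ z * (σ (d : F) - τ (d : F)) := by
      rw [map_mul, map_mul]; ring
    have hσd := hone hd
    have hσz : σ z ∈ V := by
      have hσd0 : σ (d : F) ≠ 0 := fun h' => hσd.1.1 (by rw [h', zero_div])
      have hσdi : (σ (d : F))⁻¹ ∈ V := by
        have := mul_mem hσd.1.2.2 h2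
        rwa [inv_div, div_eq_mul_inv, mul_right_comm, mul_inv_cancel₀ h0, one_mul] at this
      have := mul_mem hσdi (C.val_mem hφL hq hV hσ ⟨_, hdz⟩)
      rwa [map_mul, ← mul_assoc, inv_mul_cancel₀ hσd0, one_mul] at this
    have h6 : τ (d : F) * (σ z - τ z) ∈ V.nonunits :=
      h5 ▸ sub_mem (hsub ⟨_, hdz⟩) (nonunits_mul hσz (hsub d))
    have h7 := nonunits_mul h2 h6
    rwa [← mul_assoc, inv_mul_cancel₀ h0, one_mul] at h7

section Balanced

variable {K : Type} [Field K] [Algebra O K] [Algebra K F] [IsScalarTower O K F] [Algebra K LL]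
  [IsScalarTower O K LL] {P : Type} [Fintype P] (ι : P → F →ₐ[K] LL) (c : P → ℤ)

include hq hqn hfin hφL in
/-- Weights with vanishing sums along both outer edges are balanced at every vertical valuation,
with one exponent. -/
theorem exists_balanced (hL : 3 ≤ L) [IsNoetherianRing (chart O φL)]
    (hι : ∀ p, ι p (C.ε 1 B.j) = φL)
    (hmidv : ∀ p p' i, 1 ≤ i → i < L → ∀ y : FN, ι p (C.ε i y) = ι p' (C.ε i y))
    (hmid : ∀ p p' i, 1 ≤ i → i + 1 < L → ∀ z : FE, ι p (C.e i z) = ι p' (C.e i z))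
    (hfirst : ∀ p₀, (∑ᶠ (p : P) (_ : ∀ z : FE, ι p (C.e 0 z) = ι p₀ (C.e 0 z)), c p) = 0)
    (hlast : ∀ p₀,
      (∑ᶠ (p : P) (_ : ∀ z : FE, ι p (C.e (L - 1) z) = ι p₀ (C.e (L - 1) z)), c p) = 0) :
    ∃ e : ℕ, e ≠ 0 ∧ ¬ qn ∣ e ∧ ∀ V, IsVert O q φL V → IsBalancedAt ι c e V := by
  classical
  obtain ⟨e, he0, hedvd, he⟩ := C.exists_exponent hq hqn
  refine ⟨e, he0, hedvd, fun V hV => ?_⟩
  let σ : P → F →ₐ[O] LL := fun p => (ι p).restrictScalars O
  let ed : P → ℕ → FE →ₐ[O] LL := fun p i => (σ p).comp (C.e i)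
  have hσ : ∀ p, σ p (C.ε 1 B.j) = φL := hι
  have hsees : ∀ p i, i < L → D.Sees (ed p i) V ∨ D.Sees (D.flip (ed p i)) V := fun p i hi =>
    EdgeData.sees_or hq _ (by
      show IsVert O q (σ p (C.e i (D.α B.j))) V
      rw [C.e_α i hi]; exact C.isVert_vertex hφL hq hV (hσ p) hi.le)
  -- sums over classes
  have hsum : ∀ (i : ℕ) (_ : i < L) (w : P → ℕ),
      (∀ p₀, (∑ᶠ (p : P) (_ : ∀ z : FE, ι p (C.e i z) = ι p₀ (C.e i z)), c p) = 0) →
      (∀ p p', (∀ z : FE, ι p (C.e i z) = ι p' (C.e i z)) → w p = w p') →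
      ∀ l, ∑ p ∈ univ.filter (fun p => w p = l), c p = 0 := by
    intro i _ w hs hw l
    rw [← sum_fiberwise_of_maps_to (g := fun p => ed p i) (t := univ.image fun p => ed p i)
      fun p _ => mem_image_of_mem _ (mem_univ p)]
    refine sum_eq_zero fun y hy => ?_
    obtain ⟨p₀, -, rfl⟩ := mem_image.1 hy
    by_cases hl : w p₀ = l
    · rw [← hs p₀, finsum_cond_eq_sum_of_cond_iff _ (t := (univ.filter fun p => w p = l).filter
        fun p => ed p i = ed p₀ i) fun {p} _ => ?_]
      simp only [mem_filter, mem_univ, true_and]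
      exact ⟨fun h => ⟨(hw p p₀ h).trans hl, AlgHom.ext h⟩, fun h z => DFunLike.congr_fun h.2 z⟩
    · refine sum_eq_zero fun p hp => absurd ?_ hl
      simp only [mem_filter, mem_univ, true_and] at hp
      rw [← hp.1]
      exact hw p₀ p fun z => (DFunLike.congr_fun hp.2 z).symm
  -- residual equality at the middle edges and at outer edges seeing the same branch
  have hmidE : ∀ p p' i, 1 ≤ i → i + 1 < L → ∀ z : D.E,
      σ p (C.e i z) - σ p' (C.e i z) ∈ V.nonunits := fun p p' i h1 h2 z => by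
    show ι p (C.e i z) - ι p' (C.e i z) ∈ V.nonunits
    rw [hmid p p' i h1 h2, sub_self]
    exact V.nonunits.zero_mem
  have hlastE : ∀ p p', (D.Sees (ed p (L - 1)) V ↔ D.Sees (ed p' (L - 1)) V) → ∀ z : D.E,
      σ p (C.e (L - 1) z) - σ p' (C.e (L - 1) z) ∈ V.nonunits := by
    intro p p' hiff z
    have hag : ∀ y : FN, ed p (L - 1) (D.α y) = ed p' (L - 1) (D.α y) := fun y => by
      show ι p (C.e (L - 1) (D.α y)) = ι p' (C.e (L - 1) (D.α y))
      rw [C.e_α (L - 1) (by omega)]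
      exact hmidv p p' (L - 1) (by omega) (by omega) y
    by_cases h : D.Sees (ed p (L - 1)) V
    · exact EdgeData.sub_mem_nonunits_of_sees hq h (hiff.1 h) hag z
    · exact EdgeData.sub_mem_nonunits_of_sees_flip hq hqn hV.q_mem
        ((hsees p _ (by omega)).resolve_left h)
        ((hsees p' _ (by omega)).resolve_left fun h' => h (hiff.2 h')) hag z
  have hfirstE : ∀ p p', (D.Sees (ed p 0) V ↔ D.Sees (ed p' 0) V) → ∀ z : D.E,
      σ p (C.e 0 z) - σ p' (C.e 0 z) ∈ V.nonunits := by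
    intro p p' hiff z
    have hag : ∀ y : FN, D.flip (ed p 0) (D.α y) = D.flip (ed p' 0) (D.α y) := fun y => by
      show ι p (C.e 0 (D.w (D.α y))) = ι p' (C.e 0 (D.w (D.α y)))
      rw [C.e_w 0 (by omega)]
      exact hmidv p p' 1 le_rfl (by omega) y
    have key : D.flip (ed p 0) (D.vE z) - D.flip (ed p' 0) (D.vE z) ∈ V.nonunits := by
      by_cases h : D.Sees (ed p 0) V
      · refine EdgeData.sub_mem_nonunits_of_sees_flip hq hqn hV.q_mem ?_ ?_ hag _
        · intro y; rw [EdgeData.flip_apply, EdgeData.flip_apply, D.w_w]; exact h y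
        · intro y; rw [EdgeData.flip_apply, EdgeData.flip_apply, D.w_w]; exact hiff.1 h y
      · exact EdgeData.sub_mem_nonunits_of_sees hq ((hsees p 0 (by omega)).resolve_left h)
          ((hsees p' 0 (by omega)).resolve_left fun h' => h (hiff.2 h')) hag _
    rw [EdgeData.flip_apply, EdgeData.flip_apply, EdgeData.coe_vE, D.w_w] at key
    exact key
  have hbal : ∀ w : P → ℕ, (∀ l, ∑ p ∈ univ.filter (fun p => w p = l), c p = 0) →
      (∀ p p', w p = w p' → (D.Sees (ed p 0) V ↔ D.Sees (ed p' 0) V) ∧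
        (D.Sees (ed p (L - 1)) V ↔ D.Sees (ed p' (L - 1)) V)) → IsBalancedAt ι c e V := by
    intro w hw1 hw2
    refine ⟨w, hw1, fun p p' h z => ?_⟩
    obtain ⟨ha, hb⟩ := hw2 p' p h.symm
    refine C.ratio hq hqn hfin hφL hV (hσ p') (hσ p) (fun i hi y => ?_) he z
    rcases Nat.eq_zero_or_pos i with rfl | h0
    · exact hfirstE p' p ha y
    rcases (show i + 1 < L ∨ i = L - 1 by omega) with h1 | rfl
    · exact hmidE p' p i h0 h1 y
    · exact hlastE p' p hb y
  by_cases hcase : ∃ p₀, D.Sees (D.flip (ed p₀ 0)) V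
  · -- the last edge sees one branch
    obtain ⟨p₀, hp₀⟩ := hcase
    have hvalley : ∀ p i, i + 1 < L → D.Sees (D.flip (ed p i)) V →
        ¬ D.Sees (ed p (i + 1)) V := by
      intro p i hi hs hs'
      refine C.ne i hi ((ι p).injective ?_)
      have hψ : D.flip (ed p i) (D.α B.j) ∈ chart O φL := by
        show σ p (C.e i (D.w (D.α B.j))) ∈ _
        rw [C.e_w i (by omega), ← hσ p]
        exact map_mem_chart (σ p) (C.ε_mem (by omega) (by omega))
      have h := EdgeData.eq_of_sees hq (φ := φL) hV hψ hs hs' (fun y => by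
        show ι p (C.e i (D.w (D.α y))) = ι p (C.e (i + 1) (D.α y))
        rw [C.e_w i (by omega), C.e_α (i + 1) hi]) D.hB
      change ι p (C.e i (D.w (D.w (D.α B.h)))) = ι p (C.e (i + 1) (D.w (D.α B.h))) at h
      rwa [D.w_w, C.e_α i (by omega), C.e_w (i + 1) hi] at h
    have hchain : ∀ i, i + 1 < L → D.Sees (D.flip (ed p₀ i)) V := by
      intro i
      induction i with
      | zero => exact fun _ => hp₀
      | succ i ih =>
        exact fun hi => (hsees p₀ (i + 1) (by omega)).resolve_left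
          (hvalley p₀ i (by omega) (ih (by omega)))
    have hY : ∀ p, ¬ D.Sees (ed p (L - 1)) V := fun p => by
      obtain ⟨i, hi⟩ : ∃ i, L - 1 = i + 1 := ⟨L - 2, by omega⟩
      rw [hi]
      refine hvalley p i (by omega) ?_
      rcases Nat.eq_zero_or_pos i with h0 | h0
      · omega
      rw [show ed p i = ed p₀ i from AlgHom.ext (hmid p p₀ i h0 (by omega))]
      exact hchain i (by omega)
    refine hbal (fun p => if D.Sees (ed p 0) V then 0 else 1)
      (hsum 0 (by omega) _ hfirst fun p p' h => ?_) fun p p' h => ⟨?_, iff_of_false (hY p) (hY p')⟩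
    · have : ed p 0 = ed p' 0 := AlgHom.ext h
      simp only [this]
    · beta_reduce at h
      split_ifs at h with h1 h2 h3
      · exact iff_of_true h1 h2
      · exact iff_of_false h1 h3
  · have hX : ∀ p, D.Sees (ed p 0) V := fun p =>
      (hsees p 0 (by omega)).resolve_right fun h => hcase ⟨p, h⟩
    refine hbal (fun p => if D.Sees (ed p (L - 1)) V then 0 else 1)
      (hsum (L - 1) (by omega) _ hlast fun p p' h => ?_) fun p p' h =>
        ⟨iff_of_true (hX p) (hX p'), ?_⟩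
    · have : ed p (L - 1) = ed p' (L - 1) := AlgHom.ext h
      simp only [this]
    · beta_reduce at h
      split_ifs at h with h1 h2 h3
      · exact iff_of_true h1 h2
      · exact iff_of_false h1 h3

end Balanced

end ChainData

end FLTAgent.LevelPow
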