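import Fermat.Agent.LevelPow.EdgeHom
import Mathlib.RingTheory.Nakayama

/-!
# The cotangent space at a closed point of a chain of edges

For two local homomorphisms `f`, `g` from the chart of an edge to a Noetherian local domain `R`
with the same point, the ideal `(f z - g z)` is generated by the differences of the coordinates.
Dividing the Kronecker relation by it gives, modulo `M ^ 2`, the relation at an apex and the
vanishing of interior coordinates at supersingular points.
-/

set_option autoImplicit false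
set_option linter.style.haveILetI false
set_option linter.unusedSectionVars false

noncomputable section

open Polynomial IsLocalRing

namespace FLTAgent.LevelPow

open LevelSq

section LocalRing

variable {R : Type*} [CommRing R] [IsLocalRing R]

theorem mul_mem_sq {s t : R} (hs : s ∈ maximalIdeal R) (ht : t ∈ maximalIdeal R) :
    s * t ∈ maximalIdeal R ^ 2 := by
  rw [sq]; exact Ideal.mul_mem_mul hs ht

theorem isUnit_of_notMem {s : R} (hs : s ∉ maximalIdeal R) : IsUnit s := by
  by_contra h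
  exact hs ((mem_maximalIdeal _).2 h)

theorem mem_of_unit_mul_mem {I : Ideal R} {s t : R} (hs : s ∉ maximalIdeal R) (h : s * t ∈ I) :
    t ∈ I := by
  obtain ⟨u, rfl⟩ := isUnit_of_notMem hs
  simpa using I.mul_mem_left (↑u⁻¹ : R) h

theorem pow_sub_pow_mem_sq {x a : R} {n : ℕ} (hn : (n : R) ∈ maximalIdeal R)
    (hx : x - a ∈ maximalIdeal R) : x ^ n - a ^ n ∈ maximalIdeal R ^ 2 := by
  rw [← geom_sum₂_mul]
  refine mul_mem_sq (Ideal.Quotient.eq_zero_iff_mem.1 ?_) hx
  have h : Ideal.Quotient.mk (maximalIdeal R) x = Ideal.Quotient.mk _ a := Ideal.Quotient.eq.2 hx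
  simp only [map_sum, map_mul, map_pow, h, geom_sum₂_self]
  rw [← map_natCast (Ideal.Quotient.mk (maximalIdeal R)), Ideal.Quotient.eq_zero_iff_mem.2 hn,
    zero_mul]

theorem pow_mul_geom_sum_mem_sq {a z w : R} (n : ℕ) (hz : z - a ∈ maximalIdeal R)
    (hw : w - a ∈ maximalIdeal R) :
    ∑ i ∈ Finset.range n, z ^ i * w ^ (n - 1 - i)
      - ((n : R) * a ^ (n - 1) + (n.choose 2 : R) * a ^ (n - 2) * ((z - a) + (w - a)))
        ∈ maximalIdeal R ^ 2 := by
  refine Ideal.Quotient.eq.1 ?_
  set π := Ideal.Quotient.mk (maximalIdeal R ^ 2)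
  have h := geomSum_first_order (π a) (π (z - a)) (π (w - a))
    (by rw [← map_mul]; exact Ideal.Quotient.eq_zero_iff_mem.2 (mul_mem_sq hz hz))
    (by rw [← map_mul]; exact Ideal.Quotient.eq_zero_iff_mem.2 (mul_mem_sq hw hw))
    (by rw [← map_mul]; exact Ideal.Quotient.eq_zero_iff_mem.2 (mul_mem_sq hz hw)) n
  simp only [map_sum, map_mul, map_pow, map_add, map_natCast]
  rw [← h]
  simp only [← map_add, add_sub_cancel]

end LocalRing

variable {O : Type} [CommRing O] [IsDomain O] [IsDiscreteValuationRing O] {q : O} {qn : ℕ}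
  {FN : Type} [Field FN] [Algebra O FN] {k : Type} [Field k] [IsAlgClosed k]
  {B : BaseData O q qn FN k} {FE : Type} [Field FE] [Algebra O FE]

namespace EdgeData

variable (D : EdgeData B FE) (hq : Prime q) (hqn : qn.Prime)
  {R : Type} [CommRing R] [IsDomain R] [IsNoetherianRing R] [IsLocalRing R] [Algebra O R]

theorem mem_iff_of_comap_eq {n : Ideal D.E} {f : D.E →ₐ[O] R}
    (hf : (maximalIdeal R).comap f = n) (z : D.E) : f z ∈ maximalIdeal R ↔ z ∈ n := by
  rw [← hf]; rfl

theorem sub_mem_iff_of_comap_eq {n : Ideal D.E} {f : D.E →ₐ[O] R}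
    (hf : (maximalIdeal R).comap f = n) (z : D.E) (a : O) :
    f z - algebraMap O R a ∈ maximalIdeal R ↔ z - algebraMap O _ a ∈ n := by
  rw [← D.mem_iff_of_comap_eq hf, map_sub, AlgHom.commutes]

variable {n : Ideal D.E} [n.IsMaximal]

include hq in
/-- The differences of two homomorphisms with one point are generated by those at the
coordinates. -/
theorem sub_mem_span {f g : D.E →ₐ[O] R} (hf : (maximalIdeal R).comap f = n)
    (hg : (maximalIdeal R).comap g = n) (hqn' : algebraMap O D.E q ∈ n) {S : Set D.E}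
    (hS : S ⊆ n)
    (hgen : ∀ z ∈ n, ∃ d ∉ n, d * z ∈ Ideal.span (insert (algebraMap O D.E q) S)) (z : D.E) :
    f z - g z ∈ Ideal.span ((fun t => f t - g t) '' S) := by
  set I := Ideal.span ((fun t => f t - g t) '' S) with hI
  set J : Ideal R := Ideal.span (Set.range fun t => f t - g t) with hJ
  have hJm : ∀ t, f t - g t ∈ J := fun t => Ideal.subset_span ⟨t, rfl⟩
  have hqM : algebraMap O R q ∈ maximalIdeal R := by
    rw [← f.commutes q]; exact (D.mem_iff_of_comap_eq hf _).2 hqn'
  suffices H : J ≤ I ⊔ maximalIdeal R • J by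
    exact Submodule.le_of_le_smul_of_le_jacobson_bot (IsNoetherian.noetherian J)
      (by rw [IsLocalRing.jacobson_eq_maximalIdeal _ bot_ne_top]) H (hJm z)
  rw [hJ, Ideal.span_le, smul_eq_mul]
  rintro _ ⟨z, rfl⟩
  set K := I ⊔ maximalIdeal R * J
  have hspan : Ideal.span (insert (algebraMap O D.E q) S) ≤ n :=
    Ideal.span_le.2 (Set.insert_subset hqn' hS)
  have key : ∀ t ∈ Ideal.span (insert (algebraMap O D.E q) S), f t - g t ∈ K := by
    intro t ht
    induction ht using Submodule.span_induction with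
    | mem x hx =>
      rcases hx with rfl | hx
      · simp
      · exact Ideal.mem_sup_left (Ideal.subset_span ⟨x, hx, rfl⟩)
    | zero => simp
    | add x y _ _ hx hy =>
      rw [map_add, map_add, add_sub_add_comm]
      exact add_mem hx hy
    | smul a x hxm hx =>
      rw [smul_eq_mul, map_mul, map_mul,
        show f a * f x - g a * g x = f a * (f x - g x) + g x * (f a - g a) by ring]
      exact add_mem (K.mul_mem_left _ hx) (Ideal.mem_sup_right
        (Ideal.mul_mem_mul ((D.mem_iff_of_comap_eq hg _).2 (hspan hxm)) (hJm a)))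
  obtain ⟨a, ha⟩ := D.exists_const_E hq hqn' z
  obtain ⟨d, hd, hdz⟩ := hgen _ ha
  set y := z - algebraMap O D.E a with hy
  have h2 : f d * (f y - g y) = (f (d * y) - g (d * y)) - g y * (f d - g d) := by
    rw [map_mul, map_mul]; ring
  have h3 : f d * (f y - g y) ∈ K := h2 ▸ sub_mem (key _ hdz) (Ideal.mem_sup_right
    (Ideal.mul_mem_mul ((D.mem_iff_of_comap_eq hg _).2 ha) (hJm d)))
  have h4 := mem_of_unit_mul_mem (fun h => hd ((D.mem_iff_of_comap_eq hf _).1 h)) h3
  rwa [hy, map_sub, map_sub, AlgHom.commutes, AlgHom.commutes, sub_sub_sub_cancel_right] at h4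

include hq hqn in
theorem sub_mem_span_hA {f g : D.E →ₐ[O] R} (hf : (maximalIdeal R).comap f = n)
    (hg : (maximalIdeal R).comap g = n) (hb : D.centre hq ≤ n) (hup : ¬ D.centre' hq ≤ n)
    (z : D.E) : f z - g z ∈ Ideal.span {f D.hA - g D.hA} := by
  have hqn' := hb (D.q_mem_centre hq)
  obtain ⟨a, ha⟩ := D.exists_const_E hq hqn' D.hA
  have h := D.sub_mem_span hq hf hg hqn' (S := {D.hA - algebraMap O _ a})
    (Set.singleton_subset_iff.2 ha) (fun y hy => D.exists_mul_mem_span_up hq hqn hb hup ha hy) z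
  simpa [Set.image_singleton] using h

include hq hqn in
/-- No two edges have one child. -/
theorem eq_of_child {f g : D.E →ₐ[O] R} [((maximalIdeal R).comap g).IsMaximal]
    (hf : (maximalIdeal R).comap f = n) (hb : D.centre hq ≤ n) (hup : ¬ D.centre' hq ≤ n)
    (hb' : D.centre hq ≤ (maximalIdeal R).comap g) (h : f.comp D.αE = g.comp D.αE) : f = g := by
  have hg : (maximalIdeal R).comap g = n := D.eq_of_point hq hb hb' (by
    rw [← hf]
    refine Ideal.ext fun z => ?_
    have := DFunLike.congr_fun h z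
    simp only [AlgHom.comp_apply] at this
    simp only [Ideal.mem_comap, this])
  refine AlgHom.ext fun z => sub_eq_zero.1 ?_
  have h1 := D.sub_mem_span_hA hq hqn hf hg hb hup z
  rwa [show f D.hA = g D.hA from DFunLike.congr_fun h B.h, sub_self,
    Ideal.span_singleton_eq_bot.2 rfl, Ideal.mem_bot] at h1

include hq hqn in
/-- The parent's point determines the child's. -/
theorem eq_of_parent {n' : Ideal D.E} [n'.IsMaximal] (hb : D.centre hq ≤ n)
    (hb' : D.centre hq ≤ n') (h : ∀ y, D.vE (D.αE y) ∈ n' ↔ D.vE (D.αE y) ∈ n) : n' = n := by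
  haveI := D.isMaximal_point hq hb
  haveI := D.isMaximal_point hq hb'
  have hqx := D.q_mem_point hq hb
  have hqx' := D.q_mem_point hq hb'
  haveI := BaseData.charP_residue hqn B
  haveI := Fact.mk hqn
  refine D.eq_of_point hq hb hb' ?_
  suffices H : ∀ g, B.ev _ hqx' g = B.ev _ hqx g from
    Ideal.ext fun g => by rw [← B.ev_eq_zero hqx', ← B.ev_eq_zero hqx, H]
  intro g
  have hg : g ∈ Algebra.adjoin O (B.rat : Set (chart O B.j)) := by
    rw [B.adjoin_rat]; exact Algebra.mem_top
  induction hg using Algebra.adjoin_induction with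
  | mem g hg =>
    obtain ⟨a, ha⟩ := D.exists_const_E hq (hb (D.q_mem_centre hq)) (D.vE (D.αE g))
    have ha' : D.vE (D.αE g) - algebraMap O _ a ∈ n' := by
      have e : D.vE (D.αE g) - algebraMap O _ a = D.vE (D.αE (g - algebraMap O _ a)) := by
        simp only [map_sub, AlgHom.commutes]
      rw [e] at ha ⊢
      exact (h _).2 ha
    have h1 := (D.hasVal_resE hq (hqx := hqx) hb rfl _ a).1 ha
    have h2 := (D.hasVal_resE hq (hqx := hqx') hb' rfl _ a).1 ha'
    rw [D.resE_vE_αE hq hg] at h1 h2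
    have e1 := h1.unique ((BaseData.hasVal_red g).pow qn)
    have e2 := h2.unique ((BaseData.hasVal_red g).pow qn)
    exact frobenius_inj k qn (by simp only [frobenius_def]; rw [← e1, ← e2])
  | algebraMap r => rw [B.ev_algebraMap, B.ev_algebraMap]
  | add a b _ _ ha hb => rw [map_add, map_add, ha, hb]
  | mul a b _ _ ha hb => rw [map_mul, map_mul, ha, hb]

variable {x : Ideal (chart O B.j)} [x.IsMaximal] {hqx : algebraMap O _ q ∈ x}

include hq in
/-- The parent coordinate modulo `M ^ 2`. -/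
theorem exists_parent (hb : D.centre hq ≤ n) (hup : ¬ D.centre' hq ≤ n)
    (hx : n.comap D.αE = x) :
    ∃ τ : O, B.HasVal hqx D.δ (B.resO τ) ∧ ∀ f : D.E →ₐ[O] R, (maximalIdeal R).comap f = n →
      f D.hB - f D.hA ^ qn - algebraMap O R q * algebraMap O R τ ∈ maximalIdeal R ^ 2 := by
  obtain ⟨u, hu, hun⟩ := SetLike.not_le_iff_exists.1 hup
  obtain ⟨y, hy, hyr⟩ := D.exists_delta_mul hq hu
  have hqn' := hb (D.q_mem_centre hq)
  obtain ⟨c, hc⟩ := D.exists_hasVal hq (hqx := hqx) u
  obtain ⟨e, he⟩ := D.exists_hasVal hq (hqx := hqx) y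
  have hc0 : c ≠ 0 := fun h => hun ((D.mem_iff_hasVal hq (hqx := hqx) hb hx u).2 (h ▸ hc))
  obtain ⟨τ, hτ⟩ := B.resO_surjective (e / c)
  refine ⟨τ, hτ ▸ BaseData.HasVal.div (he.congr (by rw [hyr, mul_comm]) rfl) hc hc0,
    fun f hf => ?_⟩
  have hyn : y - algebraMap O _ τ * u ∈ n := by
    rw [D.mem_iff_hasVal hq (hqx := hqx) hb hx, map_sub, map_mul, D.resE_algebraMap]
    exact (he.sub ((BaseData.hasVal_C _).mul hc)).congr rfl
      (by rw [hτ, div_mul_cancel₀ _ hc0, sub_self])
  refine mem_of_unit_mul_mem (s := f u) (fun h => hun ((D.mem_iff_of_comap_eq hf _).1 h)) ?_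
  have hy' := congrArg f hy
  rw [map_mul, map_mul, map_sub, map_pow, AlgHom.commutes] at hy'
  have h1 : f u * (f D.hB - f D.hA ^ qn - algebraMap O R q * algebraMap O R τ)
      = algebraMap O R q * f (y - algebraMap O _ τ * u) := by
    rw [map_sub, map_mul, AlgHom.commutes]
    linear_combination -hy'
  rw [h1]
  exact mul_mem_sq (by rw [← f.commutes q]; exact (D.mem_iff_of_comap_eq hf _).2 hqn')
    ((D.mem_iff_of_comap_eq hf _).2 hyn)

include hq hqn in
/-- Differences of two edges with one point on one branch, divided by the coordinate difference,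
are derivatives. -/
theorem exists_divided {f g : D.E →ₐ[O] R} (hf : (maximalIdeal R).comap f = n)
    (hg : (maximalIdeal R).comap g = n) (hb : D.centre hq ≤ n) (hup : ¬ D.centre' hq ≤ n)
    (hx : n.comap D.αE = x) (hne : f D.hA ≠ g D.hA) (s : D.E) :
    ∃ (Ds : R) (e' : O) (w : LaurentSeries k), f s - g s = (f D.hA - g D.hA) * Ds ∧
      Ds - algebraMap O R e' ∈ maximalIdeal R ∧ B.HasVal hqx w (B.resO e') ∧
      Genus.euler (D.resE hq s) = w * Genus.euler (B.red B.h) := by
  have hqn' := hb (D.q_mem_centre hq)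
  obtain ⟨c, hc⟩ := D.exists_const_E hq hqn' s
  obtain ⟨a, ha⟩ := D.exists_const_E hq hqn' D.hA
  have ha' : B.resO a = B.ev x hqx B.h := by
    have h1 := (D.hasVal_resE hq (hqx := hqx) hb hx _ a).1 ha
    rw [D.resE_αE] at h1
    exact h1.unique (BaseData.hasVal_red B.h)
  obtain ⟨d, e₁, e₂, w, e, hd, heq, hw, hew, hiff⟩ :=
    D.exists_linear hq (hqx := hqx) hb hx hup ha' s hc
  obtain ⟨e', he'⟩ := B.resO_surjective e
  have hex : ∀ t, ∃ Dt, f t - g t = (f D.hA - g D.hA) * Dt := fun t =>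
    Ideal.mem_span_singleton.1 (D.sub_mem_span_hA hq hqn hf hg hb hup t)
  choose DD hDD using hex
  refine ⟨DD s, e', w, hDD s, ?_, he' ▸ hw, hew⟩
  have h1 := congrArg f heq
  have h2 := congrArg g heq
  simp only [map_mul, map_sub, map_add, AlgHom.commutes] at h1 h2
  set t₀ := f D.hA - g D.hA
  have h3 : f d * DD s - f e₁ = (g D.hA - algebraMap O R a) * DD e₁
      + algebraMap O R q * DD e₂ - (g s - algebraMap O R c) * DD d := by
    refine mul_left_cancel₀ (sub_ne_zero.2 hne) ?_
    linear_combination h1 - h2 - f d * hDD s - (g s - algebraMap O R c) * hDD d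
      + (g D.hA - algebraMap O R a) * hDD e₁ + algebraMap O R q * hDD e₂
  have hqM : algebraMap O R q ∈ maximalIdeal R := by
    rw [← f.commutes q]; exact (D.mem_iff_of_comap_eq hf _).2 hqn'
  have h4 : f d * DD s - f e₁ ∈ maximalIdeal R := h3 ▸ sub_mem
    (add_mem (Ideal.mul_mem_right _ _ ((D.sub_mem_iff_of_comap_eq hg _ a).2 ha))
      (Ideal.mul_mem_right _ _ hqM))
    (Ideal.mul_mem_right _ _ ((D.sub_mem_iff_of_comap_eq hg _ c).2 hc))
  have h5 : f e₁ - algebraMap O R e' * f d ∈ maximalIdeal R := by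
    rw [← f.commutes e', ← map_mul, ← map_sub]
    exact (D.mem_iff_of_comap_eq hf _).2 ((hiff e').2 he')
  refine mem_of_unit_mul_mem (fun h => hd ((D.mem_iff_of_comap_eq hf d).1 h)) ?_
  rw [show f d * (DD s - algebraMap O R e') = (f d * DD s - f e₁)
    + (f e₁ - algebraMap O R e' * f d) by ring]
  exact add_mem h4 h5

include hq hqn in
/-- The relation at an apex. -/
theorem exists_apex {f g : D.E →ₐ[O] R} (hf : (maximalIdeal R).comap f = n)
    (hg : (maximalIdeal R).comap g = n) (hb : D.centre hq ≤ n) (hup : ¬ D.centre' hq ≤ n)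
    (hx : n.comap D.αE = x) (hB : f D.hB = g D.hB) (hne : f D.hA ≠ g D.hA) {a : O}
    (ha : D.hA - algebraMap O _ a ∈ n) :
    ∃ ρ : O, B.resO ρ ≠ 0 ∧ algebraMap O R q * algebraMap O R ρ
      + (qn.choose 2 : R) * algebraMap O R a ^ (qn - 2)
        * ((f D.hA - algebraMap O R a) + (g D.hA - algebraMap O R a)) ∈ maximalIdeal R ^ 2 := by
  have hqn' := hb (D.q_mem_centre hq)
  have hqx : algebraMap O _ q ∈ x := hx ▸ D.q_mem_point hq hb
  obtain ⟨u, hu, hun⟩ := SetLike.not_le_iff_exists.1 hup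
  obtain ⟨y, hy, hyr⟩ := D.exists_delta_mul hq hu
  obtain ⟨c, hc⟩ := D.exists_const_E hq hqn' u
  obtain ⟨d, hd⟩ := D.exists_const_E hq hqn' y
  have hcu := (D.hasVal_resE hq (hqx := hqx) hb hx _ c).1 hc
  have hdy := (D.hasVal_resE hq (hqx := hqx) hb hx _ d).1 hd
  have hc0 : B.resO c ≠ 0 := fun h => hun ((D.mem_iff_hasVal hq (hqx := hqx) hb hx u).2 (h ▸ hcu))
  have hδ : B.HasVal hqx D.δ (B.resO d / B.resO c) :=
    BaseData.HasVal.div (hdy.congr (by rw [hyr, mul_comm]) rfl) hcu hc0
  obtain ⟨δ', δ₁, hδ', hδw⟩ := hδ.exists_deriv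
  obtain ⟨Du, eu, wu, hDu, hDu', hwu, hwue⟩ :=
    D.exists_divided hq hqn (hqx := hqx) hf hg hb hup hx hne u
  obtain ⟨Dy, ey, wy, hDy, hDy', hwy, hwye⟩ :=
    D.exists_divided hq hqn (hqx := hqx) hf hg hb hup hx hne y
  have hra : B.resO a = B.ev x hqx B.h := by
    have h1 := (D.hasVal_resE hq (hqx := hqx) hb hx _ a).1 ha
    rw [D.resE_αE] at h1
    exact h1.unique (BaseData.hasVal_red B.h)
  obtain ⟨ρ, hρ⟩ := B.resO_surjective (δ₁ + B.resO a ^ (qn - 1))
  refine ⟨ρ, ?_, ?_⟩
  · -- `ρ` is the value of `(θh) ^ (q - 1)`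
    have hP := D.P_notMem_of_up hq hqn hb hup hx
    have hsum : δ' + B.red B.h ^ (qn - 1) = B.rho := by
      refine mul_right_cancel₀ B.euler_h_ne ?_
      rw [add_mul, ← hδw, D.euler_δ, BaseData.rho, ← pow_succ, Nat.sub_add_cancel hqn.one_le]
      ring
    have hv : B.HasVal hqx B.rho (B.resO ρ) :=
      (hδ'.add ((BaseData.hasVal_red B.h).pow (qn - 1))).congr hsum (by rw [hρ, hra])
    intro h0
    have h6 := (hv.pow 6).mul (BaseData.hasVal_red B.P)
    rw [BaseData.rho, B.rho_pow] at h6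
    have h7 := h6.unique ((BaseData.hasVal_red B.Q).pow (qn - 1))
    rw [h0, zero_pow (by norm_num), zero_mul] at h7
    exact pow_ne_zero _ ((B.ev_ne_zero hqx).2 fun hQ =>
      ‹x.IsMaximal›.ne_top (Ideal.eq_top_of_isUnit_mem x hQ B.isUnit_Q)) h7.symm
  -- the derivative of `y = u δ`
  have heyu : B.resO ey = B.resO eu * (B.resO d / B.resO c) + B.resO c * δ₁ := by
    have h1 : wy = wu * D.δ + D.resE hq u * δ' := by
      refine mul_right_cancel₀ B.euler_h_ne ?_
      rw [← hwye, hyr, Genus.euler_mul, hwue, hδw]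
      ring
    exact (h1 ▸ hwy).unique ((hwu.mul hδ).add (hcu.mul hδ'))
  set z := f D.hA
  set w := g D.hA
  set S := ∑ i ∈ Finset.range qn, z ^ i * w ^ (qn - 1 - i)
  set qR := algebraMap O R q
  have hyf := congrArg f hy
  have hyg := congrArg g hy
  simp only [map_mul, map_sub, map_pow, AlgHom.commutes] at hyf hyg
  set ρ₁ := Dy * g u - g y * Du
  have hrel : f u * g u * S + qR * ρ₁ = 0 := by
    have h1 : z ^ qn - w ^ qn = S * (z - w) := (geom_sum₂_mul z w qn).symm
    refine (mul_eq_zero.1 (?_ : (z - w) * (f u * g u * S + qR * ρ₁) = 0)).resolve_left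
      (sub_ne_zero.2 hne)
    linear_combination qR * (g y * hDu - g u * hDy) + g u * hyf - f u * hyg
      + f u * g u * hB - f u * g u * h1
  set M := maximalIdeal R
  have hqM : qR ∈ M := by
    rw [show qR = f (algebraMap O D.E q) from (f.commutes q).symm]
    exact (D.mem_iff_of_comap_eq hf _).2 hqn'
  have hfu : f u - algebraMap O R c ∈ M := (D.sub_mem_iff_of_comap_eq hf u c).2 hc
  have hgu : g u - algebraMap O R c ∈ M := (D.sub_mem_iff_of_comap_eq hg u c).2 hc
  have hgy : g y - algebraMap O R d ∈ M := (D.sub_mem_iff_of_comap_eq hg y d).2 hd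
  replace hDu' : Du - algebraMap O R eu ∈ M := hDu'
  replace hDy' : Dy - algebraMap O R ey ∈ M := hDy'
  have hza : z - algebraMap O R a ∈ M := (D.sub_mem_iff_of_comap_eq hf _ a).2 ha
  have hwa : w - algebraMap O R a ∈ M := (D.sub_mem_iff_of_comap_eq hg _ a).2 ha
  have hS := pow_mul_geom_sum_mem_sq qn hza hwa
  have hqn_eq : (qn : R) = qR := by
    rw [show qR = algebraMap O R q from rfl, B.q_eq, map_natCast]
  -- the constant
  have hconst : algebraMap O R (c * c * (ρ - a ^ (qn - 1)) - (ey * c - d * eu)) ∈ M := by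
    obtain ⟨r, hr⟩ := (B.resO_eq_zero (c * c * (ρ - a ^ (qn - 1)) - (ey * c - d * eu))).1 (by
      simp only [map_sub, map_mul, map_pow, hρ, heyu]
      field_simp
      ring)
    rw [hr, map_mul]
    exact Ideal.mul_mem_right _ _ hqM
  have hmod : ρ₁ - f u * g u * (algebraMap O R ρ - algebraMap O R a ^ (qn - 1)) ∈ M := by
    refine Ideal.Quotient.eq.1 ?_
    have e1 := Ideal.Quotient.eq.2 hfu
    have e2 := Ideal.Quotient.eq.2 hgu
    have e3 := Ideal.Quotient.eq.2 hgy
    have e4 := Ideal.Quotient.eq.2 hDu'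
    have e5 := Ideal.Quotient.eq.2 hDy'
    have e6 := Ideal.Quotient.eq_zero_iff_mem.2 hconst
    simp only [map_sub, map_mul, map_pow] at e6
    simp only [ρ₁, map_sub, map_mul, map_pow, e1, e2, e3, e4, e5]
    linear_combination -e6
  refine mem_of_unit_mul_mem (s := f u * g u) (fun h =>
    ((maximalIdeal.isMaximal R).isPrime.mem_or_mem h).elim
      (fun h' => hun ((D.mem_iff_of_comap_eq hf _).1 h'))
      (fun h' => hun ((D.mem_iff_of_comap_eq hg _).1 h'))) ?_
  have e : f u * g u * (qR * algebraMap O R ρ + (qn.choose 2 : R) * algebraMap O R a ^ (qn - 2)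
        * ((z - algebraMap O R a) + (w - algebraMap O R a)))
      = -(f u * g u * (S - ((qn : R) * algebraMap O R a ^ (qn - 1) + (qn.choose 2 : R)
          * algebraMap O R a ^ (qn - 2) * ((z - algebraMap O R a) + (w - algebraMap O R a)))))
        - qR * (ρ₁ - f u * g u * (algebraMap O R ρ - algebraMap O R a ^ (qn - 1))) := by
    rw [hqn_eq]
    linear_combination hrel
  rw [e]
  exact sub_mem (neg_mem (Ideal.mul_mem_left _ _ hS)) (mul_mem_sq hqM hmod)

include hq hqn in
/-- At a supersingular point `q` is in the square of the maximal ideal. -/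
theorem q_mem_sq (f : D.E →ₐ[O] R) (hf : (maximalIdeal R).comap f = n)
    (hb : D.centre hq ≤ n) (hb' : D.centre' hq ≤ n) :
    algebraMap O R q ∈ maximalIdeal R ^ 2 := by
  haveI := D.isMaximal_point hq hb
  have hqx := D.q_mem_point hq hb
  have hP := D.P_mem_of_both hq hb hb'
  have hh := D.ev_h_pow hq hqn (hqx := hqx) hP
  obtain ⟨y, hy, hyr⟩ := D.exists_kronecker hq
  obtain ⟨c, hc⟩ := D.exists_hasVal hq (hqx := hqx) y
  have hc0 : c ≠ 0 :=
    BaseData.ne_zero_of_delta hqn hP D.euler_δ hh (hc.congr hyr rfl)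
  have hyn : y ∉ n := fun h =>
    hc0 (hc.unique ((D.mem_iff_hasVal hq (hqx := hqx) hb rfl y).1 h))
  have h1 : D.hA - D.hB ^ qn ∈ n := by
    rw [D.mem_iff_hasVal hq (hqx := hqx) hb rfl, map_sub, map_pow, D.resE_αE,
      D.resE_vE_αE hq B.h_mem_rat]
    exact ((BaseData.hasVal_red B.h).sub (((BaseData.hasVal_red B.h).pow qn).pow qn)).congr rfl
      (by rw [← pow_mul, ← sq, hh, sub_self])
  have h2 : D.hB - D.hA ^ qn ∈ n := hb (by
    rw [centre, RingHom.mem_ker, map_sub, map_pow, D.resE_αE, D.resE_vE_αE hq B.h_mem_rat,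
      sub_self])
  refine mem_of_unit_mul_mem (fun h => hyn ((D.mem_iff_of_comap_eq hf y).1 h)) ?_
  rw [mul_comm, ← f.commutes q, ← map_mul, hy, map_mul]
  exact mul_mem_sq ((D.mem_iff_of_comap_eq hf _).2 h1) ((D.mem_iff_of_comap_eq hf _).2 h2)

include hq hqn in
/-- An interior coordinate at a supersingular point is in the square of the maximal ideal. -/
theorem mid_mem_sq {f g : D.E →ₐ[O] R} (hf : (maximalIdeal R).comap f = n)
    (hg : (maximalIdeal R).comap g = n) (hb : D.centre hq ≤ n) (hb' : D.centre' hq ≤ n)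
    (hA : f D.hA = g D.hA) (hne : f D.hB ≠ g D.hB) {a : O}
    (ha : D.hA - algebraMap O _ a ∈ n) :
    f D.hA - algebraMap O R a ∈ maximalIdeal R ^ 2 := by
  haveI := D.isMaximal_point hq hb
  have hqx := D.q_mem_point hq hb
  have hqn' := hb (D.q_mem_centre hq)
  have hh := D.ev_h_pow hq hqn (hqx := hqx) (D.P_mem_of_both hq hb hb')
  set b : O := a ^ qn
  have hbb : D.hB - algebraMap O _ b ∈ n := by
    have h1 := (D.hasVal_resE hq (hqx := hqx) hb rfl _ a).1 ha
    rw [D.resE_αE] at h1
    rw [D.hasVal_resE hq (hqx := hqx) hb rfl, D.resE_vE_αE hq B.h_mem_rat]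
    exact ((BaseData.hasVal_red B.h).pow qn).congr rfl
      (by rw [map_pow, h1.unique (BaseData.hasVal_red B.h)])
  obtain ⟨y, hy, -⟩ := D.exists_kronecker hq
  have hmem := D.sub_mem_span hq hf hg hqn'
    (S := {D.hA - algebraMap O _ a, D.hB - algebraMap O _ b})
    (Set.insert_subset ha (Set.singleton_subset_iff.2 hbb))
    (fun t ht => D.exists_mul_mem_span hq hqn hqn' ha hbb ht) y
  rw [Set.image_pair] at hmem
  simp only [map_sub, AlgHom.commutes, sub_sub_sub_cancel_right, hA, sub_self] at hmem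
  obtain ⟨c₁, c₂, hD⟩ := Ideal.mem_span_pair.1 hmem
  have hyf := congrArg f hy
  have hyg := congrArg g hy
  simp only [map_mul, map_sub, map_pow, AlgHom.commutes, ← hA] at hyf hyg
  set X := f D.hA
  set z := f D.hB
  set w := g D.hB
  set qR := algebraMap O R q
  set M := maximalIdeal R
  have hq2 : qR ∈ M ^ 2 := D.q_mem_sq hq hqn f hf hb hb'
  have hrel : X + X ^ qn * (∑ i ∈ Finset.range qn, z ^ i * w ^ (qn - 1 - i))
      - ∑ i ∈ Finset.range (qn + 1), z ^ i * w ^ (qn + 1 - 1 - i) = qR * c₂ := by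
    refine mul_left_cancel₀ (sub_ne_zero.2 hne) ?_
    linear_combination X ^ qn * geom_sum₂_mul z w qn - geom_sum₂_mul z w (qn + 1)
      - hyf + hyg - qR * hD
  have hza : z - algebraMap O R b ∈ M := (D.sub_mem_iff_of_comap_eq hf _ b).2 hbb
  have hwa : w - algebraMap O R b ∈ M := (D.sub_mem_iff_of_comap_eq hg _ b).2 hbb
  have hXa : X - algebraMap O R a ∈ M := (D.sub_mem_iff_of_comap_eq hf _ a).2 ha
  have hqn_eq : (qn : R) = qR := by
    rw [show qR = algebraMap O R q from rfl, B.q_eq, map_natCast]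
  have hab : algebraMap O R (a - b ^ qn) ∈ M ^ 2 := by
    obtain ⟨r, hr⟩ := (B.resO_eq_zero (a - b ^ qn)).1 (by
      have h1 := (D.hasVal_resE hq (hqx := hqx) hb rfl _ a).1 ha
      rw [D.resE_αE] at h1
      rw [map_sub, map_pow, map_pow, h1.unique (BaseData.hasVal_red B.h), ← pow_mul, ← sq, hh,
        sub_self])
    rw [hr, map_mul]
    exact Ideal.mul_mem_right _ _ hq2
  refine Ideal.Quotient.eq.1 ?_
  set π := Ideal.Quotient.mk (M ^ 2)
  have e0 : π qR = 0 := Ideal.Quotient.eq_zero_iff_mem.2 hq2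
  have e1 : π (algebraMap O R a) = π (algebraMap O R b) ^ qn := by
    rw [← map_pow, ← map_pow]; exact Ideal.Quotient.eq.2 (by simpa using hab)
  have e2 : π (X ^ qn) = π (algebraMap O R b) := by
    refine Ideal.Quotient.eq.2 ?_
    rw [show b = a ^ qn from rfl, map_pow]
    exact pow_sub_pow_mem_sq (by rw [hqn_eq]; exact Ideal.pow_le_self two_ne_zero hq2) hXa
  have e3 := Ideal.Quotient.eq.2 (pow_mul_geom_sum_mem_sq qn hza hwa)
  have e4 := Ideal.Quotient.eq.2 (pow_mul_geom_sum_mem_sq (qn + 1) hza hwa)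
  have e5 := congrArg π hrel
  have hC : (qn + 1).choose 2 = qn + qn.choose 2 := by
    rw [Nat.choose_succ_succ', Nat.choose_one_right]
  obtain ⟨j, hj⟩ := Nat.exists_eq_add_of_le hqn.two_le
  simp only [hC, show qn + 1 - 1 = qn by omega, show qn + 1 - 2 = qn - 1 by omega,
    Nat.cast_add, Nat.cast_one, hqn_eq, map_add, map_mul, map_pow, map_sub, map_one, e0] at e3 e4
  rw [map_sub, map_add, map_mul, e3, e2, show qn + 1 - 1 = qn by omega, e4, map_mul, e0] at e5
  rw [e1]
  simp only [show qn - 1 = j + 1 by omega, show qn - 2 = j by omega, pow_succ] at e5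
  linear_combination e5

end EdgeData

end FLTAgent.LevelPow
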