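import Fermat.Agent.LevelSq.BranchCentre

/-!
# One edge of a chain of `q`-isogenies modulo `q`

`EdgeData B FE`: the field of level `q N` over the inertia field with its two maps `α`, `w ∘ α` from
level `N`, exchanged by the involution `w`, the branch `V` of the special fibre on which `α` is
reduced birationally (`(u, u ^ q)`), the function `U` separating the two branches and the
Kronecker function of `h`. We derive the structure of the chart at its closed points over `q`.
-/

set_option autoImplicit false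
set_option linter.style.haveILetI false
set_option linter.unusedSectionVars false

noncomputable section

open Polynomial

namespace FLTAgent.LevelPow

open LevelSq

variable {O : Type} [CommRing O] [IsDomain O] [IsDiscreteValuationRing O] {q : O} {qn : ℕ}
  {FN : Type} [Field FN] [Algebra O FN] {k : Type} [Field k]

/-- The field of one edge. -/
structure EdgeData (B : BaseData O q qn FN k) (FE : Type) [Field FE] [Algebra O FE] where
  /-- the first degeneracy map -/
  α : FN →ₐ[O] FE
  /-- the involution exchanging the degeneracy maps -/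
  w : FE ≃ₐ[O] FE
  w_w : ∀ z, w (w z) = z
  mid_mem : w (α B.j) ∈ chart O (α B.j)
  noetherian : IsNoetherianRing (chart O (α B.j))
  /-- the branch `(u, u ^ q)` -/
  V : ValuationSubring FE
  isVert : IsVert O q (α B.j) V
  eq_V : ∀ P, IsVert O q (α B.j) P → (∀ z, z ∈ P ↔ z ∈ V) ∨ (∀ z, z ∈ P ↔ w z ∈ V)
  nonunits_V : ∀ z ∈ V.nonunits, ∃ y ∈ V, z = algebraMap O FE q * y
  /-- the residue map -/
  res : V →+* LaurentSeries k
  res_eq_zero : ∀ z : V, res z = 0 ↔ (z : FE) ∈ V.nonunits
  res_algebraMap : ∀ (a : O) (z : V), (z : FE) = algebraMap O FE a → res z = HahnSeries.C (B.resO a)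
  res_mem : ∀ z : V, (z : FE) ∈ chart O (α B.j) →
    ∃ g d : chart O B.j, B.red d ≠ 0 ∧ res z * B.red d = B.red g
  res_base : ∀ (g : chart O B.j) (z : V), (z : FE) = α g → res z = B.red g
  res_mid : ∀ g ∈ B.rat, ∀ z : V, (z : FE) = w (α g) → res z = B.red g ^ qn
  /-- separation of the two branches off the zeros of `P` -/
  sep : ∃ U ∈ chart O (α B.j), (∃ z : V, (z : FE) = U ∧ res z = B.red B.P) ∧ w U ∈ V.nonunits
  /-- the Kronecker function of `h` -/
  delta : ∃ z : V, algebraMap O FE q * z = w (α B.h) - α B.h ^ qn ∧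
    Genus.euler (res z) = Genus.euler (B.red B.h) ^ qn
      - B.red B.h ^ (qn - 1) * Genus.euler (B.red B.h)

variable {B : BaseData O q qn FN k} {FE : Type} [Field FE] [Algebra O FE] (D : EdgeData B FE)

theorem map_mem_chart {G : Type} [Field G] [Algebra O G] (f : FE →ₐ[O] G) {ψ z : FE}
    (hz : z ∈ chart O ψ) : f z ∈ chart O (f ψ) := by
  obtain ⟨p, hp, hpz⟩ := (mem_chart O).1 hz
  let g : Algebra.adjoin O ({ψ} : Set FE) →+* Algebra.adjoin O ({f ψ} : Set G) :=
    ((f.comp (Algebra.adjoin O ({ψ} : Set FE)).val).codRestrict _ fun y => by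
      obtain ⟨r, hr⟩ := exists_aeval_eq O y.2
      show f y ∈ _
      rw [← hr, ← aeval_algHom_apply]
      exact aeval_mem_adjoin O _ _).toRingHom
  refine (mem_chart O).2 ⟨p.map g, hp.map g, ?_⟩
  rw [eval₂_map]
  have h := congrArg f hpz
  rw [map_zero, ← AlgHom.coe_toRingHom, hom_eval₂] at h
  exact h

namespace EdgeData

/-- The chart of the edge. -/
abbrev E : Subalgebra O FE := chart O (D.α B.j)

theorem w_mem {z : FE} (hz : z ∈ D.E) : D.w z ∈ D.E :=
  isIntegral_of_le D.mid_mem (map_mem_chart D.w.toAlgHom hz)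

theorem α_mem (g : chart O B.j) : D.α g ∈ D.E := by
  obtain ⟨p, hp, hz⟩ := (mem_chart O).1 g.2
  let f : Algebra.adjoin O ({B.j} : Set FN) →+* Algebra.adjoin O ({D.α B.j} : Set FE) :=
    ((D.α.comp (Algebra.adjoin O ({B.j} : Set FN)).val).codRestrict _ fun y => by
      obtain ⟨r, hr⟩ := exists_aeval_eq O y.2
      show D.α y ∈ _
      rw [← hr, ← aeval_algHom_apply]
      exact aeval_mem_adjoin O _ _).toRingHom
  refine (mem_chart O).2 ⟨p.map f, hp.map f, ?_⟩
  rw [eval₂_map]
  have h := congrArg D.α hz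
  rw [map_zero, ← AlgHom.coe_toRingHom, hom_eval₂] at h
  exact h

/-- The degeneracy map on charts. -/
def αE : chart O B.j →ₐ[O] D.E := (D.α.comp (chart O B.j).val).codRestrict _ D.α_mem

/-- The involution of the chart. -/
def vE : D.E →ₐ[O] D.E := (D.w.toAlgHom.comp D.E.val).codRestrict _ fun z => D.w_mem z.2

@[simp]
theorem coe_αE (g : chart O B.j) : (D.αE g : FE) = D.α g := rfl

@[simp]
theorem coe_vE (z : D.E) : (D.vE z : FE) = D.w z := rfl

@[simp]
theorem vE_vE (z : D.E) : D.vE (D.vE z) = z := Subtype.ext (D.w_w z)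

theorem algebraMap_ne_zero {a : O} (ha : a ≠ 0) (D : EdgeData B FE) : algebraMap O FE a ≠ 0 := by
  rw [← D.α.commutes a]
  refine (map_ne_zero_iff _ D.α.toRingHom.injective).2 fun h => ?_
  exact B.j_transcendental ⟨C a, by simpa using ha, by rw [aeval_C, h]⟩

theorem transcendental_α : Transcendental O (D.α B.j) := fun h =>
  B.j_transcendental ((isAlgebraic_algHom_iff D.α D.α.toRingHom.injective).1 h)

variable (hq : Prime q)

include hq in
theorem mem_V {z : FE} (hz : z ∈ D.E) : z ∈ D.V := (D.isVert.chart_le' hq).1 hz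

/-- The restriction to the branch. -/
def resE : D.E →+* LaurentSeries k :=
  D.res.comp (Subring.inclusion (S := D.E.toSubring) (T := D.V.toSubring) fun _ hz => D.mem_V hq hz)

theorem resE_def (z : D.E) : D.resE hq z = D.res ⟨z, D.mem_V hq z.2⟩ := rfl

theorem resE_algebraMap (a : O) : D.resE hq (algebraMap O _ a) = HahnSeries.C (B.resO a) :=
  D.res_algebraMap a _ rfl

theorem resE_αE (g : chart O B.j) : D.resE hq (D.αE g) = B.red g := D.res_base g _ rfl

theorem resE_vE_αE {g : chart O B.j} (hg : g ∈ B.rat) :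
    D.resE hq (D.vE (D.αE g)) = B.red g ^ qn :=
  D.res_mid g hg _ rfl

/-- The prime of the branch. -/
def centre : Ideal D.E := RingHom.ker (D.resE hq)

theorem mem_centre {z : D.E} : z ∈ D.centre hq ↔ (z : FE) ∈ D.V.nonunits := D.res_eq_zero _

instance isPrime_centre : (D.centre hq).IsPrime := RingHom.ker_isPrime _

theorem q_mem_centre : algebraMap O D.E q ∈ D.centre hq := by
  rw [centre, RingHom.mem_ker, resE_algebraMap, (B.resO_eq_zero q).2 dvd_rfl, map_zero]

/-- The prime of the other branch. -/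
def centre' : Ideal D.E := (D.centre hq).comap D.vE

theorem mem_centre' {z : D.E} : z ∈ D.centre' hq ↔ D.vE z ∈ D.centre hq := Iff.rfl

instance isPrime_centre' : (D.centre' hq).IsPrime := Ideal.comap_isPrime _ _

theorem q_mem_centre' : algebraMap O D.E q ∈ D.centre' hq := by
  rw [mem_centre', AlgHom.commutes]; exact D.q_mem_centre hq

theorem nonunits_comap_iff (z : FE) (P : ValuationSubring FE) (h : ∀ x, x ∈ P ↔ D.w x ∈ D.V) :
    z ∈ P.nonunits ↔ D.w z ∈ D.V.nonunits := by
  rw [P.mem_nonunits_iff_or, D.V.mem_nonunits_iff_or, h, map_inv₀, map_eq_zero_iff _ D.w.injective]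

include hq in
theorem exists_centre_eq {P : Ideal D.E}
    (hP : P ∈ (Ideal.span {algebraMap O D.E q}).minimalPrimes) :
    D.centre hq = P ∨ D.centre' hq = P := by
  obtain ⟨W, hW, hW'⟩ := exists_isVert_of_minimalPrime hq D.transcendental_α hP
  rcases D.eq_V W hW with h | h
  · obtain rfl : W = D.V := SetLike.ext h
    exact Or.inl (Ideal.ext fun z => (D.mem_centre hq).trans (hW' z).2)
  · exact Or.inr (Ideal.ext fun z => (D.mem_centre hq).trans
      ((D.nonunits_comap_iff z W h).symm.trans (hW' z).2))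

include hq in
theorem exists_branch {n : Ideal D.E} [n.IsPrime] (hqn : algebraMap O D.E q ∈ n) :
    D.centre hq ≤ n ∨ D.centre' hq ≤ n := by
  obtain ⟨P, hP, hPn⟩ := Ideal.exists_minimalPrimes_le ((Ideal.span_singleton_le_iff_mem n).2 hqn)
  rcases D.exists_centre_eq hq hP with h | h <;> subst h
  exacts [Or.inl hPn, Or.inr hPn]

include hq in
/-- Integrality is checked on the two branches. -/
theorem mem_E_of_mem {z : FE} {i : ℕ} (hzc : algebraMap O FE q ^ i * z ∈ D.E) (h0 : z ∈ D.V)
    (h1 : D.w z ∈ D.V) : z ∈ D.E := by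
  haveI : IsNoetherianRing D.E.toSubring := D.noetherian
  have hq0 : algebraMap O D.E q ≠ 0 := fun h =>
    algebraMap_ne_zero hq.ne_zero D (congrArg Subtype.val h)
  let I : Ideal D.E :=
    { carrier := {d | (d : FE) * z ∈ D.E}
      zero_mem' := by simp
      add_mem' := fun {a c} ha hc => by
        show ((a + c : D.E) : FE) * z ∈ D.E
        rw [Subalgebra.coe_add, add_mul]
        exact add_mem ha hc
      smul_mem' := fun a c hc => by
        show ((a • c : D.E) : FE) * z ∈ D.E
        rw [smul_eq_mul, Subalgebra.coe_mul, mul_assoc]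
        exact mul_mem a.2 hc }
  by_contra hz
  obtain ⟨n, hn, hIn⟩ := Ideal.exists_le_maximal I fun h => hz (by
    simpa [I] using (h ▸ Submodule.mem_top : (1 : D.E) ∈ I))
  obtain ⟨d, hd, hdz⟩ := exists_mul_mem_of_minimalPrimes D.E.toSubring
    (fun x hx => mem_of_isIntegral_chart hx) n hq0 (i := i) (z := z) hzc fun P hP _ => by
      obtain ⟨W, hW, hW'⟩ := exists_isVert_of_minimalPrime hq D.transcendental_α hP
      refine exists_mul_mem_of_mem D.E.toSubring (fun x hx => mem_of_isIntegral_chart hx) hq0 hP W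
        (fun r => (hW' r).1) (fun r => (hW' r).2) ?_ (b := algebraMap O D.E q ^ i)
        (pow_ne_zero i hq0) hzc
      rcases D.eq_V W hW with h | h
      exacts [(h z).2 h0, (h z).2 h1]
  exact hd (hIn hdz)

include hq in
/-- An element vanishing on both branches is divisible by `q`. -/
theorem exists_eq_q_mul {s : D.E} (h0 : s ∈ D.centre hq) (h1 : D.vE s ∈ D.centre hq) :
    ∃ t : D.E, s = algebraMap O D.E q * t := by
  obtain ⟨y, hy, hys⟩ := D.nonunits_V _ ((D.mem_centre hq).1 h0)
  obtain ⟨y', hy', hys'⟩ := D.nonunits_V _ ((D.mem_centre hq).1 h1)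
  have hwy : D.w y = y' := mul_left_cancel₀ (algebraMap_ne_zero hq.ne_zero D) (by
    rw [← hys', coe_vE, hys, map_mul, AlgEquiv.commutes])
  have hyE : y ∈ D.E := D.mem_E_of_mem hq (i := 1) (by rw [pow_one, ← hys]; exact s.2) hy
    (hwy ▸ hy')
  exact ⟨⟨y, hyE⟩, Subtype.ext hys⟩

section Point

variable [IsAlgClosed k]

/-- On the branch an element of the chart is a function on the level `N` curve modulo `q`. -/
theorem exists_red_eq_resE (z : D.E) : ∃ g, B.red g = D.resE hq z := by
  refine BaseData.exists_red_eq fun x hx hqx => ?_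
  haveI := hx
  obtain ⟨p, hp, hpz⟩ := (mem_chart O).1 z.2
  let i : Algebra.adjoin O ({D.α B.j} : Set FE) →+* D.E :=
    (Subalgebra.inclusion (adjoin_le_chart O (D.α B.j))).toRingHom
  refine BaseData.exists_hasVal_of_integral (hqx := hqx)
    (D.res_mem ⟨z, D.mem_V hq z.2⟩ z.2) (p.map ((D.resE hq).comp i)) (hp.map _)
    (fun l => ?_) ?_
  · rw [coeff_map]
    obtain ⟨r, hr⟩ := exists_aeval_eq O (p.coeff l).2
    have e : i (p.coeff l) = D.αE (aeval (⟨B.j, self_mem_chart O B.j⟩ : chart O B.j) r) := by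
      rw [← aeval_algHom_apply]
      refine Subtype.ext ?_
      show ((p.coeff l : Algebra.adjoin O ({D.α B.j} : Set FE)) : FE) = _
      rw [← hr]
      exact (aeval_algHom_apply D.E.val (D.αE ⟨B.j, self_mem_chart O B.j⟩) r)
    rw [RingHom.comp_apply, e, D.resE_αE]
    exact ⟨_, BaseData.hasVal_red _⟩
  · rw [eval_map, ← hom_eval₂,
      show p.eval₂ i z = 0 from Subtype.ext (by
        rw [← Subalgebra.coe_val, ← AlgHom.coe_toRingHom, hom_eval₂, map_zero]; exact hpz),
      map_zero]

include hq in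
theorem exists_sub_mem_centre (z : D.E) : ∃ g : chart O B.j, z - D.αE g ∈ D.centre hq := by
  obtain ⟨g, hg⟩ := D.exists_red_eq_resE hq z
  exact ⟨g, by rw [centre, RingHom.mem_ker, map_sub, D.resE_αE, hg, sub_self]⟩

variable {n : Ideal D.E} [n.IsMaximal]

include hq in
theorem isMaximal_point (hb : D.centre hq ≤ n) : (n.comap D.αE).IsMaximal := by
  letI : Field (D.E ⧸ n) := Ideal.Quotient.field n
  rw [show n.comap D.αE = RingHom.ker ((Ideal.Quotient.mk n).comp D.αE.toRingHom) from
    Ideal.ext fun g => by simp [RingHom.mem_ker, Ideal.Quotient.eq_zero_iff_mem]]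
  refine RingHom.ker_isMaximal_of_surjective _ fun w => ?_
  obtain ⟨z, rfl⟩ := Ideal.Quotient.mk_surjective w
  obtain ⟨g, hg⟩ := D.exists_sub_mem_centre hq z
  exact ⟨g, (Ideal.Quotient.eq.2 (hb hg)).symm⟩

include hq in
theorem q_mem_point (hb : D.centre hq ≤ n) : algebraMap O (chart O B.j) q ∈ n.comap D.αE := by
  rw [Ideal.mem_comap, AlgHom.commutes]
  exact hb (D.q_mem_centre hq)

variable {x : Ideal (chart O B.j)} [x.IsMaximal] {hqx : algebraMap O _ q ∈ x}

/-- Reading membership in `n` on the branch. -/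
theorem hasVal_resE (hb : D.centre hq ≤ n) (hx : n.comap D.αE = x) (z : D.E) (a : O) :
    z - algebraMap O _ a ∈ n ↔ B.HasVal hqx (D.resE hq z) (B.resO a) := by
  obtain ⟨g, hg⟩ := D.exists_sub_mem_centre hq z
  have hgz : D.resE hq z = B.red g := by
    rw [centre, RingHom.mem_ker, map_sub, D.resE_αE, sub_eq_zero] at hg
    exact hg
  have key : z - algebraMap O _ a ∈ n ↔ g - algebraMap O _ a ∈ x := by
    rw [← hx, Ideal.mem_comap, map_sub, AlgHom.commutes]
    constructor <;> intro h
    · simpa using n.sub_mem h (hb hg)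
    · simpa using n.add_mem h (hb hg)
  rw [key, ← B.ev_eq_zero hqx, map_sub, B.ev_algebraMap, sub_eq_zero, hgz]
  exact ⟨fun h => h ▸ BaseData.hasVal_red g, fun h => (BaseData.hasVal_red g).unique h⟩

theorem mem_iff_hasVal (hb : D.centre hq ≤ n) (hx : n.comap D.αE = x) (z : D.E) :
    z ∈ n ↔ B.HasVal hqx (D.resE hq z) 0 := by
  simpa using D.hasVal_resE hq (hqx := hqx) hb hx z 0

theorem exists_hasVal (z : D.E) : ∃ c, B.HasVal hqx (D.resE hq z) c := by
  obtain ⟨g, hg⟩ := D.exists_red_eq_resE hq z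
  exact ⟨_, hg ▸ BaseData.hasVal_red g⟩

include hq in
/-- The point on the branch over a point of level `N` is unique. -/
theorem eq_of_point (hb : D.centre hq ≤ n) {n' : Ideal D.E} [n'.IsMaximal]
    (hb' : D.centre hq ≤ n') (h : n'.comap D.αE = n.comap D.αE) : n' = n := by
  refine (inferInstance : n'.IsMaximal).eq_of_le (inferInstance : n.IsMaximal).ne_top fun z hz => ?_
  obtain ⟨g, hg⟩ := D.exists_sub_mem_centre hq z
  have h1 : g ∈ n.comap D.αE := h ▸ Ideal.mem_comap.2 (by simpa using n'.sub_mem hz (hb' hg))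
  simpa using n.add_mem (hb hg) (Ideal.mem_comap.1 h1)

include hq in
/-- Closed points of the special fibre are rational. -/
theorem exists_const_E (hqn : algebraMap O D.E q ∈ n) (z : D.E) :
    ∃ a : O, z - algebraMap O _ a ∈ n := by
  have key : ∀ (m : Ideal D.E) [m.IsMaximal], D.centre hq ≤ m → ∀ y : D.E,
      ∃ a : O, y - algebraMap O _ a ∈ m := by
    intro m _ hb y
    haveI := D.isMaximal_point hq hb
    have hqx := D.q_mem_point hq hb
    obtain ⟨c, hc⟩ := D.exists_hasVal hq (hqx := hqx) y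
    obtain ⟨a, rfl⟩ := B.resO_surjective c
    exact ⟨a, (D.hasVal_resE hq (hqx := hqx) hb rfl y a).2 hc⟩
  rcases D.exists_branch hq hqn with hb | hb
  · exact key n hb z
  · haveI : (n.comap D.vE).IsMaximal :=
      Ideal.comap_isMaximal_of_surjective (D.vE : D.E →+* D.E) (fun y => ⟨D.vE y, D.vE_vE y⟩)
    obtain ⟨a, ha⟩ := key (n.comap D.vE) (fun y hy => hb (by
      show D.vE (D.vE y) ∈ D.centre hq
      rwa [D.vE_vE])) (D.vE z)
    rw [Ideal.mem_comap, map_sub, AlgHom.commutes, D.vE_vE] at ha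
    exact ⟨a, ha⟩

include hq in
theorem resO_eq_zero_of_mem (hqn : algebraMap O D.E q ∈ n) {a : O}
    (ha : algebraMap O D.E a ∈ n) : B.resO a = 0 := by
  by_contra hne
  obtain ⟨e, he⟩ := B.resO_surjective (B.resO a)⁻¹
  obtain ⟨c, hc⟩ := (B.resO_eq_zero (a * e - 1)).1 (by
    rw [map_sub, map_mul, he, mul_inv_cancel₀ hne, map_one, sub_self])
  refine ‹n.IsMaximal›.ne_top ((Ideal.eq_top_iff_one n).2 ?_)
  have h := congrArg (algebraMap O D.E) hc
  rw [map_sub, map_mul, map_mul, map_one] at h
  have h3 := n.sub_mem (n.mul_mem_right (algebraMap O _ e) ha)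
    (n.mul_mem_right (algebraMap O _ c) hqn)
  rwa [← h, sub_sub_cancel] at h3

include hq in
/-- Derivative at a point of the branch: `z` minus its value is, up to a unit, a multiple of
`α h - a` modulo `q`, and the quotient has as value the derivative. -/
theorem exists_linear (hb : D.centre hq ≤ n) (hx : n.comap D.αE = x) (hup : ¬ D.centre' hq ≤ n)
    {a c : O} (ha : B.resO a = B.ev x hqx B.h) (z : D.E) (hc : z - algebraMap O _ c ∈ n) :
    ∃ (d e₁ e₂ : D.E) (w : LaurentSeries k) (e : k), d ∉ n ∧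
      d * (z - algebraMap O _ c) = (D.αE B.h - algebraMap O _ a) * e₁
        + algebraMap O _ q * e₂ ∧
      B.HasVal hqx w e ∧ Genus.euler (D.resE hq z) = w * Genus.euler (B.red B.h) ∧
      ∀ a' : O, e₁ - algebraMap O _ a' * d ∈ n ↔ B.resO a' = e := by
  obtain ⟨u, hu, hun⟩ := SetLike.not_le_iff_exists.1 hup
  obtain ⟨g, hg⟩ := D.exists_sub_mem_centre hq z
  have hgx : g - algebraMap O _ c ∈ x := by
    rw [← hx, Ideal.mem_comap, map_sub, AlgHom.commutes]
    simpa using n.sub_mem hc (hb hg)
  obtain ⟨a₀, ha₀, hgen⟩ := B.unif x inferInstance hqx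
  obtain ⟨d', s, v, hd', hgv⟩ := hgen _ hgx
  obtain ⟨r, hr⟩ : q ∣ a - a₀ := (B.resO_eq_zero _).1 (by
    rw [map_sub, ha, ← B.ev_algebraMap hqx a₀, sub_eq_zero, ← sub_eq_zero, ← map_sub,
      B.ev_eq_zero]
    exact ha₀)
  obtain ⟨t, ht⟩ := D.exists_eq_q_mul hq (s := u * (z - D.αE g))
    ((D.centre hq).mul_mem_left u hg) (by
      rw [map_mul]
      exact Ideal.mul_mem_right _ _ hu)
  refine ⟨u * D.αE d', u * D.αE v,
    u * D.αE (s + v * algebraMap O _ r) + D.αE d' * t, ?_⟩
  have hd'n : D.αE d' ∉ n := fun h => hd' (hx ▸ Ideal.mem_comap.2 h)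
  have hdn : u * D.αE d' ∉ n := fun h =>
    ((inferInstance : n.IsMaximal).isPrime.mem_or_mem h).elim hun hd'n
  have hha : algebraMap O (chart O B.j) a₀ =
      algebraMap O _ a - algebraMap O _ q * algebraMap O _ r := by
    rw [← map_mul, ← hr, map_sub, sub_sub_cancel]
  have heq : u * D.αE d' * (z - algebraMap O _ c) = (D.αE B.h - algebraMap O _ a) * (u * D.αE v)
      + algebraMap O _ q * (u * D.αE (s + v * algebraMap O _ r) + D.αE d' * t) := by
    have h1 := congrArg D.αE hgv
    rw [hha] at h1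
    simp only [map_mul, map_sub, map_add, AlgHom.commutes] at h1 ⊢
    linear_combination u * h1 + D.αE d' * ht
  -- the residue
  have hres : D.resE hq z - HahnSeries.C (B.resO c)
      = (B.red B.h - HahnSeries.C (B.resO a)) * (B.red v / B.red d') := by
    have h2 := congrArg B.red hgv
    have hd0 := B.red_ne_zero hqx hd'
    rw [hha, map_mul, map_add, map_mul, map_mul, B.red_q, mul_zero, zero_add] at h2
    simp only [map_sub, map_mul, B.red_q, zero_mul, B.red_algebraMap, sub_zero] at h2
    rw [show D.resE hq z = B.red g by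
      rw [centre, RingHom.mem_ker, map_sub, D.resE_αE, sub_eq_zero] at hg
      exact hg, mul_div, eq_div_iff hd0]
    linear_combination h2
  have hev : B.HasVal hqx (B.red v / B.red d') (B.ev x hqx v / B.ev x hqx d') :=
    BaseData.HasVal.div ((div_mul_cancel₀ _ (B.red_ne_zero hqx hd')).symm ▸ BaseData.hasVal_red v)
      (BaseData.hasVal_red d') ((B.ev_ne_zero hqx).2 hd')
  obtain ⟨w', e', hw', hdw⟩ := hev.exists_deriv
  refine ⟨B.red v / B.red d' + (B.red B.h - HahnSeries.C (B.resO a)) * w',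
    B.ev x hqx v / B.ev x hqx d', hdn, heq, ?_, ?_, fun a' => ?_⟩
  · have := hev.add (((BaseData.hasVal_red B.h).sub (BaseData.hasVal_C (B.resO a))).mul hw')
    rwa [ha, sub_self, zero_mul, add_zero, ← ha] at this
  · have h3 := congrArg Genus.euler hres
    rw [map_sub, Genus.euler_mul, map_sub, hdw] at h3
    simp only [HahnSeries.C_apply, Genus.euler_single_zero, sub_zero] at h3
    rw [h3]
    simp only [HahnSeries.C_apply]
    ring
  · have h4 : u * D.αE v - algebraMap O _ a' * (u * D.αE d')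
        = u * D.αE (v - algebraMap O _ a' * d') := by
      simp only [map_sub, map_mul, AlgHom.commutes]; ring
    rw [h4, eq_div_iff ((B.ev_ne_zero hqx).2 hd'), eq_comm (b := B.ev x hqx v),
      ← sub_eq_zero (a := B.ev x hqx v), ← B.ev_algebraMap hqx a', ← map_mul, ← map_sub,
      B.ev_eq_zero, ← hx, Ideal.mem_comap]
    exact ⟨fun h => ((inferInstance : n.IsMaximal).isPrime.mem_or_mem h).resolve_left hun,
      fun h => n.mul_mem_left u h⟩

end Point

end EdgeData

end FLTAgent.LevelPow
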