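import Fermat.Agent.LevelPow.Edge
import Mathlib.Algebra.Ring.GeomSum
import Mathlib.Data.Nat.Choose.Basic

/-!
# Linear relations at a closed point of a chain of edges

For local homomorphisms from the chart of an edge to a local domain `(R, M)` we compute the linear
relations modulo `M ^ 2`: the parent coordinate is a multiple of `q`, two different edges over one
parent give a relation with unit coefficient at `q`, and at a supersingular point `q` and every
interior coordinate lie in `M ^ 2`.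
-/

set_option autoImplicit false
set_option linter.style.haveILetI false
set_option linter.unusedSectionVars false

noncomputable section

open Polynomial IsLocalRing

namespace FLTAgent.LevelPow

open LevelSq

/-- The divided difference of powers at two first order deformations. -/
theorem geomSum_first_order {S : Type*} [CommRing S] (a x y : S) (hxx : x * x = 0) (hyy : y * y = 0)
    (hxy : x * y = 0) (n : ℕ) :
    ∑ i ∈ Finset.range n, (a + x) ^ i * (a + y) ^ (n - 1 - i)
      = (n : S) * a ^ (n - 1) + (n.choose 2 : S) * a ^ (n - 2) * (x + y) := by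
  have hpow : ∀ m : ℕ, (a + x) ^ m = a ^ m + (m : S) * a ^ (m - 1) * x := by
    intro m
    induction m with
    | zero => simp
    | succ m ih =>
      rw [pow_succ, ih, Nat.cast_succ, Nat.add_sub_cancel, pow_succ a m]
      rcases Nat.eq_zero_or_pos m with rfl | hm
      · simp
      · obtain ⟨j, rfl⟩ := Nat.exists_eq_add_of_le hm
        simp only [Nat.add_sub_cancel_left, pow_add, pow_one]
        push_cast
        linear_combination ((1 + j : S) * a ^ j) * hxx
  induction n with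
  | zero => simp
  | succ n ih =>
    rw [Nat.add_sub_cancel, geom_sum₂_succ_eq, ih, hpow, Nat.choose_succ_succ', Nat.choose_one_right, Nat.cast_succ,
      Nat.cast_add, show 1 + 1 = 2 from rfl]
    rcases Nat.lt_or_ge n 2 with hn | hn
    · interval_cases n <;> simp <;> ring
    · obtain ⟨j, rfl⟩ := Nat.exists_eq_add_of_le hn
      simp only [show 2 + j - 1 = j + 1 by omega, show 2 + j - 2 = j by omega,
        show 2 + j + 1 - 2 = j + 1 by omega, pow_add, pow_one]
      linear_combination ((Nat.choose (2 + j) 2 : S) * a ^ j) * (hxy + hyy)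

variable {O : Type} [CommRing O] [IsDomain O] [IsDiscreteValuationRing O] {q : O} {qn : ℕ}
  {FN : Type} [Field FN] [Algebra O FN] {k : Type} [Field k] [IsAlgClosed k]
  {B : BaseData O q qn FN k} {FE : Type} [Field FE] [Algebra O FE]

namespace EdgeData

variable (D : EdgeData B FE) (hq : Prime q) (hqn : qn.Prime)

/-- The residue of the Kronecker function of `h`. -/
def δ : LaurentSeries k := D.res D.delta.choose

theorem euler_δ : Genus.euler D.δ = Genus.euler (B.red B.h) ^ qn
    - B.red B.h ^ (qn - 1) * Genus.euler (B.red B.h) := D.delta.choose_spec.2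

/-- `α h`. -/
abbrev hA : D.E := D.αE B.h

/-- `w (α h)`. -/
abbrev hB : D.E := D.vE (D.αE B.h)

include hq in
theorem exists_delta_mul {u : D.E} (hu : u ∈ D.centre' hq) :
    ∃ y : D.E, algebraMap O D.E q * y = u * (D.hB - D.hA ^ qn) ∧
      D.resE hq y = D.resE hq u * D.δ := by
  set z := D.delta.choose
  have hz : algebraMap O FE q * z = D.w (D.α B.h) - D.α B.h ^ qn := D.delta.choose_spec.1
  obtain ⟨y₁, hy₁, hwu⟩ := D.nonunits_V _ ((D.mem_centre hq).1 hu)
  have hmem : (u : FE) * z ∈ D.E := by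
    refine D.mem_E_of_mem hq (i := 1) ?_ (mul_mem (D.mem_V hq u.2) z.2) ?_
    · rw [pow_one, mul_left_comm, hz]
      exact mul_mem u.2 (sub_mem (D.hB).2 (pow_mem (D.hA).2 _))
    · have h1 := congrArg D.w hz
      rw [map_mul, AlgEquiv.commutes, map_sub, map_pow, D.w_w] at h1
      rw [map_mul, show D.w (u : FE) = algebraMap O FE q * y₁ from hwu, mul_assoc, mul_comm,
        mul_assoc, mul_comm (D.w (z : FE)), h1]
      exact mul_mem hy₁ (sub_mem (D.mem_V hq (D.hA).2) (pow_mem (D.mem_V hq (D.hB).2) _))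
  refine ⟨⟨_, hmem⟩, Subtype.ext ?_, ?_⟩
  · show algebraMap O FE q * ((u : FE) * z) = (u : FE) * (D.w (D.α B.h) - D.α B.h ^ qn)
    rw [mul_left_comm, hz]
  · rw [resE_def, resE_def, δ, ← map_mul]
    exact congrArg _ (Subtype.ext rfl)

include hq in
theorem exists_kronecker :
    ∃ y : D.E, algebraMap O D.E q * y = (D.hA - D.hB ^ qn) * (D.hB - D.hA ^ qn) ∧
      D.resE hq y = (B.red B.h - B.red B.h ^ qn ^ 2) * D.δ := by
  set z := D.delta.choose
  have hz : algebraMap O FE q * z = D.w (D.α B.h) - D.α B.h ^ qn := D.delta.choose_spec.1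
  have h1 := congrArg D.w hz
  rw [map_mul, AlgEquiv.commutes, map_sub, map_pow, D.w_w] at h1
  set c : D.E := D.hA - D.hB ^ qn
  have hmem : (c : FE) * z ∈ D.E := by
    refine D.mem_E_of_mem hq (i := 1) ?_ (mul_mem (D.mem_V hq c.2) z.2) ?_
    · rw [pow_one, mul_left_comm, hz]
      exact mul_mem c.2 (sub_mem (D.hB).2 (pow_mem (D.hA).2 _))
    · have hc : (c : FE) = algebraMap O FE q * D.w z := h1.symm
      rw [hc, map_mul, map_mul, AlgEquiv.commutes, D.w_w, mul_right_comm, ← hc]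
      exact mul_mem (D.mem_V hq c.2) z.2
  refine ⟨⟨_, hmem⟩, Subtype.ext ?_, ?_⟩
  · show algebraMap O FE q * ((c : FE) * z) = (c : FE) * (D.w (D.α B.h) - D.α B.h ^ qn)
    rw [mul_left_comm, hz]
  · have hr : D.resE hq c = B.red B.h - B.red B.h ^ qn ^ 2 := by
      rw [map_sub, map_pow, D.resE_αE, D.resE_vE_αE hq B.h_mem_rat, ← pow_mul, sq]
    rw [← hr, resE_def, resE_def, δ, ← map_mul]
    exact congrArg _ (Subtype.ext rfl)

section Point

variable {n : Ideal D.E} [n.IsMaximal] {x : Ideal (chart O B.j)} [x.IsMaximal]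
  {hqx : algebraMap O _ q ∈ x}

include hq in
theorem P_mem_of_both (hb : D.centre hq ≤ n) (hb' : D.centre' hq ≤ n) :
    B.P ∈ n.comap D.αE := by
  obtain ⟨U, hU, ⟨z, hz, hres⟩, hwU⟩ := D.sep
  have h1 : (⟨U, hU⟩ : D.E) ∈ n := hb' ((D.mem_centre hq).2 hwU)
  have h2 : (⟨U, hU⟩ : D.E) - D.αE B.P ∈ D.centre hq := by
    rw [centre, RingHom.mem_ker, map_sub, D.resE_αE, resE_def, ← hres, sub_eq_zero]
    exact congrArg _ (Subtype.ext hz.symm)
  rw [Ideal.mem_comap]
  simpa using n.sub_mem h1 (hb h2)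

include hqn in
theorem false_of_hasVal_δ (hP : B.P ∈ x) {c : k} (hc : B.HasVal hqx D.δ c) : False :=
  one_ne_zero (BaseData.deriv_eq_zero_of_delta hqn hP (BaseData.hasVal_red B.h) hc D.euler_δ
    ((BaseData.hasVal_C (B := B) (hqx := hqx) 1).congr (map_one _) rfl) (one_mul _).symm)

include hq hqn in
theorem P_notMem_of_up (hb : D.centre hq ≤ n) (hup : ¬ D.centre' hq ≤ n) (hx : n.comap D.αE = x) :
    B.P ∉ x := by
  intro hP
  obtain ⟨u, hu, hun⟩ := SetLike.not_le_iff_exists.1 hup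
  have hqx : algebraMap O _ q ∈ x := hx ▸ D.q_mem_point hq hb
  obtain ⟨y, -, hy⟩ := D.exists_delta_mul hq hu
  obtain ⟨c, hc⟩ := D.exists_hasVal hq (hqx := hqx) u
  obtain ⟨e, he⟩ := D.exists_hasVal hq (hqx := hqx) y
  have hc0 : c ≠ 0 := fun h => hun ((D.mem_iff_hasVal hq (hqx := hqx) hb hx u).2 (h ▸ hc))
  exact D.false_of_hasVal_δ hqn hP (BaseData.HasVal.div
    (he.congr (by rw [hy, mul_comm]) rfl) hc hc0)

include D hq hqn in
theorem ev_h_pow (hP : B.P ∈ x) : B.ev x hqx B.h ^ qn ^ 2 = B.ev x hqx B.h := by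
  by_contra hne
  obtain ⟨y, -, hy⟩ := D.exists_kronecker hq
  obtain ⟨c, hc⟩ := D.exists_hasVal hq (hqx := hqx) y
  exact D.false_of_hasVal_δ hqn hP (BaseData.HasVal.div (hc.congr (by rw [hy, mul_comm]) rfl)
    ((BaseData.hasVal_red B.h).sub ((BaseData.hasVal_red B.h).pow _)) (sub_ne_zero.2 (Ne.symm hne)))

include hq in
/-- The values of the two coordinates on the branch. -/
theorem resO_eq_pow (hb : D.centre hq ≤ n) (hx : n.comap D.αE = x) {a b : O}
    (ha : D.hA - algebraMap O _ a ∈ n) (hbb : D.hB - algebraMap O _ b ∈ n) :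
    B.resO a = B.ev x hqx B.h ∧ B.resO b = B.ev x hqx B.h ^ qn := by
  have h1 := (D.hasVal_resE hq (hqx := hqx) hb hx _ a).1 ha
  have h2 := (D.hasVal_resE hq (hqx := hqx) hb hx _ b).1 hbb
  rw [D.resE_αE] at h1
  rw [D.resE_vE_αE hq B.h_mem_rat] at h2
  exact ⟨h1.unique (BaseData.hasVal_red B.h), h2.unique ((BaseData.hasVal_red B.h).pow qn)⟩

include hq hqn in
/-- At a point on one branch the maximal ideal is generated by `q` and the coordinate. -/
theorem exists_mul_mem_span_up (hb : D.centre hq ≤ n) (hup : ¬ D.centre' hq ≤ n) {a : O}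
    (ha : D.hA - algebraMap O _ a ∈ n) {z : D.E} (hz : z ∈ n) :
    ∃ d ∉ n, d * z ∈ Ideal.span {algebraMap O D.E q, D.hA - algebraMap O _ a} := by
  haveI := D.isMaximal_point hq hb
  have hqx := D.q_mem_point hq hb
  have h1 := (D.hasVal_resE hq (hqx := hqx) hb rfl _ a).1 ha
  rw [D.resE_αE] at h1
  obtain ⟨d, e₁, e₂, w, e, hd, heq, -, -, -⟩ := D.exists_linear hq (hqx := hqx) hb rfl hup
    (h1.unique (BaseData.hasVal_red B.h)) z (c := 0) (by simpa using hz)
  refine ⟨d, hd, ?_⟩
  rw [map_zero, sub_zero] at heq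
  rw [heq]
  exact add_mem (Ideal.mul_mem_right _ _ (Ideal.subset_span (by simp)))
    (Ideal.mul_mem_right _ _ (Ideal.subset_span (by simp)))

include hq hqn in
/-- At every point the maximal ideal is generated by `q` and the two coordinates. -/
theorem exists_mul_mem_span (hqn' : algebraMap O D.E q ∈ n) {a b : O}
    (ha : D.hA - algebraMap O _ a ∈ n) (hbb : D.hB - algebraMap O _ b ∈ n) {z : D.E} (hz : z ∈ n) :
    ∃ d ∉ n, d * z ∈
      Ideal.span {algebraMap O D.E q, D.hA - algebraMap O _ a, D.hB - algebraMap O _ b} := by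
  set S := Ideal.span {algebraMap O D.E q, D.hA - algebraMap O _ a, D.hB - algebraMap O _ b} with hS
  have hqS : algebraMap O D.E q ∈ S := Ideal.subset_span (by simp)
  have haS : D.hA - algebraMap O _ a ∈ S := Ideal.subset_span (by simp)
  have hbS : D.hB - algebraMap O _ b ∈ S := Ideal.subset_span (by simp)
  haveI : (n.comap D.vE).IsMaximal :=
    Ideal.comap_isMaximal_of_surjective (D.vE : D.E →+* D.E) (fun y => ⟨D.vE y, D.vE_vE y⟩)
  have hup2 : ∀ {m : Ideal D.E} [m.IsMaximal], D.centre hq ≤ m → ¬ D.centre' hq ≤ m → ∀ {c : O},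
      D.hA - algebraMap O _ c ∈ m → ∀ {y}, y ∈ m →
      ∃ d ∉ m, d * y ∈ Ideal.span {algebraMap O D.E q, D.hA - algebraMap O _ c} :=
    @fun m _ h1 h2 c h3 y h4 => D.exists_mul_mem_span_up hq hqn h1 h2 h3 h4
  by_cases hb : D.centre hq ≤ n
  swap
  · have hb' := (D.exists_branch hq hqn').resolve_left hb
    obtain ⟨d, hd, hdz⟩ := hup2 (m := n.comap D.vE) (fun y hy => hb' (by
        show D.vE (D.vE y) ∈ D.centre hq
        rwa [D.vE_vE])) (fun h => hb fun y hy => by
          have := h (show D.vE y ∈ D.centre' hq by rw [mem_centre', D.vE_vE]; exact hy)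
          rwa [Ideal.mem_comap, D.vE_vE] at this) (c := b)
      (by rw [Ideal.mem_comap, map_sub, AlgHom.commutes]; exact hbb)
      (y := D.vE z) (by rw [Ideal.mem_comap, D.vE_vE]; exact hz)
    refine ⟨D.vE d, hd, ?_⟩
    have h2 := Ideal.mem_map_of_mem D.vE hdz
    rw [map_mul, D.vE_vE, Ideal.map_span, Set.image_pair, AlgHom.commutes, map_sub,
      AlgHom.commutes] at h2
    exact Ideal.span_mono (by intro t ht; simp only [Set.mem_insert_iff, Set.mem_singleton_iff] at ht ⊢; tauto) h2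
  by_cases hb' : D.centre' hq ≤ n
  swap
  · obtain ⟨d, hd, hdz⟩ := hup2 hb hb' ha hz
    exact ⟨d, hd, Ideal.span_mono
      (by intro t ht; simp only [Set.mem_insert_iff, Set.mem_singleton_iff] at ht ⊢; tauto) hdz⟩
  -- both branches
  haveI := D.isMaximal_point hq hb
  have hqx := D.q_mem_point hq hb
  obtain ⟨g, hg⟩ := D.exists_sub_mem_centre hq z
  have hgx : g ∈ n.comap D.αE := by simpa using n.sub_mem hz (hb hg)
  obtain ⟨a₀, ha₀, hgen⟩ := B.unif _ inferInstance hqx
  obtain ⟨d₀, s₀, v₀, hd₀, hgv⟩ := hgen g hgx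
  obtain ⟨hra, hrb⟩ := D.resO_eq_pow hq (hqx := hqx) hb rfl ha hbb
  obtain ⟨r, hr⟩ : q ∣ a - a₀ := (B.resO_eq_zero _).1 (by
    rw [map_sub, hra, ← B.ev_algebraMap hqx a₀, sub_eq_zero, ← sub_eq_zero, ← map_sub,
      B.ev_eq_zero]
    exact ha₀)
  have hαg : D.αE d₀ * D.αE g ∈ S := by
    have e : D.αE d₀ * D.αE g = D.αE s₀ * algebraMap O _ q + D.αE v₀ *
        ((D.hA - algebraMap O _ a) + algebraMap O _ q * algebraMap O _ r) := by
      rw [← map_mul (algebraMap O D.E), ← hr, map_sub (algebraMap O D.E), sub_add_sub_cancel,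
        ← AlgHom.commutes D.αE a₀, ← AlgHom.commutes D.αE q, ← map_sub, ← map_mul, ← map_mul,
        ← map_mul, ← map_add, hgv]
    rw [e]
    exact add_mem (S.mul_mem_left _ hqS) (S.mul_mem_left _ (add_mem haS (S.mul_mem_right _ hqS)))
  set y := z - D.αE g
  have hyn : y ∈ n := hb hg
  -- the point on the other branch
  have hb₂ : D.centre hq ≤ n.comap D.vE := fun w hw => hb' (by
    show D.vE (D.vE w) ∈ D.centre hq
    rwa [D.vE_vE])
  haveI := D.isMaximal_point hq hb₂
  have hqx' := D.q_mem_point hq hb₂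
  have hP' : B.P ∈ (n.comap D.vE).comap D.αE :=
    D.P_mem_of_both hq (n := n.comap D.vE) hb₂ fun w hw => hb hw
  obtain ⟨g₁, hg₁⟩ := D.exists_sub_mem_centre hq (D.vE y)
  have hg₁x : g₁ ∈ (n.comap D.vE).comap D.αE := by
    have h1 : D.vE y ∈ n.comap D.vE := by rw [Ideal.mem_comap, D.vE_vE]; exact hyn
    simpa using (n.comap D.vE).sub_mem h1 (hb₂ hg₁)
  obtain ⟨a₁, ha₁, hgen₁⟩ := B.unif _ inferInstance hqx'
  obtain ⟨d₁, s₁, v₁, hd₁, hgv₁⟩ := hgen₁ g₁ hg₁x
  have hev : B.ev _ hqx' B.h = B.resO a₁ := by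
    rw [← B.ev_algebraMap hqx' a₁, ← sub_eq_zero, ← map_sub, B.ev_eq_zero]; exact ha₁
  have hpow := D.ev_h_pow hq hqn (hqx := hqx') hP'
  haveI := BaseData.charP_residue hqn B
  haveI := Fact.mk hqn
  haveI : CharP (LaurentSeries k) qn :=
    charP_of_injective_ringHom (HahnSeries.C : k →+* LaurentSeries k).injective qn
  obtain ⟨M, hM⟩ : ∃ M, qn ^ 2 = M + 2 :=
    ⟨qn ^ 2 - 2, by have := Nat.pow_le_pow_left hqn.two_le 2; omega⟩
  set t : chart O B.j := 1 - (B.h - algebraMap O _ a₁) ^ (M + 1) with ht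
  have htred : B.red B.h - B.red B.h ^ qn ^ 2
      = B.red (B.h - algebraMap O _ a₁) * B.red t := by
    have h1 : B.red B.h = B.unifAt hqx' + HahnSeries.C (B.resO a₁) := by
      rw [← hev, BaseData.unifAt, sub_add_cancel]
    have h2 : B.red B.h ^ qn ^ 2 = B.unifAt hqx' ^ qn ^ 2 + HahnSeries.C (B.resO a₁) := by
      rw [h1, add_pow_char_pow, ← map_pow, ← hev, hpow]
    rw [h2, ht, map_sub B.red 1, map_one, map_pow, map_sub, B.red_algebraMap, h1, hM]
    ring
  have htx : t ∉ (n.comap D.vE).comap D.αE := fun h => Ideal.one_notMem ((n.comap D.vE).comap D.αE)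
    (by simpa [ht] using add_mem h (Ideal.pow_mem_of_mem _ ha₁ (M + 1) M.succ_pos))
  set ζ : D.E := D.hB - D.hA ^ qn
  have hζc : ζ ∈ D.centre hq := by
    rw [centre, RingHom.mem_ker, map_sub, map_pow, D.resE_αE, D.resE_vE_αE hq B.h_mem_rat,
      sub_self]
  have hζS : ζ ∈ S := by
    obtain ⟨c, hc⟩ := sub_dvd_pow_sub_pow (algebraMap O D.E a) D.hA qn
    obtain ⟨s, hs⟩ : q ∣ b - a ^ qn := (B.resO_eq_zero _).1 (by
      rw [map_sub, map_pow, hrb, hra, sub_self])
    have e : ζ = (D.hB - algebraMap O _ b) + algebraMap O _ q * algebraMap O _ s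
        - (D.hA - algebraMap O _ a) * c * 1 := by
      rw [← map_mul (algebraMap O D.E), ← hs, map_sub, map_pow]
      linear_combination hc
    rw [e]
    exact sub_mem (add_mem hbS (S.mul_mem_right _ hqS)) (S.mul_mem_right _ (S.mul_mem_right _ haS))
  set Y := D.vE (D.αE (d₁ * t)) * y - D.vE (D.αE v₁) * ζ
  have hvζ : D.resE hq (D.vE ζ) = B.red B.h - B.red B.h ^ qn ^ 2 := by
    rw [map_sub, map_pow, D.vE_vE, map_sub, map_pow, D.resE_αE, D.resE_vE_αE hq B.h_mem_rat,
      ← pow_mul, sq]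
  obtain ⟨T, hT⟩ := D.exists_eq_q_mul hq (s := Y)
    (sub_mem (Ideal.mul_mem_left _ _ hg) (Ideal.mul_mem_left _ _ hζc)) (by
      have hvy : D.resE hq (D.vE y) = B.red g₁ := by
        rw [centre, RingHom.mem_ker, map_sub, D.resE_αE, sub_eq_zero] at hg₁
        exact hg₁
      have h2 := congrArg B.red hgv₁
      rw [map_add, map_mul, map_mul, map_mul, B.red_q, mul_zero, zero_add] at h2
      rw [centre, RingHom.mem_ker, map_sub, map_mul D.vE, map_mul D.vE, D.vE_vE, D.vE_vE, map_sub]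
      simp only [map_mul, D.resE_αE, hvy, hvζ, htred]
      linear_combination B.red t * h2)
  have hd₁n : D.vE (D.αE (d₁ * t)) ∉ n := fun h => by
    have h' : d₁ * t ∈ (n.comap D.vE).comap D.αE := h
    exact ((inferInstance : ((n.comap D.vE).comap D.αE).IsPrime).mem_or_mem h').elim hd₁ htx
  refine ⟨D.αE d₀ * D.vE (D.αE (d₁ * t)), fun h =>
    ((inferInstance : n.IsMaximal).isPrime.mem_or_mem h).elim (fun h' => hd₀ h') hd₁n, ?_⟩
  have e : D.αE d₀ * D.vE (D.αE (d₁ * t)) * z
      = D.αE d₀ * (algebraMap O _ q * T + D.vE (D.αE v₁) * ζ)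
        + D.vE (D.αE (d₁ * t)) * (D.αE d₀ * D.αE g) := by
    rw [← hT]
    ring
  rw [e]
  exact add_mem (S.mul_mem_left _ (add_mem (S.mul_mem_right _ hqS) (S.mul_mem_left _ hζS)))
    (S.mul_mem_left _ hαg)

end Point

end EdgeData

end FLTAgent.LevelPow
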