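import Fermat.Agent.LevelSq.TwoDim
import Fermat.Agent.LevelSq.SeriesRoot
import Fermat.Agent.LevelSq.Kummer

/-!
# Two dimensional regular local rings of a function field

A Noetherian local domain with a prime strictly between `0` and the maximal ideal, whose maximal
ideal is generated by two elements modulo its square, is factorial. In a factorial local ring of a
function field, a function whose orders are divisible by `m` away from `q` is a unit times an
`m`-th power at every centred valuation trivial on constants.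
-/

set_option autoImplicit false
set_option linter.style.haveILetI false
set_option linter.unusedSectionVars false

namespace FLTAgent.LevelPow

open IsLocalRing

section Regular

variable {R : Type*} [CommRing R] [IsDomain R] [IsNoetherianRing R] [IsLocalRing R]

/-- Generators of the maximal ideal modulo its square generate it. -/
theorem maximalIdeal_eq_span {s : Set R} (hs : s ⊆ (maximalIdeal R : Set R))
    (h : maximalIdeal R ≤ Ideal.span s ⊔ maximalIdeal R ^ 2) :
    maximalIdeal R = Ideal.span s := by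
  refine le_antisymm (Submodule.le_of_le_smul_of_le_jacobson_bot (I := maximalIdeal R)
    (IsNoetherian.noetherian _) (by rw [IsLocalRing.jacobson_eq_maximalIdeal _ bot_ne_top]) ?_)
    (Ideal.span_le.2 hs)
  rwa [smul_eq_mul, ← sq]

/-- A two dimensional local domain with cotangent space of dimension two is factorial. -/
theorem uniqueFactorizationMonoid_of_two {x y : R} (hx : x ∈ maximalIdeal R)
    (hy : y ∈ maximalIdeal R) (h : maximalIdeal R ≤ Ideal.span {x, y} ⊔ maximalIdeal R ^ 2)
    {Q : Ideal R} [Q.IsPrime] (hQ0 : Q ≠ ⊥) (hQ : Q ≠ maximalIdeal R) :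
    UniqueFactorizationMonoid R := by
  have hm : maximalIdeal R = Ideal.span {x, y} :=
    maximalIdeal_eq_span (by rintro z (rfl | rfl) <;> assumption) h
  have hQlt : Q < maximalIdeal R := lt_of_le_of_ne (le_maximalIdeal Ideal.IsPrime.ne_top') hQ
  have hbot : (⊥ : Ideal R).IsPrime := Ideal.isPrime_bot
  have hx0 : x ≠ 0 := by
    rintro rfl
    have h0 : maximalIdeal R = Ideal.span {y} := by
      rw [hm, Ideal.span_insert_zero]
    have hy' : y ∉ Q := fun hyQ => hQ (le_antisymm hQlt.le
      (h0 ▸ (Ideal.span_singleton_le_iff_mem _).2 hyQ))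
    exact hQ0 ((LevelSq.eq_span_of_mem_prime hm Q.zero_mem hQ).trans
      (Ideal.span_singleton_eq_bot.2 rfl))
  have hne : Ideal.span {x} ≠ ⊤ := fun hu =>
    (maximalIdeal.isMaximal R).ne_top (top_le_iff.1 (hu ▸ (Ideal.span_singleton_le_iff_mem _).2 hx))
  obtain ⟨P, hP⟩ := Ideal.nonempty_minimalPrimes hne
  haveI := hP.isPrime
  refine LevelSq.uniqueFactorizationMonoid_of_span_pair hm
    (hP.1.2 (Ideal.mem_span_singleton_self x)) hx0 (Q := P) ?_
  rintro rfl
  have h1 := Ideal.height_le_one_of_isPrincipal_of_mem_minimalPrimes _ _ hP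
  have h2 := Ideal.height_le_iff.1 h1 Q inferInstance hQlt
  simp only [Nat.cast_one, Order.lt_one_iff, Ideal.height_eq_zero_iff] at h2
  exact hQ0 (le_bot_iff.1 (h2.2 ⟨hbot, bot_le⟩ bot_le))

end Regular

section Multiplicity

variable {R : Type*} [CommRing R] [IsDomain R] [UniqueFactorizationMonoid R]

open LevelSq in
open scoped Classical in
theorem primeCount_prime {p r : R} (hr : Prime r) :
    primeCount p r = if Associates.mk p = Associates.mk r then 1 else 0 := by
  classical
  obtain ⟨a, ha, hfa⟩ : ∃ a, Associated a r ∧ UniqueFactorizationMonoid.factors r = {a} := by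
    have h1 := UniqueFactorizationMonoid.factors_prod hr.ne_zero
    obtain ⟨a, ha, hfa⟩ := prime_factors_irreducible hr.irreducible
      ⟨fun b hb => UniqueFactorizationMonoid.prime_of_factor b hb, h1⟩
    exact ⟨a, ha.symm, hfa⟩
  rw [primeCount, hfa, Multiset.map_singleton, Multiset.count_singleton,
    Associates.mk_eq_mk_iff_associated.2 ha]

open LevelSq in
/-- Repairing the multiplicities at finitely many primes. -/
theorem exists_mul_pow {m : ℕ} (hm0 : m ≠ 0) {c : R} (hc : c ≠ 0) : ∀ l : List R, (∀ r ∈ l, Prime r) →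
    (∀ p : R, Prime p → (∀ r ∈ l, ¬ Associated p r) → m ∣ primeCount p c) →
    ∃ (z d : R) (u : Rˣ) (N : ℕ), c * z = u * d ^ m ∧ z ∣ l.prod ^ N := by
  intro l
  induction l generalizing c with
  | nil =>
    intro _ h
    obtain ⟨u, d, hud⟩ := exists_unit_mul_pow hc fun p hp => h p hp (by simp)
    exact ⟨1, d, u, 0, by rw [mul_one]; exact hud, one_dvd _⟩
  | cons π l ih =>
    intro hl h
    have hπ := hl π List.mem_cons_self
    set k := (m - 1) * primeCount π c
    have hpk : π ^ k ≠ 0 := pow_ne_zero _ hπ.ne_zero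
    obtain ⟨z, d, u, N, hzd, hz⟩ := ih (c := c * π ^ k) (mul_ne_zero hc hpk)
      (fun r hr => hl r (List.mem_cons_of_mem _ hr)) fun p hp hpl => by
        rw [primeCount_mul p hc hpk, primeCount_pow p hπ.ne_zero, primeCount_prime hπ]
        split_ifs with he
        · have e : primeCount p c = primeCount π c := by rw [primeCount, primeCount, he]
          rw [e, mul_one]
          refine ⟨primeCount π c, ?_⟩
          obtain ⟨j, rfl⟩ := Nat.exists_eq_add_of_le (Nat.one_le_iff_ne_zero.2 hm0)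
          simp only [k, Nat.add_sub_cancel_left]
          ring
        · rw [mul_zero, add_zero]
          refine h p hp fun r hr => ?_
          rcases List.mem_cons.1 hr with rfl | hr
          · exact fun ha => he (Associates.mk_eq_mk_iff_associated.2 ha)
          · exact hpl r hr
    refine ⟨π ^ k * z, d, u, k + N, by rw [← mul_assoc]; exact hzd, ?_⟩
    rw [List.prod_cons, mul_pow]
    exact mul_dvd_mul (pow_dvd_pow _ (Nat.le_add_right _ _))
      (hz.trans (pow_dvd_pow _ (Nat.le_add_left _ _)))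

end Multiplicity

section Horizontal

variable {F : Type*} [Field F] (R : Subring F) [UniqueFactorizationMonoid R]

open LevelSq in
/-- In a factorial local ring with fraction field `F`, a function of orders divisible by `m` away
from `q` is a unit times an `m`-th power at every valuation over the ring where `q` is a unit. -/
theorem exists_horizontal_root (hfrac : ∀ z : F, ∃ a b : R, b ≠ 0 ∧ z * b = a) {q : R}
    (hq0 : q ≠ 0) {m : ℕ} (hm0 : m ≠ 0) {f : F} (hf0 : f ≠ 0)
    (hdiv : ∀ V : ValuationSubring F, (∀ a : R, (a : F) ∈ V) → ((q : F))⁻¹ ∈ V →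
      ∃ y u : F, f = u * y ^ m ∧ u ∈ V ∧ u⁻¹ ∈ V) :
    ∃ g : F, g ≠ 0 ∧ ∀ B : ValuationSubring F, (∀ a : R, (a : F) ∈ B) → ((q : F))⁻¹ ∈ B →
      f / g ^ m ∈ B ∧ (f / g ^ m)⁻¹ ∈ B := by
  obtain ⟨a, b, hb, hab⟩ := hfrac f
  have hbF : (b : F) ≠ 0 := fun h => hb (Subtype.ext h)
  have ha : a ≠ 0 := fun h => mul_ne_zero hf0 hbF (by rw [hab, h]; rfl)
  set c := a * b ^ (m - 1)
  have hc : c ≠ 0 := mul_ne_zero ha (pow_ne_zero _ hb)
  have hfc : (c : F) = f * (b : F) ^ m := by
    simp only [c, Subring.coe_mul, SubmonoidClass.coe_pow, ← hab]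
    rw [mul_assoc, ← pow_succ', Nat.sub_add_cancel (Nat.one_le_iff_ne_zero.2 hm0)]
  set l := (UniqueFactorizationMonoid.factors q).toList
  have hl : ∀ r ∈ l, Prime r := fun r hr =>
    UniqueFactorizationMonoid.prime_of_factor r (Multiset.mem_toList.1 hr)
  obtain ⟨z, d, u, N, hzd, hz⟩ := exists_mul_pow hm0 hc l hl fun p hp hpl => by
    have hpq : ¬ p ∣ q := fun hd => by
      obtain ⟨r, hr, har⟩ := UniqueFactorizationMonoid.exists_mem_factors_of_dvd hq0 hp.irreducible hd
      exact hpl r (Multiset.mem_toList.2 hr) har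
    haveI : (Ideal.span {p}).IsPrime := (Ideal.span_singleton_prime hp.ne_zero).2 hp
    obtain ⟨V, hV⟩ := exists_valuationSubring_centre R (Ideal.span {p})
    have hunit : ∀ x : R, ¬ p ∣ x → (x : F) ≠ 0 ∧ (x : F)⁻¹ ∈ V := fun x hx => by
      have hxn : (x : F) ∉ V.nonunits := fun h => hx (Ideal.mem_span_singleton.1 ((hV x).2.1 h))
      rw [V.mem_nonunits_iff_or, not_or, not_not] at hxn
      exact hxn
    obtain ⟨y, v, hfv, hv, hv'⟩ := hdiv V (fun x => (hV x).1) (hunit q hpq).2
    obtain ⟨y₁, y₂, hy₂, hy⟩ := hfrac y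
    have hy₂F : (y₂ : F) ≠ 0 := fun h => hy₂ (Subtype.ext h)
    have hy₁ : y₁ ≠ 0 := fun h => by
      rw [h] at hy
      rcases mul_eq_zero.1 (hy.trans (Subring.coe_zero _)) with h' | h'
      · exact hf0 (by rw [hfv, h', zero_pow hm0, mul_zero])
      · exact hy₂F h'
    obtain ⟨i, c₁, hc₁, hci⟩ := WfDvdMonoid.max_power_factor hc hp.irreducible
    obtain ⟨j, c₂, hc₂, hcj⟩ := WfDvdMonoid.max_power_factor
      (mul_ne_zero hy₁ hb) hp.irreducible
    obtain ⟨k, c₃, hc₃, hck⟩ := WfDvdMonoid.max_power_factor hy₂ hp.irreducible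
    have hcount : ∀ (n : ℕ) (x : R), ¬ p ∣ x → primeCount p (p ^ n * x) = n := fun n x hx => by
      rw [primeCount_mul p (pow_ne_zero _ hp.ne_zero) (show x ≠ 0 from fun h => hx (h.symm ▸ dvd_zero p)),
        primeCount_pow p hp.ne_zero, primeCount_prime hp, if_pos rfl, primeCount_eq_zero hx,
        mul_one, add_zero]
    rw [hci, hcount i c₁ hc₁]
    have key : (c : F) * (y₂ : F) ^ m = v * ((y₁ * b : R) : F) ^ m := by
      rw [hfc, hfv, Subring.coe_mul, mul_pow, ← hy, mul_pow]; ring
    rw [hci, hcj, hck] at key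
    simp only [Subring.coe_mul, SubmonoidClass.coe_pow, mul_pow, ← pow_mul] at key
    have hpF : (p : F) ≠ 0 := fun h => hp.ne_zero (Subtype.ext h)
    obtain ⟨h1, h1'⟩ := hunit c₁ hc₁
    obtain ⟨h2, h2'⟩ := hunit c₂ hc₂
    obtain ⟨h3, h3'⟩ := hunit c₃ hc₃
    set w : F := v * (c₂ : F) ^ m * ((c₁ : F))⁻¹ * ((c₃ : F) ^ m)⁻¹
    have hw : w ∈ V ∧ w⁻¹ ∈ V := by
      refine ⟨mul_mem (mul_mem (mul_mem hv (pow_mem (hV c₂).1 m)) h1') ?_, ?_⟩
      · rw [← inv_pow]; exact pow_mem h3' m
      · simp only [w, mul_inv, inv_inv, ← inv_pow]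
        exact mul_mem (mul_mem (mul_mem hv' (pow_mem h2' m)) (hV c₁).1) (pow_mem (hV c₃).1 m)
    have hpw : (p : F) ^ (i + k * m) = (p : F) ^ (j * m) * w := by
      rw [pow_add]
      refine mul_right_cancel₀ (mul_ne_zero h1 (pow_ne_zero m h3)) ?_
      simp only [w]
      field_simp
      linear_combination key
    have hpn : (p : F) ∈ V.nonunits := (hV p).2.2 (Ideal.mem_span_singleton_self p)
    have hnn : ∀ (n : ℕ), 0 < n → ∀ x : F, x ∈ V → x⁻¹ ∈ V → (p : F) ^ n ≠ x := by
      intro n hn x hx hx' h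
      rcases eq_or_ne x 0 with rfl | hx0
      · exact pow_ne_zero n hpF h
      refine not_mem_nonunits_of_inv_mem hx0 hx' (h ▸ ?_)
      obtain ⟨n', rfl⟩ := Nat.exists_eq_add_of_le hn
      rw [pow_add, pow_one, mul_comm]
      exact nonunits_mul (pow_mem (hV p).1 _) hpn
    rcases lt_trichotomy (i + k * m) (j * m) with hlt | heq | hgt
    · obtain ⟨n, hn⟩ := Nat.exists_eq_add_of_lt hlt
      refine absurd ?_ (hnn (n + 1) n.succ_pos w⁻¹ hw.2 (by rw [inv_inv]; exact hw.1))
      refine mul_left_cancel₀ (pow_ne_zero (i + k * m) hpF) ?_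
      rw [← pow_add, show i + k * m + (n + 1) = j * m by omega]
      have hw0 : w ≠ 0 := fun h => pow_ne_zero (i + k * m) hpF (by rw [hpw, h, mul_zero])
      conv_rhs => rw [hpw]
      field_simp
    · exact (Nat.dvd_add_left (dvd_mul_left m k)).1 (heq ▸ dvd_mul_left m j)
    · obtain ⟨n, hn⟩ := Nat.exists_eq_add_of_lt hgt
      refine absurd ?_ (hnn (n + 1) n.succ_pos w hw.1 hw.2)
      refine mul_left_cancel₀ (pow_ne_zero (j * m) hpF) ?_
      rw [← pow_add, ← hpw]
      congr 1
      omega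
  have hzdF : (c : F) * (z : F) = ((u : R) : F) * (d : F) ^ m := by
    have := congrArg (Subtype.val : R → F) hzd
    simpa only [Subring.coe_mul, SubmonoidClass.coe_pow] using this
  have hzF : (z : F) ≠ 0 := fun h => by
    have hz0 : z = 0 := Subtype.ext h
    rw [hz0, zero_dvd_iff] at hz
    exact pow_ne_zero N (List.prod_ne_zero (fun h0 => (hl 0 h0).ne_zero rfl)) hz
  have hd : (d : F) ≠ 0 := fun h => mul_ne_zero (fun h' => hc (Subtype.ext h')) hzF
    (by rw [hzdF, h, zero_pow hm0, mul_zero])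
  refine ⟨(d : F) / (b : F), div_ne_zero hd hbF, fun B hB hqB => ?_⟩
  have heq : f / ((d : F) / (b : F)) ^ m = ((u : R) : F) * ((z : F))⁻¹ := by
    rw [div_pow, div_div_eq_mul_div, ← hfc, eq_mul_inv_iff_mul_eq₀ hzF, div_mul_eq_mul_div,
      hzdF, mul_div_assoc, div_self (pow_ne_zero m hd), mul_one]
  rw [heq, mul_inv, inv_inv]
  have hzi : (z : F)⁻¹ ∈ B := by
    obtain ⟨w, hw⟩ := hz
    obtain ⟨v, hv⟩ := UniqueFactorizationMonoid.factors_prod hq0
    have hqe : (q : F) ^ N = (z : F) * ((w * (v : R) ^ N : R) : F) := by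
      rw [← Subring.coe_mul, ← SubmonoidClass.coe_pow, ← mul_assoc, ← hw, ← mul_pow,
        Multiset.prod_toList, hv]
    have hqF : (q : F) ^ N ≠ 0 := pow_ne_zero _ fun h => hq0 (Subtype.ext h)
    rw [show (z : F)⁻¹ = ((w * (v : R) ^ N : R) : F) * ((q : F)⁻¹) ^ N by
      rw [inv_pow, ← one_div, ← div_eq_mul_inv, div_eq_div_iff hzF hqF, one_mul, hqe, mul_comm]]
    exact mul_mem (hB _) (pow_mem hqB N)
  refine ⟨mul_mem (hB _) hzi, mul_mem ?_ (hB z)⟩
  have hu : ((u : R) : F)⁻¹ = (((u⁻¹ : Rˣ) : R) : F) := inv_eq_of_mul_eq_one_right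
    (congrArg (Subtype.val : R → F) u.mul_inv)
  rw [hu]
  exact hB _

end Horizontal

end FLTAgent.LevelPow
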