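import Fermat.Agent.LevelPow.Regular
import Fermat.Agent.LevelPow.TwoGen
import Fermat.Agent.LevelSq.Local
import Fermat.Agent.LevelSq.VerticalFree

/-!
# The chart of a chain of edges is factorial at the closed points over `q`

`ChainData D F L`: `L` copies of the edge field in `F`, consecutive copies glued along the field of
level `N` without backtracking, generating `F`.  All vertices have one chart; at a maximal ideal
over `q` the ring generated by the edge charts is regular, hence is the chart there.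
-/

set_option autoImplicit false
set_option linter.style.haveILetI false
set_option linter.unusedSectionVars false

noncomputable section

open Polynomial IsLocalRing

namespace FLTAgent.LevelPow

open LevelSq

variable {O : Type} [CommRing O] [IsDomain O] [IsDiscreteValuationRing O] {q : O} {qn : ℕ}
  {FN : Type} [Field FN] [Algebra O FN] {k : Type} [Field k] [IsAlgClosed k]
  {B : BaseData O q qn FN k} {FE : Type} [Field FE] [Algebra O FE]

/-- Localising an injective map at a prime is injective. -/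
theorem localRingHom_injective {A B : Type*} [CommRing A] [CommRing B] [IsDomain B] (f : A →+* B)
    (hf : Function.Injective f) (P : Ideal A) [P.IsPrime] (Q : Ideal B) [Q.IsPrime]
    (h : P = Q.comap f) : Function.Injective (Localization.localRingHom P Q f h) := by
  refine (injective_iff_map_eq_zero _).2 fun r hr => ?_
  obtain ⟨⟨s, d⟩, hsd⟩ := IsLocalization.surj P.primeCompl r
  have h1 := congrArg (Localization.localRingHom P Q f h) hsd
  rw [map_mul, hr, zero_mul, Localization.localRingHom_to_map] at h1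
  have h2 : f s = 0 := (map_eq_zero_iff _ (IsLocalization.injective _
    Q.primeCompl_le_nonZeroDivisors)).1 h1.symm
  rw [hf (h2.trans (map_zero f).symm), map_zero] at hsd
  exact ((IsLocalization.map_units _ d).mul_left_eq_zero).1 hsd

/-- A chain of `L` edges in `F`. -/
structure ChainData (D : EdgeData B FE) (F : Type) [Field F] [Algebra O F] (L : ℕ) where
  pos : 0 < L
  /-- the vertices -/
  ε : ℕ → FN →ₐ[O] F
  /-- the edges -/
  e : ℕ → FE →ₐ[O] F
  e_α : ∀ i < L, ∀ g, e i (D.α g) = ε i g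
  e_w : ∀ i < L, ∀ g, e i (D.w (D.α g)) = ε (i + 1) g
  ne : ∀ i, i + 1 < L → ε i B.h ≠ ε (i + 2) B.h
  frac : ∀ z : F, ∃ a b : F,
    a ∈ Algebra.adjoin O (⋃ i, ⋃ (_ : i < L), e i '' (D.E : Set FE)) ∧
    b ∈ Algebra.adjoin O (⋃ i, ⋃ (_ : i < L), e i '' (D.E : Set FE)) ∧ b ≠ 0 ∧ z * b = a

namespace EdgeData

variable (D : EdgeData B FE)

/-- `α j` is integral over the other end. -/
theorem α_mem_mid : D.α B.j ∈ chart O (D.w (D.α B.j)) := by
  have h := map_mem_chart D.w.toAlgHom D.mid_mem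
  simpa [D.w_w] using h

end EdgeData

namespace ChainData

variable {D : EdgeData B FE} {F : Type} [Field F] [Algebra O F] {L : ℕ} (C : ChainData D F L)

theorem transcendental_ε (i : ℕ) : Transcendental O (C.ε i B.j) := fun h =>
  B.j_transcendental ((isAlgebraic_algHom_iff (C.ε i) (C.ε i).toRingHom.injective).1 h)

theorem step_mem {i : ℕ} (hi : i < L) :
    C.ε (i + 1) B.j ∈ chart O (C.ε i B.j) ∧ C.ε i B.j ∈ chart O (C.ε (i + 1) B.j) := by
  rw [← C.e_α i hi, ← C.e_w i hi]
  exact ⟨map_mem_chart (C.e i) D.mid_mem, map_mem_chart (C.e i) D.α_mem_mid⟩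

theorem ε_mem_zero {i : ℕ} (hi : i ≤ L) :
    C.ε i B.j ∈ chart O (C.ε 0 B.j) ∧ C.ε 0 B.j ∈ chart O (C.ε i B.j) := by
  induction i with
  | zero => exact ⟨self_mem_chart O _, self_mem_chart O _⟩
  | succ i ih =>
    obtain ⟨h1, h2⟩ := ih (by omega)
    obtain ⟨h3, h4⟩ := C.step_mem (i := i) (by omega)
    exact ⟨isIntegral_of_le h1 h3, isIntegral_of_le h4 h2⟩

/-- All vertices have one chart. -/
theorem ε_mem {i c : ℕ} (hi : i ≤ L) (hc : c ≤ L) : C.ε i B.j ∈ chart O (C.ε c B.j) :=
  isIntegral_of_le (C.ε_mem_zero hc).2 (C.ε_mem_zero hi).1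

/-- An index of an edge. -/
def idx (L i : ℕ) : ℕ := min i (L - 1)

include C in
theorem idx_lt (i : ℕ) : idx L i < L := by have := C.pos; unfold idx; omega

theorem idx_of_lt {i : ℕ} (hi : i < L) : idx L i = i := by unfold idx; omega

variable {c : ℕ} (hc : c ≤ L)
include hc

theorem edge_mem (i : ℕ) {z : FE} (hz : z ∈ D.E) :
    C.e (idx L i) z ∈ chart O (C.ε c B.j) := by
  have h := map_mem_chart (C.e (idx L i)) hz
  rw [C.e_α _ (C.idx_lt i)] at h
  exact isIntegral_of_le (C.ε_mem (C.idx_lt i).le hc) h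

/-- An edge chart in the chart of the vertex `c`. -/
def eA (i : ℕ) : D.E →ₐ[O] chart O (C.ε c B.j) :=
  ((C.e (idx L i)).comp D.E.val).codRestrict _ fun z => C.edge_mem hc i z.2

theorem coe_eA {i : ℕ} (hi : i < L) (z : D.E) : (C.eA hc i z : F) = C.e i z := by
  show C.e (idx L i) (z : FE) = _
  rw [idx_of_lt hi]

theorem eA_agree {i : ℕ} (hi : i + 1 < L) (g : chart O B.j) :
    C.eA hc i (D.vE (D.αE g)) = C.eA hc (i + 1) (D.αE g) := by
  apply Subtype.ext
  rw [C.coe_eA hc (by omega), C.coe_eA hc hi, EdgeData.coe_vE, EdgeData.coe_αE,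
    C.e_w i (by omega), C.e_α (i + 1) hi]

theorem eA_ne {i : ℕ} (hi : i + 1 < L) : C.eA hc i D.hA ≠ C.eA hc (i + 1) D.hB := fun h => by
  refine C.ne i hi ?_
  have h1 := congrArg Subtype.val h
  rw [C.coe_eA hc (by omega), C.coe_eA hc hi, EdgeData.coe_vE, EdgeData.coe_αE,
    C.e_w (i + 1) hi, C.e_α i (by omega)] at h1
  exact h1

theorem isIntegral_eA (i : ℕ) : (C.eA hc i).toRingHom.IsIntegral := by
  set i' := idx L i
  have hi' : i' < L := C.idx_lt i
  let jE : D.E := ⟨D.α B.j, self_mem_chart O _⟩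
  have hj : (C.eA hc i jE : F) = C.ε i' B.j := by
    show C.e i' (D.α B.j) = _
    rw [C.e_α i' hi']
  intro z
  obtain ⟨p, hp, hz⟩ := (mem_chart O).1 (isIntegral_of_le (C.ε_mem hc hi'.le) z.2)
  have hsub : ∀ l, ∃ x : D.E, (C.eA hc i x : F) = (p.coeff l : F) := fun l => by
    obtain ⟨r, hr⟩ := exists_aeval_eq O (p.coeff l).2
    refine ⟨aeval jE r, ?_⟩
    rw [← hr, ← hj]
    show ((chart O (C.ε c B.j)).val.comp (C.eA hc i)) (aeval jE r)
      = aeval (((chart O (C.ε c B.j)).val.comp (C.eA hc i)) jE) r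
    rw [aeval_algHom_apply]
  choose x hx using hsub
  refine ⟨X ^ p.natDegree + ∑ l : Fin p.natDegree, Polynomial.C (x l) * X ^ (l : ℕ),
    monic_X_pow_add (degree_sum_fin_lt _), Subtype.ext ?_⟩
  rw [eval₂_eq_sum_range, Finset.sum_range_succ, hp.coeff_natDegree, map_one, one_mul] at hz
  rw [eval₂_add, eval₂_X_pow, eval₂_finsetSum]
  simp only [eval₂_mul, eval₂_C, eval₂_X_pow]
  push_cast
  rw [← hz, add_comm, Finset.sum_range fun l =>
    algebraMap (Algebra.adjoin O ({C.ε i' B.j} : Set F)) F (p.coeff l) * (z : F) ^ l]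
  exact congrArg (· + _) (Finset.sum_congr rfl fun l _ => congrArg (· * _) (hx l))

theorem isMaximal_edge (n : Ideal (chart O (C.ε c B.j))) [n.IsMaximal] (i : ℕ) :
    (n.comap (C.eA hc i)).IsMaximal :=
  Ideal.isMaximal_comap_of_isIntegral_of_isMaximal' (C.eA hc i).toRingHom (C.isIntegral_eA hc i) n

/-- The ring generated by the edge charts. -/
def gen : Subalgebra O (chart O (C.ε c B.j)) :=
  Algebra.adjoin O (⋃ i, ⋃ (_ : i < L), Set.range (C.eA hc i))

theorem eA_mem_gen {i : ℕ} (hi : i < L) (z : D.E) : C.eA hc i z ∈ C.gen hc :=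
  Algebra.subset_adjoin (Set.mem_iUnion₂.2 ⟨i, hi, z, rfl⟩)

/-- An edge in the generated ring. -/
def eG (i : ℕ) : D.E →ₐ[O] C.gen hc :=
  (C.eA hc i).codRestrict _ fun z => by
    have h : C.eA hc i z = C.eA hc (idx L i) z := Subtype.ext (by
      rw [C.coe_eA hc (C.idx_lt i)]; rfl)
    rw [h]; exact C.eA_mem_gen hc (C.idx_lt i) z

theorem ε_j_mem_gen : (⟨C.ε c B.j, self_mem_chart O _⟩ : chart O (C.ε c B.j)) ∈ C.gen hc := by
  have hL := C.pos
  rcases hc.lt_or_eq with hcL | hcL
  · convert C.eA_mem_gen hc hcL ⟨D.α B.j, self_mem_chart O _⟩ using 1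
    exact Subtype.ext (by rw [C.coe_eA hc hcL]; exact (C.e_α c hcL B.j).symm)
  · convert C.eA_mem_gen hc (i := L - 1) (by omega)
      ⟨D.w (D.α B.j), D.mid_mem⟩ using 1
    refine Subtype.ext ?_
    rw [C.coe_eA hc (by omega)]
    show _ = C.e (L - 1) (D.w (D.α B.j))
    rw [C.e_w (L - 1) (by omega), show L - 1 + 1 = c by omega]

variable (hfin : Algebra.FiniteType O D.E)

include hfin in
theorem isNoetherianRing_gen : IsNoetherianRing (C.gen hc) := by
  classical
  obtain ⟨s, hs⟩ := hfin.out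
  have heq : C.gen hc = Algebra.adjoin O
      (((Finset.range L).biUnion fun i => s.image (C.eA hc i) : Finset _) :
        Set (chart O (C.ε c B.j))) := by
    refine le_antisymm (Algebra.adjoin_le ?_) (Algebra.adjoin_mono ?_)
    · intro z hz
      obtain ⟨i, hi, g, rfl⟩ := Set.mem_iUnion₂.1 hz
      have hg : g ∈ Algebra.adjoin O (s : Set D.E) := hs ▸ Algebra.mem_top
      have h2 : C.eA hc i g ∈ (Algebra.adjoin O (s : Set D.E)).map (C.eA hc i) := ⟨g, hg, rfl⟩
      rw [AlgHom.map_adjoin] at h2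
      refine Algebra.adjoin_mono ?_ h2
      rintro _ ⟨g', hg', rfl⟩
      simp only [Finset.coe_biUnion, Finset.coe_range, Finset.coe_image, Set.mem_iUnion]
      exact ⟨i, hi, g', hg', rfl⟩
    · intro z hz
      simp only [Finset.coe_biUnion, Finset.coe_range, Finset.coe_image, Set.mem_iUnion] at hz
      obtain ⟨i, hi, g, -, rfl⟩ := hz
      exact Set.mem_iUnion₂.2 ⟨i, hi, g, rfl⟩
  haveI : Algebra.FiniteType O (C.gen hc) := by
    rw [heq]
    exact ⟨(Subalgebra.fg_top _).2 (Subalgebra.fg_adjoin_finset _)⟩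
  exact Algebra.FiniteType.isNoetherianRing O (C.gen hc)

theorem isFractionRing_gen : IsFractionRing (C.gen hc) F := by
  refine IsFractionRing.of_field (C.gen hc) F fun z => ?_
  obtain ⟨u, v, hu, hv, hv0, huv⟩ := C.frac z
  have hlift : ∀ y ∈ Algebra.adjoin O (⋃ i, ⋃ (_ : i < L), C.e i '' (D.E : Set FE)),
      ∃ s : C.gen hc, algebraMap (C.gen hc) F s = y := by
    intro y hy
    induction hy using Algebra.adjoin_induction with
    | mem y hy =>
      obtain ⟨i, hi, g, hg, rfl⟩ := Set.mem_iUnion₂.1 hy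
      exact ⟨⟨_, C.eA_mem_gen hc hi ⟨g, hg⟩⟩, C.coe_eA hc hi ⟨g, hg⟩⟩
    | algebraMap r => exact ⟨algebraMap O (C.gen hc) r, rfl⟩
    | add y y' _ _ h h' =>
      obtain ⟨s, rfl⟩ := h
      obtain ⟨s', rfl⟩ := h'
      exact ⟨s + s', map_add _ _ _⟩
    | mul y y' _ _ h h' =>
      obtain ⟨s, rfl⟩ := h
      obtain ⟨s', rfl⟩ := h'
      exact ⟨s * s', map_mul _ _ _⟩
  obtain ⟨s, rfl⟩ := hlift u hu
  obtain ⟨t, rfl⟩ := hlift v hv
  exact ⟨s, t, by rw [← huv, mul_div_cancel_right₀ _ hv0]⟩

theorem isIntegral_gen (w : chart O (C.ε c B.j)) : IsIntegral (C.gen hc) (w : F) := by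
  have hle : ∀ y : Algebra.adjoin O ({C.ε c B.j} : Set F),
      ∃ s : C.gen hc, algebraMap (C.gen hc) F s = y := fun y => by
    obtain ⟨r, hr⟩ := exists_aeval_eq O y.2
    refine ⟨aeval (⟨_, C.ε_j_mem_gen hc⟩ : C.gen hc) r, ?_⟩
    rw [← hr]
    exact (aeval_algHom_apply (IsScalarTower.toAlgHom O (C.gen hc) F) _ r).symm
  choose f hf using hle
  obtain ⟨p, hp, hpw⟩ := (mem_chart O).1 w.2
  obtain ⟨p', hp', -, hp'm⟩ :=
    Polynomial.lifts_and_natDegree_eq_and_monic (f := algebraMap (C.gen hc) F)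
      ((lifts_iff_coeff_lifts _).2 fun i => ⟨f (p.coeff i), by rw [coeff_map]; exact hf _⟩)
      (hp.map (algebraMap _ F))
  exact ⟨p', hp'm, by rw [eval₂_eq_eval_map, hp', eval_map]; exact hpw⟩

variable (hq : Prime q) (hqn : qn.Prime) (n : Ideal (chart O (C.ε c B.j))) [n.IsMaximal]
  (hqn' : algebraMap O (chart O (C.ε c B.j)) q ∈ n)

theorem q_mem_edge (hqn' : algebraMap O (chart O (C.ε c B.j)) q ∈ n) (i : ℕ) :
    algebraMap O D.E q ∈ n.comap (C.eA hc i) := by
  rw [Ideal.mem_comap, AlgHom.commutes]; exact hqn'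

include hq hqn hfin hqn' in
/-- The generated ring is factorial at the point. -/
theorem ufd_gen_aux (R : Type) [CommRing R] [IsLocalRing R] [Algebra O R]
    [Algebra (C.gen hc) R] [IsScalarTower O (C.gen hc) R]
    [IsLocalization.AtPrime R (n.comap (C.gen hc).val)] : UniqueFactorizationMonoid R := by
  haveI := C.isNoetherianRing_gen hc hfin
  haveI : IsNoetherianRing R :=
    IsLocalization.isNoetherianRing (n.comap (C.gen hc).val).primeCompl _ inferInstance
  haveI : IsDomain R := IsLocalization.isDomain_of_le_nonZeroDivisors R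
    (n.comap (C.gen hc).val).primeCompl_le_nonZeroDivisors
  let f : ℕ → D.E →ₐ[O] R := fun i => (IsScalarTower.toAlgHom O (C.gen hc) R).comp (C.eG hc i)
  have hmem : ∀ s : (C.gen hc), algebraMap (C.gen hc) R s ∈ maximalIdeal R ↔ (s : chart O (C.ε c B.j)) ∈ n :=
    fun s => IsLocalization.AtPrime.to_map_mem_maximal_iff R (n.comap (C.gen hc).val) s
  have hf : ∀ i, (maximalIdeal R).comap (f i) = n.comap (C.eA hc i) := fun i =>
    Ideal.ext fun z => hmem (C.eG hc i z)
  have hqM : algebraMap O R q ∈ maximalIdeal R := by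
    rw [IsScalarTower.algebraMap_apply O (C.gen hc) R]
    exact (hmem _).2 hqn'
  have hinj : Function.Injective (algebraMap (C.gen hc) R) :=
    IsLocalization.injective R (n.comap (C.gen hc).val).primeCompl_le_nonZeroDivisors
  -- constants
  have hrat : ∀ s : (C.gen hc), ∃ a : O, algebraMap (C.gen hc) R s - algebraMap O R a ∈
      Ideal.span (⋃ i, ⋃ (_ : i < L), f i '' ((maximalIdeal R).comap (f i))) := by
    intro s
    obtain ⟨s, hs⟩ := s
    induction hs using Algebra.adjoin_induction with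
    | mem y hy =>
      obtain ⟨i, hi, z, rfl⟩ := Set.mem_iUnion₂.1 hy
      haveI := C.isMaximal_edge hc n i
      obtain ⟨a, ha⟩ := D.exists_const_E hq (C.q_mem_edge hc n hqn' i) z
      refine ⟨a, Ideal.subset_span (Set.mem_iUnion₂.2 ⟨i, hi, z - algebraMap O _ a, ?_, ?_⟩)⟩
      · rw [SetLike.mem_coe, hf]; exact ha
      · show f i (z - algebraMap O _ a) = _
        rw [map_sub, AlgHom.commutes]
        exact congrArg (· - _) (congrArg (algebraMap (C.gen hc) R) (Subtype.ext rfl))
    | algebraMap r =>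
      refine ⟨r, ?_⟩
      rw [show (⟨algebraMap O _ r, _⟩ : (C.gen hc)) = algebraMap O (C.gen hc) r from rfl,
        ← IsScalarTower.algebraMap_apply, sub_self]
      exact Submodule.zero_mem _
    | add y z hy hz h h' =>
      obtain ⟨a, ha⟩ := h
      obtain ⟨b, hb⟩ := h'
      refine ⟨a + b, ?_⟩
      rw [show (⟨y + z, _⟩ : (C.gen hc)) = ⟨y, hy⟩ + ⟨z, hz⟩ from rfl, map_add, map_add, add_sub_add_comm]
      exact add_mem ha hb
    | mul y z hy hz h h' =>
      obtain ⟨a, ha⟩ := h
      obtain ⟨b, hb⟩ := h'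
      refine ⟨a * b, ?_⟩
      rw [show (⟨y * z, _⟩ : (C.gen hc)) = ⟨y, hy⟩ * ⟨z, hz⟩ from rfl, map_mul, map_mul,
        show algebraMap (C.gen hc) R ⟨y, hy⟩ * algebraMap (C.gen hc) R ⟨z, hz⟩ - algebraMap O R a * algebraMap O R b
          = algebraMap (C.gen hc) R ⟨y, hy⟩ * (algebraMap (C.gen hc) R ⟨z, hz⟩ - algebraMap O R b)
            + algebraMap O R b * (algebraMap (C.gen hc) R ⟨y, hy⟩ - algebraMap O R a) by ring]
      exact add_mem (Ideal.mul_mem_left _ _ hb) (Ideal.mul_mem_left _ _ ha)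
  have hgen : maximalIdeal R ≤
      Ideal.span (⋃ i, ⋃ (_ : i < L), f i '' ((maximalIdeal R).comap (f i)))
        ⊔ Ideal.span {algebraMap O R q} := by
    intro r hr
    obtain ⟨⟨s, d⟩, hsd⟩ := IsLocalization.surj (n.comap (C.gen hc).val).primeCompl r
    have hs : algebraMap (C.gen hc) R s ∈ maximalIdeal R := hsd ▸ Ideal.mul_mem_right _ _ hr
    obtain ⟨a, ha⟩ := hrat s
    have hle : Ideal.span (⋃ i, ⋃ (_ : i < L), f i '' ((maximalIdeal R).comap (f i)))
        ≤ maximalIdeal R := Ideal.span_le.2 fun y hy => by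
      obtain ⟨i, -, z, hz, rfl⟩ := Set.mem_iUnion₂.1 hy
      exact hz
    have haM : algebraMap O R a ∈ maximalIdeal R := by
      simpa using sub_mem hs (hle ha)
    refine mem_of_unit_mul_mem (s := algebraMap (C.gen hc) R d)
      (fun h => d.2 ((hmem _).1 h)) ?_
    rw [mul_comm, hsd, show algebraMap (C.gen hc) R s = (algebraMap (C.gen hc) R s - algebraMap O R a)
      + algebraMap O R a from (sub_add_cancel _ _).symm]
    exact add_mem (Ideal.mem_sup_left ha) (Ideal.mem_sup_right (D.const_mem_span hq hqM haM))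
  obtain ⟨x, y, hx, hy, hxy⟩ := D.exists_two_of_chain hq hqn (L := L) f
    (fun i _ => by rw [hf]; exact C.isMaximal_edge hc n i)
    (fun i hi g => congrArg (algebraMap (C.gen hc) R) (Subtype.ext (C.eA_agree hc hi g)))
    (fun i hi h => C.eA_ne hc hi (congrArg Subtype.val (hinj h)))
    hqM C.pos (hgen.trans (sup_le le_sup_left ((Ideal.span_singleton_le_iff_mem _).2 (by
      refine Ideal.mem_sup_left (Ideal.subset_span (Set.mem_iUnion₂.2
        ⟨0, C.pos, algebraMap O D.E q, ?_, (f 0).commutes q⟩))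
      show f 0 (algebraMap O D.E q) ∈ maximalIdeal R
      rw [(f 0).commutes]; exact hqM))))
  -- a prime strictly between
  obtain ⟨P, hP, hPn⟩ :=
    Ideal.exists_minimalPrimes_le ((Ideal.span_singleton_le_iff_mem n).2 hqn')
  haveI := hP.isPrime
  obtain ⟨W, hW, hW'⟩ := exists_isVert_of_minimalPrime hq (C.transcendental_ε c) hP
  haveI : (P.comap (C.gen hc).val).IsPrime := Ideal.comap_isPrime _ _
  have hd : Disjoint ((n.comap (C.gen hc).val).primeCompl : Set (C.gen hc)) (P.comap (C.gen hc).val : Set (C.gen hc)) :=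
    Set.disjoint_left.2 fun s hs hsP => hs (hPn hsP)
  haveI := IsLocalization.isPrime_of_isPrime_disjoint (n.comap (C.gen hc).val).primeCompl R (P.comap (C.gen hc).val)
    inferInstance hd
  refine uniqueFactorizationMonoid_of_two hx hy hxy (Q := (P.comap (C.gen hc).val).map (algebraMap (C.gen hc) R))
    ?_ ?_
  · intro h0
    have h1 : algebraMap (C.gen hc) R (algebraMap O (C.gen hc) q) ∈ (P.comap (C.gen hc).val).map (algebraMap (C.gen hc) R) :=
      Ideal.mem_map_of_mem _ (Ideal.mem_comap.2 (by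
        rw [AlgHom.commutes]; exact hP.1.2 (Ideal.mem_span_singleton_self _)))
    rw [h0, Ideal.mem_bot, map_eq_zero_iff _ hinj] at h1
    have h2 : algebraMap O F q = 0 := congrArg (fun s : (C.gen hc) => ((s : chart O (C.ε c B.j)) : F)) h1
    rw [← (C.ε c).commutes q, map_eq_zero] at h2
    exact B.j_transcendental ⟨Polynomial.C q, by simpa using hq.ne_zero, by rw [aeval_C, h2]⟩
  · intro heq
    set jc : (C.gen hc) := ⟨⟨C.ε c B.j, self_mem_chart O _⟩, C.ε_j_mem_gen hc⟩
    obtain ⟨a, ha⟩ := hrat jc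
    have hle : Ideal.span (⋃ i, ⋃ (_ : i < L), f i '' ((maximalIdeal R).comap (f i)))
        ≤ maximalIdeal R := Ideal.span_le.2 fun y hy => by
      obtain ⟨i, -, z, hz, rfl⟩ := Set.mem_iUnion₂.1 hy
      exact hz
    have h1 : algebraMap (C.gen hc) R (jc - algebraMap O (C.gen hc) a) ∈ (P.comap (C.gen hc).val).map (algebraMap (C.gen hc) R) := by
      rw [heq, map_sub, ← IsScalarTower.algebraMap_apply]; exact hle ha
    have h1' : _ ∈ Ideal.under (C.gen hc) _ := Ideal.mem_comap.2 h1
    rw [IsLocalization.under_map_of_isPrime_disjoint (n.comap (C.gen hc).val).primeCompl R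
      (inferInstance : (P.comap (C.gen hc).val).IsPrime) hd] at h1'
    have h2 := (hW' _).2.2 (Ideal.mem_comap.1 h1')
    have hne : ¬ Polynomial.C q ∣ (X - Polynomial.C a) := fun hdvd =>
      hq.not_isUnit (isUnit_of_dvd_one (by simpa using C_dvd_iff_dvd_coeff q _ |>.1 hdvd 1))
    obtain ⟨h3, h4⟩ := hW.unit_mem _ hne
    have e : (((C.gen hc).val (jc - algebraMap O (C.gen hc) a) : chart O (C.ε c B.j)) : F)
        = aeval (C.ε c B.j) (X - Polynomial.C a) := by
      rw [map_sub (aeval (R := O) (C.ε c B.j)), aeval_X, aeval_C, map_sub, AlgHom.commutes]; rfl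
    rw [e, W.mem_nonunits_iff_or] at h2
    rcases h2 with h2 | h2
    · exact C.transcendental_ε c ⟨_, X_sub_C_ne_zero a, h2⟩
    · exact h2 h4

include hq hqn hfin hqn' in
theorem ufd_gen : UniqueFactorizationMonoid
    (Localization.AtPrime (n.comap (C.gen hc).val)) :=
  C.ufd_gen_aux hc hfin hq hqn n hqn' (Localization.AtPrime (n.comap (C.gen hc).val))

include hq hqn hfin hqn' in
/-- Near the point the chart is the generated ring. -/
theorem exists_mul_mem_gen (w : chart O (C.ε c B.j)) :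
    ∃ d ∈ C.gen hc, d ∉ n ∧ d * w ∈ C.gen hc := by
  haveI := C.isNoetherianRing_gen hc hfin
  haveI := C.isFractionRing_gen hc
  obtain ⟨d, hd, s, hs⟩ := exists_mul_mem_range (m := n.comap (C.gen hc).val)
    (C.ufd_gen hc hfin hq hqn n hqn') (C.isIntegral_gen hc w)
  refine ⟨d, d.2, hd, ?_⟩
  have : (d : chart O (C.ε c B.j)) * w = s := Subtype.ext hs
  rw [this]
  exact s.2

include hq hqn hfin hqn' in
/-- The chart is factorial at the closed points over `q`. -/
theorem ufd_point : UniqueFactorizationMonoid (Localization.AtPrime n) := by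
  haveI : UniqueFactorizationMonoid (Localization.AtPrime (n.comap (C.gen hc).val)) := C.ufd_gen hc hfin hq hqn n hqn'
  haveI : IsDomain (Localization.AtPrime (n.comap (C.gen hc).val)) :=
    IsLocalization.isDomain_localization (n.comap (C.gen hc).val).primeCompl_le_nonZeroDivisors
  haveI : IsDomain (Localization.AtPrime n) :=
    IsLocalization.isDomain_localization n.primeCompl_le_nonZeroDivisors
  let ψ : Localization.AtPrime (n.comap (C.gen hc).val) →+* Localization.AtPrime n :=
    Localization.localRingHom (n.comap (C.gen hc).val) n (C.gen hc).val.toRingHom rfl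
  have hψ : ∀ s : (C.gen hc), ψ (algebraMap (C.gen hc) _ s) = algebraMap (chart O (C.ε c B.j)) _ (s : (chart O (C.ε c B.j))) := fun s =>
    Localization.localRingHom_to_map (n.comap (C.gen hc).val) n (C.gen hc).val.toRingHom rfl s
  have hinj : Function.Injective ψ := localRingHom_injective _ Subtype.val_injective _ _ rfl
  have hsurj : Function.Surjective ψ := by
    intro z
    obtain ⟨⟨a, b⟩, hab⟩ := IsLocalization.surj n.primeCompl z
    obtain ⟨da, hda, hda', hdaa⟩ := C.exists_mul_mem_gen hc hfin hq hqn n hqn' a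
    obtain ⟨db, hdb, hdb', hdbb⟩ := C.exists_mul_mem_gen hc hfin hq hqn n hqn' b
    let num : (C.gen hc) := ⟨da * a, hdaa⟩ * ⟨db, hdb⟩
    let den : (n.comap (C.gen hc).val).primeCompl := ⟨⟨da, hda⟩ * ⟨db * b, hdbb⟩, fun h => by
      exact ((inferInstance : n.IsMaximal).isPrime.mem_or_mem h).elim hda' fun h' =>
        ((inferInstance : n.IsMaximal).isPrime.mem_or_mem h').elim hdb' b.2⟩
    refine ⟨IsLocalization.mk' _ num den, ?_⟩
    have h1 := congrArg ψ (IsLocalization.mk'_spec (Localization.AtPrime (n.comap (C.gen hc).val)) num den)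
    rw [map_mul, hψ, hψ] at h1
    have hu : IsUnit (algebraMap (chart O (C.ε c B.j)) (Localization.AtPrime n) ((den : (C.gen hc)) : (chart O (C.ε c B.j)))) :=
      IsLocalization.map_units (Localization.AtPrime n)
        (⟨_, fun h => den.2 h⟩ : n.primeCompl)
    refine hu.mul_right_cancel (h1.trans ?_)
    show algebraMap (chart O (C.ε c B.j)) _ (da * a * db) = z * algebraMap (chart O (C.ε c B.j)) _ (da * (db * b))
    rw [map_mul, map_mul, map_mul, map_mul, ← hab]
    ring
  exact (RingEquiv.ofBijective ψ ⟨hinj, hsurj⟩).toMulEquiv.uniqueFactorizationMonoid ‹_›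

include hq hqn hfin in
theorem exists_fraction (z : F) :
    ∃ a b : chart O (C.ε c B.j), b ≠ 0 ∧ z * (b : F) = (a : F) := by
  haveI := C.isFractionRing_gen hc
  obtain ⟨a, b, hb, rfl⟩ := IsFractionRing.div_surjective (A := C.gen hc) z
  have hb0 : algebraMap (C.gen hc) F b ≠ 0 :=
    IsFractionRing.to_map_ne_zero_of_mem_nonZeroDivisors hb
  exact ⟨a, b, fun h => hb0 (congrArg Subtype.val h), div_mul_cancel₀ _ hb0⟩

end ChainData

end FLTAgent.LevelPow
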