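import Fermat.Agent.LevelPow.Cotangent

/-!
# Two generators at a closed point of a chain of edges

Along a chain no vertex is the child of two edges, so either all edges pass through a crossing or
the chain climbs to one apex and descends. In both cases the coordinates of the two ends, or one
of them and `q`, generate the maximal ideal modulo its square.
-/

set_option autoImplicit false
set_option linter.style.haveILetI false
set_option linter.unusedSectionVars false

noncomputable section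

open Polynomial IsLocalRing

namespace FLTAgent.LevelPow

open LevelSq

variable {O : Type} [CommRing O] [IsDomain O] [IsDiscreteValuationRing O] {q : O} {qn : ℕ}
  {FN : Type} [Field FN] [Algebra O FN] {k : Type} [Field k] [IsAlgClosed k]
  {B : BaseData O q qn FN k} {FE : Type} [Field FE] [Algebra O FE]

namespace EdgeData

variable (D : EdgeData B FE) (hq : Prime q) (hqn : qn.Prime)
  {R : Type} [CommRing R] [IsDomain R] [IsNoetherianRing R] [IsLocalRing R] [Algebra O R]

theorem isMaximal_comap_vE (n : Ideal D.E) [n.IsMaximal] : (n.comap D.vE).IsMaximal :=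
  Ideal.comap_isMaximal_of_surjective (D.vE : D.E →+* D.E) fun y => ⟨D.vE y, D.vE_vE y⟩

theorem centre_le_comap_vE (n : Ideal D.E) :
    D.centre hq ≤ n.comap D.vE ↔ D.centre' hq ≤ n := by
  constructor <;> intro h z hz
  · have h1 : D.vE (D.vE z) ∈ n := h (show D.vE z ∈ D.centre hq from hz)
    rwa [D.vE_vE] at h1
  · show D.vE z ∈ n
    exact h (show D.vE (D.vE z) ∈ D.centre hq by rwa [D.vE_vE])

theorem centre'_le_comap_vE (n : Ideal D.E) :
    D.centre' hq ≤ n.comap D.vE ↔ D.centre hq ≤ n := by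
  constructor <;> intro h z hz
  · have h1 : D.vE (D.vE z) ∈ n :=
      h (show D.vE (D.vE z) ∈ D.centre hq by rwa [D.vE_vE])
    rwa [D.vE_vE] at h1
  · show D.vE z ∈ n
    exact h (show D.vE z ∈ D.centre hq from hz)

variable {n : Ideal D.E} [n.IsMaximal]

include hq hqn in
theorem vP_notMem_of_up (hb : D.centre hq ≤ n) (hup : ¬ D.centre' hq ≤ n) :
    D.vE (D.αE B.P) ∉ n := by
  haveI := D.isMaximal_point hq hb
  have hqx := D.q_mem_point hq hb
  intro h
  have h1 := (D.mem_iff_hasVal hq (hqx := hqx) hb rfl _).1 h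
  rw [D.resE_vE_αE hq B.P_mem_rat] at h1
  exact D.P_notMem_of_up hq hqn hb hup rfl
    ((B.ev_eq_zero hqx).1 (pow_eq_zero_iff hqn.ne_zero |>.1
      (((BaseData.hasVal_red B.P).pow qn).unique h1)))

include D hq in
theorem const_mem_span {a : O} (hqM : algebraMap O R q ∈ maximalIdeal R)
    (ha : algebraMap O R a ∈ maximalIdeal R) : algebraMap O R a ∈ Ideal.span {algebraMap O R q} := by
  by_cases h : q ∣ a
  · obtain ⟨c, rfl⟩ := h
    rw [map_mul]
    exact Ideal.mul_mem_right _ _ (Ideal.mem_span_singleton_self _)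
  · obtain ⟨e, he⟩ := B.resO_surjective (B.resO a)⁻¹
    obtain ⟨c, hc⟩ := (B.resO_eq_zero (a * e - 1)).1 (by
      rw [map_sub, map_mul, he, mul_inv_cancel₀ (fun h0 => h ((B.resO_eq_zero a).1 h0)), map_one,
        sub_self])
    exfalso
    refine (maximalIdeal.isMaximal R).ne_top ((Ideal.eq_top_iff_one _).2 ?_)
    have h1 := congrArg (algebraMap O R) hc
    rw [map_sub, map_mul, map_mul, map_one] at h1
    have h2 := sub_mem (Ideal.mul_mem_right (algebraMap O R e) _ ha)
      (Ideal.mul_mem_right (algebraMap O R c) _ hqM)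
    rwa [← h1, sub_sub_cancel] at h2

include hq hqn in
/-- The parent coordinate is in `(q) + M ^ 2`. -/
theorem parent_mem (f : D.E →ₐ[O] R) (hf : (maximalIdeal R).comap f = n) (hb : D.centre hq ≤ n)
    (hup : ¬ D.centre' hq ≤ n) {b : O} (hbb : f D.hB - algebraMap O R b ∈ maximalIdeal R) :
    f D.hB - algebraMap O R b ∈ Ideal.span {algebraMap O R q} ⊔ maximalIdeal R ^ 2 := by
  haveI := D.isMaximal_point hq hb
  have hqx := D.q_mem_point hq hb
  obtain ⟨τ, -, hτ⟩ := D.exists_parent (R := R) hq (hqx := hqx) hb hup rfl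
  obtain ⟨a, ha⟩ := D.exists_const_E hq (hb (D.q_mem_centre hq)) D.hA
  have hqM : algebraMap O R q ∈ maximalIdeal R := by
    rw [← f.commutes q]; exact (D.mem_iff_of_comap_eq hf _).2 (hb (D.q_mem_centre hq))
  have hqnM : (qn : R) ∈ maximalIdeal R := by
    rw [← map_natCast (algebraMap O R), ← B.q_eq]; exact hqM
  have h1 := pow_sub_pow_mem_sq hqnM ((D.sub_mem_iff_of_comap_eq hf _ a).2 ha)
  have h2 := hτ f hf
  have h3 : algebraMap O R (a ^ qn - b) ∈ Ideal.span {algebraMap O R q} := by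
    refine D.const_mem_span hq hqM ?_
    have : algebraMap O R (a ^ qn - b) = (f D.hB - algebraMap O R b)
        - algebraMap O R q * algebraMap O R τ - (f D.hA ^ qn - algebraMap O R a ^ qn)
        - (f D.hB - f D.hA ^ qn - algebraMap O R q * algebraMap O R τ) := by
      rw [map_sub, map_pow]; ring
    rw [this]
    exact sub_mem (sub_mem (sub_mem hbb (Ideal.mul_mem_right _ _ hqM))
      (Ideal.pow_le_self two_ne_zero h1)) (Ideal.pow_le_self two_ne_zero h2)
  rw [show f D.hB - algebraMap O R b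
    = (f D.hB - f D.hA ^ qn - algebraMap O R q * algebraMap O R τ)
      + (f D.hA ^ qn - algebraMap O R a ^ qn)
      + (algebraMap O R q * algebraMap O R τ + algebraMap O R (a ^ qn - b)) by
    rw [map_sub, map_pow]; ring]
  exact add_mem (Ideal.mem_sup_right (add_mem h2 h1)) (Ideal.mem_sup_left
    (add_mem (Ideal.mul_mem_right _ _ (Ideal.mem_span_singleton_self _)) h3))

include hq hqn in
/-- Two parents of one point are congruent modulo `M ^ 2`. -/
theorem parent_sub_mem_sq {f g : D.E →ₐ[O] R} (hf : (maximalIdeal R).comap f = n)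
    (hg : (maximalIdeal R).comap g = n) (hb : D.centre hq ≤ n) (hup : ¬ D.centre' hq ≤ n) :
    f D.hB - g D.hB ∈ maximalIdeal R ^ 2 := by
  haveI := D.isMaximal_point hq hb
  have hqx := D.q_mem_point hq hb
  obtain ⟨τ, -, hτ⟩ := D.exists_parent (R := R) hq (hqx := hqx) hb hup rfl
  obtain ⟨a, ha⟩ := D.exists_const_E hq (hb (D.q_mem_centre hq)) D.hA
  have hqnM : (qn : R) ∈ maximalIdeal R := by
    rw [← map_natCast (algebraMap O R), ← B.q_eq, ← f.commutes q]
    exact (D.mem_iff_of_comap_eq hf _).2 (hb (D.q_mem_centre hq))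
  have h1 := pow_sub_pow_mem_sq hqnM ((D.sub_mem_iff_of_comap_eq hf _ a).2 ha)
  have h2 := pow_sub_pow_mem_sq hqnM ((D.sub_mem_iff_of_comap_eq hg _ a).2 ha)
  rw [show f D.hB - g D.hB = (f D.hB - f D.hA ^ qn - algebraMap O R q * algebraMap O R τ)
    - (g D.hB - g D.hA ^ qn - algebraMap O R q * algebraMap O R τ)
    + ((f D.hA ^ qn - algebraMap O R a ^ qn) - (g D.hA ^ qn - algebraMap O R a ^ qn)) by ring]
  exact add_mem (sub_mem (hτ f hf) (hτ g hg)) (sub_mem h1 h2)

section Chain

variable {L : ℕ} (f : ℕ → D.E →ₐ[O] R)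

/-- The coordinates of the vertices. -/
def vertex (L : ℕ) (i : ℕ) : R := if i < L then f i D.hA else f (L - 1) D.hB

variable (hL : 0 < L) (hmax : ∀ i < L, ((maximalIdeal R).comap (f i)).IsMaximal)
  (hagree : ∀ i, i + 1 < L → ∀ g, f i (D.vE (D.αE g)) = f (i + 1) (D.αE g))
  (hne : ∀ i, i + 1 < L → f i D.hA ≠ f (i + 1) D.hB)
  (hqM : algebraMap O R q ∈ maximalIdeal R)

theorem vertex_eq {i : ℕ} (hi : i < L) : D.vertex f L i = f i D.hA := if_pos hi

include hagree in
theorem vertex_succ {i : ℕ} (hi : i < L) : D.vertex f L (i + 1) = f i D.hB := by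
  unfold vertex
  split_ifs with h
  · exact (hagree i h B.h).symm
  · rw [show L - 1 = i by omega]

include hq hqn hmax hagree hne hqM in
/-- The maximal ideal at a point of a chain needs two generators modulo its square. -/
theorem exists_two_of_chain (hL : 0 < L)
    (hgen : maximalIdeal R ≤ Ideal.span (⋃ i, ⋃ (_ : i < L), f i '' ((maximalIdeal R).comap (f i)))
      ⊔ maximalIdeal R ^ 2) :
    ∃ x y, x ∈ maximalIdeal R ∧ y ∈ maximalIdeal R ∧
      maximalIdeal R ≤ Ideal.span {x, y} ⊔ maximalIdeal R ^ 2 := by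
  classical
  set M := maximalIdeal R
  set qR := algebraMap O R q
  let n : ℕ → Ideal D.E := fun i => M.comap (f i)
  have hqn' : ∀ i, algebraMap O D.E q ∈ n i := fun i => by
    show f i (algebraMap O D.E q) ∈ M
    rw [AlgHom.commutes]; exact hqM
  have hrat : ∀ i, i < L → ∀ z, ∃ a : O, f i z - algebraMap O R a ∈ M := fun i hi z => by
    haveI := hmax i hi
    obtain ⟨a, ha⟩ := D.exists_const_E hq (n := n i) (hqn' i) z
    exact ⟨a, (D.sub_mem_iff_of_comap_eq (f := f i) rfl z a).2 ha⟩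
  set X := D.vertex f L with hX
  have hXA : ∀ i, i < L → X i = f i D.hA := fun i hi => D.vertex_eq f hi
  have hXB : ∀ i, i < L → X (i + 1) = f i D.hB := fun i hi => D.vertex_succ f hagree hi
  have hconst : ∀ i, ∃ a : O, i ≤ L → X i - algebraMap O R a ∈ M := fun i => by
    rcases Nat.lt_or_ge i L with hi | hi
    · obtain ⟨a, ha⟩ := hrat i hi D.hA
      exact ⟨a, fun _ => by rwa [hXA i hi]⟩
    · obtain ⟨a, ha⟩ := hrat (L - 1) (by omega) D.hB
      refine ⟨a, fun hle => ?_⟩
      rwa [show i = L - 1 + 1 by omega, hXB (L - 1) (by omega)]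
  choose a ha using hconst
  let x : ℕ → R := fun i => X i - algebraMap O R (a i)
  have hx : ∀ i, i ≤ L → x i ∈ M := ha
  -- generators of all vertices
  have hgen' : ∀ {S : Ideal R}, M ^ 2 ≤ S → qR ∈ S → (∀ i, i ≤ L → x i ∈ S) → M ≤ S := by
    intro S hS2 hSq hSx
    refine hgen.trans (sup_le (Ideal.span_le.2 ?_) hS2)
    intro s hs
    simp only [Set.mem_iUnion] at hs
    obtain ⟨i, hi, z, hz, rfl⟩ := hs
    haveI := hmax i hi
    have h1 : D.hA - algebraMap O _ (a i) ∈ n i := (D.sub_mem_iff_of_comap_eq (f := f i) rfl _ _).1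
      (hXA i hi ▸ ha i hi.le)
    have h2 : D.hB - algebraMap O _ (a (i + 1)) ∈ n i :=
      (D.sub_mem_iff_of_comap_eq (f := f i) rfl _ _).1 (hXB i hi ▸ ha (i + 1) hi)
    obtain ⟨d, hd, hdz⟩ := D.exists_mul_mem_span hq hqn (n := n i) (hqn' i) h1 h2 hz
    refine mem_of_unit_mul_mem (s := f i d) hd ?_
    rw [← map_mul]
    refine (?_ : Ideal.span _ ≤ S.comap (f i)) hdz
    rw [Ideal.span_le]
    rintro _ (rfl | rfl | rfl)
    · show f i (algebraMap O D.E q) ∈ S
      rw [AlgHom.commutes]; exact hSq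
    · show f i (D.hA - algebraMap O _ (a i)) ∈ S
      rw [map_sub, AlgHom.commutes, ← hXA i hi]; exact hSx i hi.le
    · show f i (D.hB - algebraMap O _ (a (i + 1))) ∈ S
      rw [map_sub, AlgHom.commutes, ← hXB i hi]; exact hSx (i + 1) hi
  -- the kind of the edges
  let Q : ℕ → Prop := fun i => f i (D.αE B.P) ∈ M
  have hbranch : ∀ i, i < L → D.centre hq ≤ n i ∨ D.centre' hq ≤ n i := fun i hi => by
    haveI := hmax i hi
    exact D.exists_branch hq (hqn' i)
  have hkind : ∀ i, i < L → (Q i ↔ D.centre hq ≤ n i ∧ D.centre' hq ≤ n i) ∧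
      (f i (D.vE (D.αE B.P)) ∈ M ↔ Q i) := by
    intro i hi
    haveI := hmax i hi
    haveI := D.isMaximal_comap_vE (n i)
    by_cases hb : D.centre hq ≤ n i <;> by_cases hb' : D.centre' hq ≤ n i
    · have h1 : Q i := D.P_mem_of_both hq (n := n i) hb hb'
      have h2 : f i (D.vE (D.αE B.P)) ∈ M := D.P_mem_of_both hq (n := (n i).comap D.vE)
        ((D.centre_le_comap_vE hq _).2 hb') ((D.centre'_le_comap_vE hq _).2 hb)
      exact ⟨iff_of_true h1 ⟨hb, hb'⟩, iff_of_true h2 h1⟩
    · haveI := D.isMaximal_point hq hb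
      have h1 : ¬ Q i := D.P_notMem_of_up hq hqn (n := n i) hb hb' rfl
      have h2 := D.vP_notMem_of_up hq hqn (n := n i) hb hb'
      exact ⟨iff_of_false h1 fun h => hb' h.2, iff_of_false h2 h1⟩
    · have hv := (D.centre_le_comap_vE hq (n i)).2 hb'
      have hv' : ¬ D.centre' hq ≤ (n i).comap D.vE := fun h => hb ((D.centre'_le_comap_vE hq _).1 h)
      haveI := D.isMaximal_point hq hv
      have h2 : f i (D.vE (D.αE B.P)) ∉ M := D.P_notMem_of_up hq hqn hv hv' rfl
      have h1 : ¬ Q i := fun h => D.vP_notMem_of_up hq hqn hv hv'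
        (show f i (D.vE (D.vE (D.αE B.P))) ∈ M by rwa [D.vE_vE])
      exact ⟨iff_of_false h1 fun h => hb h.1, iff_of_false h2 h1⟩
    · exact absurd (hbranch i hi) (by simp [hb, hb'])
  have hQ : ∀ i, i < L → (Q i ↔ Q 0) := by
    intro i
    induction i with
    | zero => exact fun _ => Iff.rfl
    | succ i ih =>
      intro hi
      rw [← ih (by omega), ← (hkind i (by omega)).2, hagree i hi B.P]
  by_cases hQ0 : Q 0
  · -- all edges through crossings
    have hq2 : qR ∈ M ^ 2 := by
      haveI := hmax 0 hL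
      exact D.q_mem_sq hq hqn (n := n 0) (f 0) rfl ((hkind 0 hL).1.1 hQ0).1 ((hkind 0 hL).1.1 hQ0).2
    refine ⟨x 0, x L, hx 0 hL.le, hx L le_rfl, hgen' le_sup_right (Ideal.mem_sup_right hq2) ?_⟩
    intro i hi
    rcases Nat.eq_zero_or_pos i with rfl | h0
    · exact Ideal.mem_sup_left (Ideal.subset_span (by simp))
    rcases hi.lt_or_eq with hiL | rfl
    swap
    · exact Ideal.mem_sup_left (Ideal.subset_span (by simp))
    obtain ⟨j, rfl⟩ : ∃ j, i = j + 1 := ⟨i - 1, by omega⟩
    refine Ideal.mem_sup_right ?_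
    haveI := hmax (j + 1) hiL
    haveI := hmax j (by omega)
    haveI := D.isMaximal_comap_vE (n j)
    obtain ⟨hb, hb'⟩ := (hkind (j + 1) hiL).1.1 ((hQ _ hiL).2 hQ0)
    obtain ⟨hc, hc'⟩ := (hkind j (by omega)).1.1 ((hQ _ (by omega)).2 hQ0)
    have hn : (n j).comap D.vE = n (j + 1) :=
      D.eq_of_point hq hb ((D.centre_le_comap_vE hq _).2 hc') (Ideal.ext fun g => by
        show f j (D.vE (D.αE g)) ∈ M ↔ f (j + 1) (D.αE g) ∈ M
        rw [hagree j hiL g])
    show X (j + 1) - algebraMap O R (a (j + 1)) ∈ M ^ 2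
    rw [hXA _ hiL]
    exact D.mid_mem_sq hq hqn (n := n (j + 1)) (f := f (j + 1)) (g := (f j).comp D.vE) rfl hn hb
      hb' (hagree j hiL B.h).symm
      (fun h => hne j hiL (by
        rw [show f (j + 1) D.hB = f j (D.vE D.hB) from h]
        show f j D.hA = f j (D.vE (D.vE (D.αE B.h)))
        rw [D.vE_vE]))
      ((D.sub_mem_iff_of_comap_eq (f := f (j + 1)) rfl _ _).1 (hXA _ hiL ▸ ha _ hiL.le))
  -- single branches
  let Up : ℕ → Prop := fun i => D.centre hq ≤ n i ∧ ¬ D.centre' hq ≤ n i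
  let Dn : ℕ → Prop := fun i => D.centre hq ≤ (n i).comap D.vE ∧
    ¬ D.centre' hq ≤ (n i).comap D.vE
  have hUD : ∀ i, i < L → Up i ∨ Dn i := by
    intro i hi
    have hnq : ¬ (D.centre hq ≤ n i ∧ D.centre' hq ≤ n i) := fun h =>
      hQ0 ((hQ i hi).1 ((hkind i hi).1.2 h))
    rcases hbranch i hi with h | h
    · exact Or.inl ⟨h, fun h' => hnq ⟨h, h'⟩⟩
    · exact Or.inr ⟨(D.centre_le_comap_vE hq _).2 h,
        fun h' => hnq ⟨(D.centre'_le_comap_vE hq _).1 h', h⟩⟩
  have hvalley : ∀ i, i + 1 < L → Dn i → ¬ Up (i + 1) := by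
    intro i hi hd hu
    haveI := hmax (i + 1) hi
    haveI := hmax i (by omega)
    haveI := D.isMaximal_comap_vE (n i)
    have h := D.eq_of_child hq hqn (f := (f i).comp D.vE) (g := f (i + 1)) (n := (n i).comap D.vE)
      rfl hd.1 hd.2 hu.1 (AlgHom.ext fun g => hagree i hi g)
    refine hne i hi ?_
    have h1 := DFunLike.congr_fun h D.hB
    rw [← h1]
    show f i D.hA = f i (D.vE (D.vE (D.αE B.h)))
    rw [D.vE_vE]
  set P := Ideal.span {qR} ⊔ M ^ 2 with hPdef
  have hparB : ∀ i, i < L → Up i → x (i + 1) ∈ P := fun i hi hu => by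
    haveI := hmax i hi
    show X (i + 1) - _ ∈ P
    rw [hXB i hi]
    exact D.parent_mem hq hqn (n := n i) (f i) rfl hu.1 hu.2 (hXB i hi ▸ ha (i + 1) hi)
  have hparA : ∀ i, i < L → Dn i → x i ∈ P := fun i hi hd => by
    haveI := hmax i hi
    haveI := D.isMaximal_comap_vE (n i)
    have e : ((f i).comp D.vE) D.hB = X i := by
      rw [hXA i hi]
      show f i (D.vE (D.vE (D.αE B.h))) = _
      rw [D.vE_vE]
    show X i - _ ∈ P
    rw [← e]
    exact D.parent_mem hq hqn (n := (n i).comap D.vE) ((f i).comp D.vE) rfl hd.1 hd.2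
      (e.symm ▸ ha i hi.le)
  have hint : ∀ i, 0 < i → i < L → x i ∈ P := by
    intro i h0 hi
    obtain ⟨j, rfl⟩ : ∃ j, i = j + 1 := ⟨i - 1, by omega⟩
    rcases hUD j (by omega) with h | h
    · exact hparB j (by omega) h
    · exact hparA (j + 1) hi ((hUD (j + 1) hi).resolve_left (hvalley j hi h))
  have hall : ∀ {S : Ideal R}, M ^ 2 ≤ S → qR ∈ S → x 0 ∈ S → x L ∈ S → M ≤ S := by
    intro S h2 hqS h0 hLS
    refine hgen' h2 hqS fun i hi => ?_
    rcases Nat.eq_zero_or_pos i with rfl | hp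
    · exact h0
    rcases hi.lt_or_eq with hiL | rfl
    · exact (sup_le ((Ideal.span_singleton_le_iff_mem S).2 hqS) h2) (hint i hp hiL)
    · exact hLS
  by_cases hallUp : ∀ i, i < L → Up i
  · refine ⟨qR, x 0, hqM, hx 0 hL.le, hall le_sup_right (Ideal.mem_sup_left (Ideal.subset_span
      (by simp))) (Ideal.mem_sup_left (Ideal.subset_span (by simp))) ?_⟩
    have h := hparB (L - 1) (by omega) (hallUp _ (by omega))
    rw [show L - 1 + 1 = L by omega] at h
    exact (sup_le ((Ideal.span_singleton_le_iff_mem _).2 (Ideal.mem_sup_left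
      (Ideal.subset_span (by simp)))) le_sup_right) h
  by_cases hallDn : ∀ i, i < L → Dn i
  · refine ⟨qR, x L, hqM, hx L le_rfl, hall le_sup_right (Ideal.mem_sup_left (Ideal.subset_span
      (by simp))) ((sup_le ((Ideal.span_singleton_le_iff_mem _).2 (Ideal.mem_sup_left
      (Ideal.subset_span (by simp)))) le_sup_right) (hparA 0 hL (hallDn 0 hL)))
      (Ideal.mem_sup_left (Ideal.subset_span (by simp)))⟩
  -- the apex
  obtain ⟨j, hj, hjU, hjD⟩ : ∃ j, j + 1 < L ∧ Up j ∧ Dn (j + 1) := by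
    by_contra! hno
    have h0 : ∀ i, i < L → Up 0 → Up i := by
      intro i
      induction i with
      | zero => exact fun _ h => h
      | succ i ih =>
        exact fun hi h => (hUD (i + 1) hi).resolve_right (hno i hi (ih (by omega) h))
    rcases hUD 0 hL with h | h
    · exact hallUp fun i hi => h0 i hi h
    · refine hallDn fun i => ?_
      induction i with
      | zero => exact fun _ => h
      | succ i ih =>
        exact fun hi => (hUD (i + 1) hi).resolve_left (hvalley i hi (ih (by omega)))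
  haveI := hmax j (by omega)
  haveI := hmax (j + 1) hj
  haveI := D.isMaximal_comap_vE (n (j + 1))
  set g₁ := f j
  set g₂ := (f (j + 1)).comp D.vE
  have hnn : (n (j + 1)).comap D.vE = n j := D.eq_of_parent hq hqn hjU.1 hjD.1 fun y => by
    show f (j + 1) (D.vE (D.vE (D.αE y))) ∈ M ↔ f j (D.vE (D.αE y)) ∈ M
    rw [D.vE_vE, hagree j hj y]
  have hg₂A : g₂ D.hA = X (j + 2) := (hXB (j + 1) hj).symm
  have hg₁B : g₁ D.hB = g₂ D.hB := by
    show f j D.hB = f (j + 1) (D.vE (D.vE (D.αE B.h)))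
    rw [D.vE_vE]; exact hagree j hj B.h
  have hae : D.hA - algebraMap O _ (a j) ∈ n j :=
    (D.sub_mem_iff_of_comap_eq (f := f j) rfl _ _).1 (hXA j (by omega) ▸ ha j (by omega))
  haveI := D.isMaximal_point hq hjU.1
  have hqx := D.q_mem_point hq hjU.1
  obtain ⟨ρ, hρ, hrel⟩ := D.exists_apex hq hqn (n := n j) (f := g₁) (g := g₂) rfl hnn
    hjU.1 hjU.2 rfl hg₁B (hne j hj) hae
  set K := (qn.choose 2 : R) * algebraMap O R (a j) ^ (qn - 2)
  set y' := g₂ D.hA - algebraMap O R (a j)
  have hxj : g₁ D.hA - algebraMap O R (a j) = x j := by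
    show _ = X j - _
    rw [hXA j (by omega)]
  rw [hxj] at hrel
  have hy' : y' ∈ M := (D.sub_mem_iff_of_comap_eq (f := g₂) hnn _ _).2 hae
  have hρu : algebraMap O R ρ ∉ M := fun h => by
    obtain ⟨c, hc⟩ := Ideal.mem_span_singleton'.1 (D.const_mem_span hq hqM h)
    have : algebraMap O D.E ρ ∈ n j := by
      show f j (algebraMap O D.E ρ) ∈ M
      rw [AlgHom.commutes]; exact h
    exact hρ (D.resO_eq_zero_of_mem hq (hqn' j) this)
  -- `y'` against the coordinate of the vertex
  have hy'x : y' - x (j + 2) ∈ Ideal.span {qR} := by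
    have h : y' - x (j + 2) = algebraMap O R (a (j + 2) - a j) := by
      show g₂ D.hA - _ - (X (j + 2) - _) = _
      rw [hg₂A, map_sub]; ring
    rw [h]
    exact D.const_mem_span hq hqM (h ▸ sub_mem hy' (hx (j + 2) hj))
  -- `q` from the relation
  have hqS : ∀ {S : Ideal R}, M ^ 2 ≤ S → K * (x j + y') ∈ S → qR ∈ S := by
    intro S h2 hK
    refine mem_of_unit_mul_mem hρu ?_
    rw [show algebraMap O R ρ * qR = (qR * algebraMap O R ρ + K * (x j + y')) - K * (x j + y') by
      ring]
    exact sub_mem (h2 hrel) hK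
  have hxL_of : j + 2 = L → ∀ {S : Ideal R}, qR ∈ S → y' ∈ S → x L ∈ S := by
    intro hjL S hqS' hyS
    have h1 : y' - x (j + 2) ∈ S := (Ideal.span_singleton_le_iff_mem S).2 hqS' hy'x
    rw [hjL] at h1
    simpa using sub_mem hyS h1
  by_cases hK : K ∈ M
  · have hq2 : qR ∈ M ^ 2 :=
      hqS le_rfl (mul_mem_sq hK (add_mem (hx j (by omega)) hy'))
    exact ⟨x 0, x L, hx 0 hL.le, hx L le_rfl, hall le_sup_right (Ideal.mem_sup_right hq2)
      (Ideal.mem_sup_left (Ideal.subset_span (by simp)))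
      (Ideal.mem_sup_left (Ideal.subset_span (by simp)))⟩
  have hsum : x j + y' ∈ P := mem_of_unit_mul_mem hK (by
    rw [show K * (x j + y') = (qR * algebraMap O R ρ + K * (x j + y')) - qR * algebraMap O R ρ by
      ring]
    exact sub_mem (Ideal.mem_sup_right hrel)
      (Ideal.mem_sup_left (Ideal.mul_mem_right _ _ (Ideal.mem_span_singleton_self _))))
  have hPle : ∀ {S : Ideal R}, M ^ 2 ≤ S → qR ∈ S → P ≤ S := fun h2 h =>
    sup_le ((Ideal.span_singleton_le_iff_mem _).2 h) h2
  rcases Nat.eq_zero_or_pos j with hj0 | hj0 <;> rcases Nat.lt_or_ge (j + 2) L with hj2 | hj2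
  · -- `x 0` is in `(q) + M²`
    refine ⟨qR, x L, hqM, hx L le_rfl, hall le_sup_right (Ideal.mem_sup_left (Ideal.subset_span
      (by simp))) ?_ (Ideal.mem_sup_left (Ideal.subset_span (by simp)))⟩
    have hy : y' ∈ P := by
      simpa using add_mem (Ideal.mem_sup_left hy'x : y' - x (j + 2) ∈ P) (hint (j + 2) (by omega) hj2)
    have h0 : x 0 ∈ P := by simpa [hj0] using sub_mem hsum hy
    exact hPle le_sup_right (Ideal.mem_sup_left (Ideal.subset_span (by simp))) h0
  · -- two ends
    have hjL : j + 2 = L := by omega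
    refine ⟨x 0, y', hx 0 hL.le, hy', ?_⟩
    have hq0 : qR ∈ Ideal.span {x 0, y'} ⊔ M ^ 2 := hqS le_sup_right (Ideal.mul_mem_left _ _
      (add_mem (Ideal.mem_sup_left (Ideal.subset_span (by simp [hj0])))
        (Ideal.mem_sup_left (Ideal.subset_span (by simp)))))
    exact hall le_sup_right hq0 (Ideal.mem_sup_left (Ideal.subset_span (by simp)))
      (hxL_of hjL hq0 (Ideal.mem_sup_left (Ideal.subset_span (by simp))))
  · -- two interior children
    haveI := hmax (j - 1) (by omega)
    haveI := hmax (j + 2) hj2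
    haveI := D.isMaximal_comap_vE (n (j + 2))
    have hu3 : Up (j - 1) := by
      refine (hUD (j - 1) (by omega)).resolve_right fun h => hvalley (j - 1) (by omega) h ?_
      rwa [show j - 1 + 1 = j by omega]
    have hd4 : Dn (j + 2) := (hUD (j + 2) hj2).resolve_left (hvalley (j + 1) hj2 hjD)
    have h34 : (n (j + 2)).comap D.vE = n (j - 1) := D.eq_of_parent hq hqn hu3.1 hd4.1 fun y => by
      show f (j + 2) (D.vE (D.vE (D.αE y))) ∈ M ↔ f (j - 1) (D.vE (D.αE y)) ∈ M
      rw [D.vE_vE, ← hagree (j + 1) hj2 y, hagree (j - 1) (by omega) y,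
        show j - 1 + 1 = j by omega]
      show D.αE y ∈ (n (j + 1)).comap D.vE ↔ D.αE y ∈ n j
      rw [hnn]
    have hd : x j - y' ∈ M ^ 2 := by
      have h := D.parent_sub_mem_sq hq hqn (n := n (j - 1)) (f := f (j - 1))
        (g := (f (j + 2)).comp D.vE) rfl h34 hu3.1 hu3.2
      have e1 : f (j - 1) D.hB = X j := by
        rw [← hXB (j - 1) (by omega), show j - 1 + 1 = j by omega]
      have e2 : ((f (j + 2)).comp D.vE) D.hB = g₂ D.hA := by
        rw [hg₂A, hXA _ hj2]
        show f (j + 2) (D.vE (D.vE (D.αE B.h))) = _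
        rw [D.vE_vE]
      rw [e1, e2] at h
      show X j - _ - (g₂ D.hA - _) ∈ M ^ 2
      simpa using h
    have hq2 : qR ∈ M ^ 2 := hqS le_rfl (by
      rw [show K * (x j + y') = K * (x j - y') + (2 * K) * y' by ring]
      refine add_mem (Ideal.mul_mem_left _ _ hd) (mul_mem_sq ?_ hy')
      have h2 : 2 * qn.choose 2 = qn * (qn - 1) := by
        rw [Nat.choose_two_right, Nat.mul_div_cancel' (Nat.even_mul_pred_self qn).two_dvd]
      show 2 * ((qn.choose 2 : R) * algebraMap O R (a j) ^ (qn - 2)) ∈ M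
      rw [← mul_assoc, show (2 : R) * (qn.choose 2 : R) = (qn : R) * ((qn - 1 : ℕ) : R) by
        exact_mod_cast congrArg (fun t : ℕ => (t : R)) h2,
        show (qn : R) = qR by rw [show qR = algebraMap O R q from rfl, B.q_eq, map_natCast],
        mul_assoc]
      exact Ideal.mul_mem_right _ _ hqM)
    exact ⟨x 0, x L, hx 0 hL.le, hx L le_rfl, hall le_sup_right (Ideal.mem_sup_right hq2)
      (Ideal.mem_sup_left (Ideal.subset_span (by simp)))
      (Ideal.mem_sup_left (Ideal.subset_span (by simp)))⟩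
  · -- the last coordinate is in `(q) + M²`
    have hjL : j + 2 = L := by omega
    refine ⟨qR, x 0, hqM, hx 0 hL.le, hall le_sup_right (Ideal.mem_sup_left (Ideal.subset_span
      (by simp))) (Ideal.mem_sup_left (Ideal.subset_span (by simp))) ?_⟩
    have hy : y' ∈ P := by simpa using sub_mem hsum (hint j hj0 (by omega))
    exact hxL_of hjL (Ideal.mem_sup_left (Ideal.subset_span (by simp)))
      (hPle le_sup_right (Ideal.mem_sup_left (Ideal.subset_span (by simp))) hy)

end Chain

end EdgeData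

end FLTAgent.LevelPow
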