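import Fermat.Agent.LevelSq.RamRing

/-!
# The valuation ring of a finite extension of the inertia field

`extField A E` is the fixed field of the elements of inertia fixing `E`, `extRing A E` its valuation
ring: a discrete valuation ring in which units are `m`-th powers for `m` prime to `q`.
-/

set_option autoImplicit false
set_option linter.style.haveILetI false
set_option linter.unusedSectionVars false
set_option synthInstance.maxHeartbeats 100000

noncomputable section

open IntermediateField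

namespace FLTAgent.LevelPow

open LevelSq TW.Flat

local notation "Qbar" => AlgebraicClosure ℚ
local notation "Γℚ" => AlgebraicClosure ℚ ≃ₐ[ℚ] AlgebraicClosure ℚ

section Defs

variable (A : ValuationSubring Qbar) (E : IntermediateField ℚ Qbar)

/-- The fixed field of the elements of inertia fixing `E`. -/
def extField : IntermediateField ℚ Qbar :=
  IntermediateField.fixedField (A.inertiaSubgroupIn ℚ ⊓ E.fixingSubgroup)

/-- The valuation ring of `extField A E`. -/
def extRing : ValuationSubring (extField A E) := A.comap (algebraMap (extField A E) Qbar)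

theorem urField_le_extField : urField A ≤ extField A E := fun x hx => by
  rw [extField, IntermediateField.mem_fixedField_iff]
  exact fun σ hσ => (IntermediateField.mem_fixedField_iff _ _).1 hx σ hσ.1

theorem le_extField : E ≤ extField A E := fun x hx => by
  rw [extField, IntermediateField.mem_fixedField_iff]
  exact fun σ hσ => (IntermediateField.mem_fixingSubgroup_iff _ σ).1 hσ.2 x hx

/-- `extRing A E → ℚ̄`. -/
def extToQbar : extRing A E →+* Qbar :=
  (algebraMap (extField A E) Qbar).comp (extRing A E).subtype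

instance extRingAlgebra : Algebra (extRing A E) Qbar := (extToQbar A E).toAlgebra

theorem algebraMap_extRing_injective : Function.Injective (algebraMap (extRing A E) Qbar) :=
  (algebraMap (extField A E) Qbar).injective.comp Subtype.val_injective

theorem algebraMap_extRing_apply (x : extRing A E) :
    algebraMap (extRing A E) Qbar x = ((x : extField A E) : Qbar) := rfl

/-- `urRing A → extRing A E`. -/
def urExtIncl : urRing A →+* extRing A E :=
  ((IntermediateField.inclusion (urField_le_extField A E)).toRingHom.comp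
    (urRing A).subtype).codRestrict (extRing A E).toSubring fun x => x.2

theorem algebraMap_urExtIncl (a : urRing A) :
    algebraMap (extRing A E) Qbar (urExtIncl A E a) = ((a : urField A) : Qbar) := rfl

end Defs

variable {q : ℕ} [hq : Fact q.Prime] {A : ValuationSubring Qbar} (hA : A.LiesOverPrime q)
  (E : IntermediateField ℚ Qbar) [FiniteDimensional ℚ E]
include hA

/-- The norm group of `extField A E` is discrete. -/
theorem exists_nm_pow_zpow {𝔓 : LocalPlace q} (h𝔓 : 𝔓.P = A) :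
    ∃ N : ℕ, 0 < N ∧ ∀ x ∈ extField A E, x ≠ 0 → ∃ n : ℤ, 𝔓.nm x ^ N = (q : ℝ) ^ n := by
  classical
  subst h𝔓
  refine ⟨(Fintype.card (E →ₐ[ℚ] Qbar)).factorial, Nat.factorial_pos _, fun x hx hx0 => ?_⟩
  let r : (E →ₐ[ℚ] Qbar) → Qbar := fun f =>
    if h : ∃ σ ∈ 𝔓.I, (σ : Qbar →ₐ[ℚ] Qbar).comp E.val = f then h.choose x else 1
  set O : Finset Qbar := (Finset.univ.filter fun f : E →ₐ[ℚ] Qbar =>
    ∃ σ ∈ 𝔓.I, (σ : Qbar →ₐ[ℚ] Qbar).comp E.val = f).image r with hO
  have hmem : ∀ o, o ∈ O ↔ ∃ σ ∈ 𝔓.I, σ x = o := by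
    intro o
    simp only [hO, Finset.mem_image, Finset.mem_filter, Finset.mem_univ, true_and]
    constructor
    · rintro ⟨f, hf, rfl⟩
      exact ⟨hf.choose, hf.choose_spec.1, by simp only [r, dif_pos hf]⟩
    · rintro ⟨σ, hσ, rfl⟩
      have h : ∃ τ ∈ 𝔓.I, (τ : Qbar →ₐ[ℚ] Qbar).comp E.val = (σ : Qbar →ₐ[ℚ] Qbar).comp E.val :=
        ⟨σ, hσ, rfl⟩
      refine ⟨_, h, ?_⟩
      simp only [r, dif_pos h]
      obtain ⟨hτ, hτE⟩ := h.choose_spec
      have hfix := (IntermediateField.mem_fixedField_iff _ _).1 hx (σ⁻¹ * h.choose)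
        (Subgroup.mem_inf.2 ⟨𝔓.I.mul_mem (𝔓.I.inv_mem hσ) hτ, (IntermediateField.mem_fixingSubgroup_iff _ _).2 fun y hy => by
          have h1 : h.choose y = σ y := AlgHom.congr_fun hτE ⟨y, hy⟩
          rw [AlgEquiv.mul_apply, h1]
          exact σ.symm_apply_apply y⟩)
      simpa using congrArg σ hfix
  have hP : ∏ o ∈ O, o ∈ 𝔓.K₀ := by
    rw [𝔓.mem_K₀]
    intro σ hσ
    rw [map_prod]
    refine Finset.prod_bij' (fun o _ => σ o) (fun o _ => σ⁻¹ o) (fun o ho => ?_) (fun o ho => ?_)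
      (fun o _ => by simp) (fun o _ => by simp) fun o _ => rfl
    · obtain ⟨τ, hτ, rfl⟩ := (hmem o).1 ho
      exact (hmem _).2 ⟨σ * τ, mul_mem hσ hτ, rfl⟩
    · obtain ⟨τ, hτ, rfl⟩ := (hmem o).1 ho
      exact (hmem _).2 ⟨σ⁻¹ * τ, mul_mem (inv_mem hσ) hτ, rfl⟩
  have hP0 : ∏ o ∈ O, o ≠ 0 := Finset.prod_ne_zero_iff.2 fun o ho => by
    obtain ⟨τ, -, rfl⟩ := (hmem o).1 ho
    exact (map_ne_zero_iff _ τ.injective).2 hx0
  obtain ⟨n, hn⟩ := 𝔓.exists_zpow_of_mem_K₀ hP hP0
  rw [map_prod, Finset.prod_congr rfl (g := fun _ => 𝔓.nm x) fun o ho => by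
    obtain ⟨τ, hτ, rfl⟩ := (hmem o).1 ho
    exact 𝔓.nm_apply (𝔓.I_le_D hτ) x, Finset.prod_const] at hn
  have hpos : 0 < O.card := Finset.card_pos.2 ⟨x, (hmem x).2 ⟨1, one_mem _, rfl⟩⟩
  obtain ⟨c, hc⟩ := Nat.dvd_factorial hpos
    (Finset.card_image_le.trans (Finset.card_filter_le _ _) : O.card ≤ _)
  refine ⟨n * c, ?_⟩
  rw [← Finset.card_univ, hc, pow_mul, hn, zpow_mul, zpow_natCast]

theorem not_isUnit_extRing {x : extRing A E} (hx : ((x : extField A E) : Qbar) ∈ A.nonunits) :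
    ¬ IsUnit x := by
  rintro ⟨u, rfl⟩
  rw [A.mem_nonunits_iff_or] at hx
  rcases hx with h | h
  · exact u.ne_zero (Subtype.ext (Subtype.ext h))
  · refine h ?_
    have h2 : ((((u⁻¹ : (extRing A E)ˣ) : extRing A E) : extField A E) : Qbar) =
        ((((u : extRing A E) : extField A E) : Qbar))⁻¹ := eq_inv_of_mul_eq_one_left
      (congrArg (fun z : extRing A E => ((z : extField A E) : Qbar)) u.inv_mul)
    rw [← h2]
    exact ((u⁻¹ : (extRing A E)ˣ) : extRing A E).2

theorem urExtIncl_natCast_ne_zero : urExtIncl A E (q : urRing A) ≠ 0 := by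
  rw [map_natCast]
  intro h
  have h1 := congrArg (fun z : extRing A E => ((z : extField A E) : Qbar)) h
  exact hq.out.ne_zero (by simpa using h1)

theorem not_isUnit_urExtIncl : ¬ IsUnit (urExtIncl A E (q : urRing A)) := by
  refine not_isUnit_extRing hA E ?_
  rw [map_natCast]
  simpa using natCast_mem_nonunits hA

theorem isDiscreteValuationRing_extRing : IsDiscreteValuationRing (extRing A E) := by
  classical
  obtain ⟨𝔓, rfl, -⟩ := exists_nm hA
  obtain ⟨N, hN, hnm⟩ := exists_nm_pow_zpow hA E (𝔓 := 𝔓) rfl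
  have hq1 : (1 : ℝ) < q := mod_cast hq.out.one_lt
  let W := extRing 𝔓.P E
  let v : W → ℝ := fun z => 𝔓.nm ((z : extField 𝔓.P E) : Qbar)
  have hv : ∀ z : W, z ≠ 0 → ∃ a : ℕ, v z ^ N = (q : ℝ) ^ (-(a : ℤ)) := by
    intro z hz
    obtain ⟨n, hn⟩ := hnm _ (z : extField 𝔓.P E).2 fun h => hz (Subtype.ext (Subtype.ext h))
    have h1 : v z ^ N ≤ 1 := pow_le_one₀ (𝔓.nm_nonneg _) ((𝔓.mem_iff _).1 z.2)
    rw [show v z ^ N = (q : ℝ) ^ n from hn] at h1 ⊢
    obtain ⟨a, ha⟩ := Int.exists_eq_neg_ofNat ((zpow_le_one_iff_right₀ hq1).1 h1)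
    exact ⟨a, by rw [ha]⟩
  have hex : ∃ n : ℕ, 0 < n ∧ ∃ p : W, v p ^ N = (q : ℝ) ^ (-(n : ℤ)) := by
    refine ⟨N, hN, urExtIncl _ E (q : urRing 𝔓.P), ?_⟩
    show 𝔓.nm ((((urExtIncl _ E (q : urRing 𝔓.P) : W) : extField 𝔓.P E) : Qbar)) ^ N = _
    rw [map_natCast]
    push_cast
    rw [𝔓.nm_p, inv_pow, zpow_neg, zpow_natCast]
  obtain ⟨hn, p, hp⟩ := Nat.find_spec hex
  set n := Nat.find hex
  have hp0 : p ≠ 0 := by
    rintro rfl
    simp [v, zero_pow hN.ne'] at hp
    exact absurd hp.symm (pow_ne_zero _ (Nat.cast_ne_zero.2 hq.out.ne_zero))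
  have hfac : ∀ z : W, z ≠ 0 → ∃ (s : ℕ) (u : Wˣ), z = u * p ^ s := by
    intro z hz
    obtain ⟨a, ha⟩ := hv z hz
    set y : extField 𝔓.P E := (z : extField 𝔓.P E) / (p : extField 𝔓.P E) ^ (a / n) with hy
    have hz0 : (z : extField 𝔓.P E) ≠ 0 := fun h => hz (Subtype.ext h)
    have hp0' : (p : extField 𝔓.P E) ≠ 0 := fun h => hp0 (Subtype.ext h)
    have hyN : 𝔓.nm (y : Qbar) ^ N = (q : ℝ) ^ (-((a % n : ℕ) : ℤ)) := by
      rw [hy]
      push_cast
      rw [map_div₀, map_pow, div_pow, ← pow_mul, mul_comm (a / n), pow_mul]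
      change v z ^ N / (v p ^ N) ^ (a / n) = _
      rw [ha, hp, ← zpow_natCast, ← zpow_mul, ← zpow_sub₀ (by positivity)]
      congr 1
      have := Nat.mod_add_div a n
      push_cast
      nth_rewrite 1 [← this]
      push_cast
      ring
    have hy1 : 𝔓.nm (y : Qbar) ≤ 1 :=
      (pow_le_one_iff_of_nonneg (𝔓.nm_nonneg _) hN.ne').1 (hyN ▸
        zpow_le_one_of_nonpos₀ hq1.le (by omega))
    have hyW : y ∈ W := (𝔓.mem_iff _).2 hy1
    have hmod : a % n = 0 := by
      by_contra hne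
      exact Nat.find_min hex (Nat.mod_lt a hn) ⟨Nat.pos_of_ne_zero hne, ⟨y, hyW⟩, hyN⟩
    have hy2 : 𝔓.nm (y : Qbar) = 1 := by
      rw [hmod, Nat.cast_zero, neg_zero, zpow_zero] at hyN
      exact (pow_eq_one_iff_of_nonneg (𝔓.nm_nonneg _) hN.ne').1 hyN
    have hy0 : y ≠ 0 := div_ne_zero hz0 (pow_ne_zero _ hp0')
    have hyi : y⁻¹ ∈ W := by
      refine (𝔓.mem_iff _).2 (le_of_eq ?_)
      show 𝔓.nm ((y⁻¹ : extField 𝔓.P E) : Qbar) = 1
      push_cast
      rw [map_inv₀, hy2, inv_one]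
    refine ⟨a / n, ⟨⟨y, hyW⟩, ⟨y⁻¹, hyi⟩, Subtype.ext (mul_inv_cancel₀ hy0),
      Subtype.ext (inv_mul_cancel₀ hy0)⟩, Subtype.ext ?_⟩
    exact (div_mul_cancel₀ _ (pow_ne_zero _ hp0')).symm
  have hpu : ¬ IsUnit p := by
    refine not_isUnit_extRing hA E ((𝔓.mem_nonunits_iff _).2 ?_)
    by_contra hle
    have h1 := one_le_pow₀ (not_lt.1 hle) (n := N)
    rw [show 𝔓.nm _ ^ N = _ from hp] at h1
    exact absurd h1 (not_le.2 (zpow_lt_one_of_neg₀ hq1 (by omega)))
  refine IsDiscreteValuationRing.ofHasUnitMulPowIrreducibleFactorization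
    ⟨p, irreducible_of_unit_mul_pow hp0 hpu hfac, fun {z} hz => ?_⟩
  obtain ⟨s, u, hsu⟩ := hfac z hz
  exact ⟨s, u, by rw [hsu, mul_comm]⟩

/-- Units of `extRing A E` are `m`-th powers, `m` prime to `q`. -/
theorem exists_root_ext {m : ℕ} (hm : ¬ q ∣ m) (u : (extRing A E)ˣ) :
    ∃ c : extRing A E, c ^ m = u := by
  have hm0 : m ≠ 0 := fun h => hm (h ▸ dvd_zero q)
  set u' : Qbar := (((u : extRing A E) : extField A E) : Qbar) with hu'
  set ui : Qbar := ((((u⁻¹ : (extRing A E)ˣ) : extRing A E) : extField A E) : Qbar) with hui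
  have hmul : u' * ui = 1 := congrArg (fun z : extRing A E => ((z : extField A E) : Qbar)) u.mul_inv
  obtain ⟨y, hy⟩ := IsAlgClosed.exists_pow_nat_eq u' (Nat.pos_of_ne_zero hm0)
  have hy0 : y ≠ 0 := by
    rintro rfl
    rw [zero_pow hm0] at hy
    exact left_ne_zero_of_mul_eq_one hmul hy.symm
  have hpow : y ^ (m - 1) * y = u' := by
    rw [← pow_succ, Nat.sub_add_cancel (Nat.pos_of_ne_zero hm0), hy]
  have hyA : y ∈ A := by
    rcases A.mem_or_inv_mem y with h | h
    · exact h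
    · rw [show y = u' * y⁻¹ ^ (m - 1) by
        rw [← hpow, inv_pow, mul_assoc, mul_left_comm, mul_inv_cancel₀ (pow_ne_zero _ hy0),
          mul_one]]
      exact mul_mem (u : extRing A E).2 (pow_mem h _)
  have hyiA : y⁻¹ ∈ A := by
    rw [show y⁻¹ = ui * y ^ (m - 1) by
      refine inv_eq_of_mul_eq_one_right ?_
      rw [mul_left_comm, mul_comm y, hpow, mul_comm, hmul]]
    exact mul_mem ((u⁻¹ : (extRing A E)ˣ) : extRing A E).2 (pow_mem hyA _)
  have hfix : y ∈ extField A E := by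
    rw [extField, IntermediateField.mem_fixedField_iff]
    intro σ hσ
    have hd := (Frobenius.mem_inertiaSubgroupIn_iff.1 hσ.1).2 y hyA
    have hσA : σ y ∈ A := by simpa using A.add_mem _ _ (A.nonunits_subset hd) hyA
    have hm1 : σ y ^ m = y ^ m := by
      rw [← map_pow, hy]
      exact (IntermediateField.mem_fixedField_iff _ _).1 ((u : extRing A E) : extField A E).2 σ hσ
    set z : A := ⟨σ y, hσA⟩ * ⟨y⁻¹, hyiA⟩ with hz
    have h1 : z = 1 := by
      refine eq_one_of_residue_eq_one hA hm (Subtype.ext ?_) ?_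
      · show (σ y * y⁻¹) ^ m = 1
        rw [mul_pow, inv_pow, hm1, mul_inv_cancel₀ (pow_ne_zero _ hy0)]
      · rw [hz, map_mul, show IsLocalRing.residue A (⟨σ y, hσA⟩ : A) =
            IsLocalRing.residue A ⟨y, hyA⟩ from by
          rw [← sub_eq_zero, ← map_sub, residue_eq_zero_iff' hA]; exact hd, ← map_mul]
        convert map_one (IsLocalRing.residue A)
        exact Subtype.ext (mul_inv_cancel₀ hy0)
    have h2 : σ y * y⁻¹ = 1 := congrArg Subtype.val h1
    rwa [mul_inv_eq_one₀ hy0] at h2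
  exact ⟨⟨⟨y, hfix⟩, hyA⟩, Subtype.ext (Subtype.ext (by simpa [u'] using hy))⟩

end FLTAgent.LevelPow
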